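/-
S14 long shot, brick (C0) (helper6): the Artin symbol of an abelian extension of number fields:
Frobenius elements, the Artin map on nonzero ideals, norms, functoriality.
-/
import Mathlib

set_option autoImplicit false
set_option linter.unusedSectionVars false
set_option linter.style.haveILetI false

open NumberField IsDedekindDomain

namespace Fermat.Agent.ExtVan

open scoped Pointwise

section Basic

variable (F L : Type*) [Field F] [Field L] [NumberField F] [NumberField L] [Algebra F L]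
  [IsGalois F L]

/-- A prime of `𝓞 L` above a nonzero prime is nonzero. -/
lemma ne_bot_of_liesOver (q : HeightOneSpectrum (𝓞 F)) (Q : Ideal (𝓞 L)) [Q.LiesOver q.asIdeal] :
    Q ≠ ⊥ :=
  Ideal.ne_bot_of_liesOver_of_ne_bot q.ne_bot Q

lemma finite_quotient_of_liesOver (q : HeightOneSpectrum (𝓞 F)) (Q : Ideal (𝓞 L))
    [Q.LiesOver q.asIdeal] : Finite (𝓞 L ⧸ Q) :=
  Ideal.finiteQuotientOfFreeOfNeBot Q (ne_bot_of_liesOver F L q Q)

/-- `q` is unramified in `L`: all inertia groups above `q` are trivial. -/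
def UnramAt (q : HeightOneSpectrum (𝓞 F)) : Prop :=
  ∀ Q : Ideal (𝓞 L), Q.IsPrime → Q.LiesOver q.asIdeal → Ideal.inertia Gal(L/F) Q = ⊥

variable {F L} in
lemma unramAt_of_ramificationIdx {q : HeightOneSpectrum (𝓞 F)}
    (h : ∀ Q : Ideal (𝓞 L), Q.IsPrime → Q.LiesOver q.asIdeal → Q.ramificationIdx (𝓞 F) = 1) :
    UnramAt F L q := by
  intro Q hQ hQq
  have h1 := Ideal.card_inertia_eq_ramificationIdxIn (G := Gal(L/F)) q.asIdeal Q
  rw [Ideal.ramificationIdxIn_eq_ramificationIdx q.asIdeal Q Gal(L/F), h Q hQ hQq] at h1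
  exact Subgroup.card_eq_one.mp h1

/-- A chosen prime of `𝓞 L` above `q`. -/
noncomputable def primeAbove (q : HeightOneSpectrum (𝓞 F)) : q.asIdeal.primesOver (𝓞 L) :=
  Classical.choice (Ideal.nonempty_primesOver q.asIdeal)

instance (q : HeightOneSpectrum (𝓞 F)) : (primeAbove F L q).1.IsPrime :=
  Ideal.primesOver.isPrime _ _

instance (q : HeightOneSpectrum (𝓞 F)) : (primeAbove F L q).1.LiesOver q.asIdeal :=
  Ideal.primesOver.liesOver _ _

/-- The Frobenius element of `q` in `Gal(L/F)` (at a chosen prime above `q`;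
independent of the choice when `L/F` is abelian, unique when moreover `q` is unramified). -/
noncomputable def frob (q : HeightOneSpectrum (𝓞 F)) : Gal(L/F) :=
  haveI := finite_quotient_of_liesOver F L q (primeAbove F L q).1
  arithFrobAt (𝓞 F) Gal(L/F) (primeAbove F L q).1

lemma isArithFrobAt_frob_primeAbove (q : HeightOneSpectrum (𝓞 F)) :
    IsArithFrobAt (𝓞 F) (frob F L q) (primeAbove F L q).1 :=
  haveI := finite_quotient_of_liesOver F L q (primeAbove F L q).1
  IsArithFrobAt.arithFrobAt (𝓞 F) Gal(L/F) (primeAbove F L q).1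

end Basic

section Abelian

variable (F L : Type*) [Field F] [Field L] [NumberField F] [NumberField L] [Algebra F L]
  [IsAbelianGalois F L]

/-- In an abelian extension the Frobenius is a Frobenius at every prime above `q`. -/
lemma isArithFrobAt_frob (q : HeightOneSpectrum (𝓞 F)) (Q : Ideal (𝓞 L)) [Q.IsPrime]
    [Q.LiesOver q.asIdeal] : IsArithFrobAt (𝓞 F) (frob F L q) Q := by
  obtain ⟨g, hg⟩ := Algebra.IsInvariant.exists_smul_of_under_eq (𝓞 F) (𝓞 L) Gal(L/F)
    (primeAbove F L q).1 Q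
    (((primeAbove F L q).1.over_def q.asIdeal).symm.trans (Q.over_def q.asIdeal))
  have h := (isArithFrobAt_frob_primeAbove F L q).conj g
  rw [← hg] at h
  have hcomm : g * frob F L q * g⁻¹ = frob F L q := by
    rw [mul_comm' g, mul_assoc, mul_inv_cancel, mul_one]
  rwa [hcomm] at h

variable {F L} in
/-- Uniqueness of the Frobenius at an unramified prime. -/
lemma frob_eq_of_isArithFrobAt {q : HeightOneSpectrum (𝓞 F)} (hq : UnramAt F L q)
    {σ : Gal(L/F)} {Q : Ideal (𝓞 L)} [Q.IsPrime] [Q.LiesOver q.asIdeal]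
    (h : IsArithFrobAt (𝓞 F) σ Q) : σ = frob F L q := by
  have h1 := h.mul_inv_mem_inertia (isArithFrobAt_frob F L q Q)
  rw [hq Q inferInstance inferInstance, Subgroup.mem_bot] at h1
  exact mul_inv_eq_one.mp h1

lemma frob_smul_sub_pow_mem (q : HeightOneSpectrum (𝓞 F)) (Q : Ideal (𝓞 L)) [Q.IsPrime]
    [Q.LiesOver q.asIdeal] (x : 𝓞 L) :
    frob F L q • x - x ^ Ideal.absNorm q.asIdeal ∈ Q := by
  have h := isArithFrobAt_frob F L q Q x
  rw [← Q.over_def q.asIdeal] at h
  have h2 : Nat.card (𝓞 F ⧸ q.asIdeal) = Ideal.absNorm q.asIdeal := by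
    rw [Ideal.absNorm_apply, Submodule.cardQuot_apply]
  rw [h2] at h
  exact h

lemma frob_pow_smul_sub_pow_mem (q : HeightOneSpectrum (𝓞 F)) (Q : Ideal (𝓞 L)) [Q.IsPrime]
    [Q.LiesOver q.asIdeal] (j : ℕ) (x : 𝓞 L) :
    (frob F L q ^ j) • x - x ^ (Ideal.absNorm q.asIdeal ^ j) ∈ Q := by
  induction j generalizing x with
  | zero => simp
  | succ j ih =>
    have h1 := ih (frob F L q • x)
    have h2 := frob_smul_sub_pow_mem F L q Q x
    have h3 : (frob F L q • x) ^ (Ideal.absNorm q.asIdeal ^ j) -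
        (x ^ Ideal.absNorm q.asIdeal) ^ (Ideal.absNorm q.asIdeal ^ j) ∈ Q :=
      Ideal.mem_of_dvd _ (sub_dvd_pow_sub_pow _ _ _) h2
    have h4 : (frob F L q ^ (j + 1)) • x - x ^ (Ideal.absNorm q.asIdeal ^ (j + 1)) =
        ((frob F L q ^ j) • (frob F L q • x) - (frob F L q • x) ^ (Ideal.absNorm q.asIdeal ^ j)) +
        ((frob F L q • x) ^ (Ideal.absNorm q.asIdeal ^ j) -
          (x ^ Ideal.absNorm q.asIdeal) ^ (Ideal.absNorm q.asIdeal ^ j)) := by
      rw [pow_succ (frob F L q), mul_smul, ← pow_mul, pow_succ' (Ideal.absNorm q.asIdeal)]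
      ring
    rw [h4]
    exact Q.add_mem h1 h3

/-- For every `y` in the residue field at `Q`, `y ^ absNorm Q = y`. -/
lemma pow_absNorm_sub_mem (Q : Ideal (𝓞 L)) [Q.IsPrime] (hQ : Q ≠ ⊥) (x : 𝓞 L) :
    x ^ Ideal.absNorm Q - x ∈ Q := by
  haveI : Q.IsMaximal := Ring.DimensionLEOne.maximalOfPrime hQ inferInstance
  letI := Ideal.Quotient.field Q
  haveI : Finite (𝓞 L ⧸ Q) := Ideal.finiteQuotientOfFreeOfNeBot Q hQ
  haveI := Fintype.ofFinite (𝓞 L ⧸ Q)
  rw [← Ideal.Quotient.eq_zero_iff_mem, map_sub, map_pow, sub_eq_zero]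
  have h2 : Ideal.absNorm Q = Fintype.card (𝓞 L ⧸ Q) := by
    rw [Ideal.absNorm_apply, Submodule.cardQuot_apply, Nat.card_eq_fintype_card]
  rw [h2]
  exact FiniteField.pow_card _

variable {F L} in
/-- The Frobenius of an unramified prime is killed by the inertia degree. -/
lemma frob_pow_inertiaDeg {q : HeightOneSpectrum (𝓞 F)} (hq : UnramAt F L q)
    (Q : Ideal (𝓞 L)) [Q.IsPrime] [Q.LiesOver q.asIdeal] :
    frob F L q ^ Q.inertiaDeg (𝓞 F) = 1 := by
  have hmem : frob F L q ^ Q.inertiaDeg (𝓞 F) ∈ Ideal.inertia Gal(L/F) Q := by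
    intro x
    have h1 := frob_pow_smul_sub_pow_mem F L q Q (Q.inertiaDeg (𝓞 F)) x
    rw [Ideal.absNorm_pow_inertiaDeg q.asIdeal Q] at h1
    have h2 := pow_absNorm_sub_mem L Q (ne_bot_of_liesOver F L q Q) x
    have := Q.add_mem h1 h2
    simpa using this
  rw [hq Q inferInstance inferInstance, Subgroup.mem_bot] at hmem
  exact hmem

lemma two_le_absNorm (q : HeightOneSpectrum (𝓞 F)) : 2 ≤ Ideal.absNorm q.asIdeal := by
  have h0 : Ideal.absNorm q.asIdeal ≠ 0 := by
    rw [Ne, Ideal.absNorm_eq_zero_iff]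
    exact q.ne_bot
  have h1 : Ideal.absNorm q.asIdeal ≠ 1 := by
    rw [Ne, Ideal.absNorm_eq_one_iff]
    exact q.isPrime.ne_top
  omega

variable {F L} in
/-- If the Frobenius is trivial then the inertia degree is one. -/
lemma inertiaDeg_eq_one_of_frob_eq_one {q : HeightOneSpectrum (𝓞 F)}
    (h : frob F L q = 1) (Q : Ideal (𝓞 L)) [Q.IsPrime] [Q.LiesOver q.asIdeal] :
    Q.inertiaDeg (𝓞 F) = 1 := by
  have hQ : Q ≠ ⊥ := ne_bot_of_liesOver F L q Q
  haveI : Q.IsMaximal := Ring.DimensionLEOne.maximalOfPrime hQ inferInstance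
  letI := Ideal.Quotient.field Q
  haveI : Finite (𝓞 L ⧸ Q) := Ideal.finiteQuotientOfFreeOfNeBot Q hQ
  haveI := Fintype.ofFinite (𝓞 L ⧸ Q)
  classical
  set n := Ideal.absNorm q.asIdeal with hn
  have hn2 : 2 ≤ n := two_le_absNorm F q
  -- every element of the residue field is a root of `X ^ n - X`
  have hroot : ∀ y : 𝓞 L ⧸ Q, y ^ n = y := by
    intro y
    obtain ⟨x, rfl⟩ := Ideal.Quotient.mk_surjective y
    have h1 := frob_smul_sub_pow_mem F L q Q x
    rw [h, one_smul, ← Ideal.Quotient.eq_zero_iff_mem, map_sub, map_pow, sub_eq_zero] at h1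
    exact h1.symm
  have hcard : Fintype.card (𝓞 L ⧸ Q) ≤ n := by
    have hp : (Polynomial.X ^ n - Polynomial.X : Polynomial (𝓞 L ⧸ Q)) ≠ 0 :=
      FiniteField.X_pow_card_sub_X_ne_zero (𝓞 L ⧸ Q) (by omega)
    have hdeg : (Polynomial.X ^ n - Polynomial.X : Polynomial (𝓞 L ⧸ Q)).natDegree = n :=
      FiniteField.X_pow_card_sub_X_natDegree_eq (𝓞 L ⧸ Q) (by omega)
    have hsub : (Finset.univ : Finset (𝓞 L ⧸ Q)) ⊆
        (Polynomial.X ^ n - Polynomial.X : Polynomial (𝓞 L ⧸ Q)).roots.toFinset := by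
      intro y _
      rw [Multiset.mem_toFinset, Polynomial.mem_roots hp, Polynomial.IsRoot.def]
      simp [hroot y]
    calc Fintype.card (𝓞 L ⧸ Q) = (Finset.univ : Finset (𝓞 L ⧸ Q)).card := rfl
      _ ≤ _ := Finset.card_le_card hsub
      _ ≤ _ := Multiset.toFinset_card_le _
      _ ≤ _ := Polynomial.card_roots' _
      _ = n := hdeg
  have h2 : Ideal.absNorm Q = Fintype.card (𝓞 L ⧸ Q) := by
    rw [Ideal.absNorm_apply, Submodule.cardQuot_apply, Nat.card_eq_fintype_card]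
  have h3 := Ideal.absNorm_pow_inertiaDeg q.asIdeal Q
  rw [h2, ← hn] at h3
  have hpos : 0 < Q.inertiaDeg (𝓞 F) := Ideal.inertiaDeg_pos Q (𝓞 F)
  by_contra hne
  have h4 : 2 ≤ Q.inertiaDeg (𝓞 F) := by omega
  have h5 : n ^ 2 ≤ n ^ Q.inertiaDeg (𝓞 F) := Nat.pow_le_pow_right (by omega) h4
  nlinarith

variable {F L} in
/-- At an unramified prime: trivial Frobenius iff inertia degree one. -/
lemma frob_eq_one_iff {q : HeightOneSpectrum (𝓞 F)} (hq : UnramAt F L q)
    (Q : Ideal (𝓞 L)) [Q.IsPrime] [Q.LiesOver q.asIdeal] :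
    frob F L q = 1 ↔ Q.inertiaDeg (𝓞 F) = 1 := by
  refine ⟨fun h => inertiaDeg_eq_one_of_frob_eq_one h Q, fun h => ?_⟩
  have := frob_pow_inertiaDeg hq Q
  rwa [h, pow_one] at this

/-! ### The Artin map on nonzero ideals -/

open scoped IsMulCommutative nonZeroDivisors
open UniqueFactorizationMonoid

open Classical in
/-- Frobenius of an ideal: the Frobenius if it is a nonzero prime, `1` otherwise. -/
noncomputable def frobIdeal (P : Ideal (𝓞 F)) : Gal(L/F) :=
  if h : P.IsPrime ∧ P ≠ ⊥ then frob F L ⟨P, h.1, h.2⟩ else 1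

lemma frobIdeal_asIdeal (q : HeightOneSpectrum (𝓞 F)) : frobIdeal F L q.asIdeal = frob F L q := by
  rw [frobIdeal, dif_pos ⟨q.isPrime, q.ne_bot⟩]

/-- The Artin symbol of a (nonzero) ideal: the product of the Frobenius elements of its prime
factors (with multiplicity). -/
noncomputable def artinFun (I : Ideal (𝓞 F)) : Gal(L/F) :=
  ((normalizedFactors I).map (frobIdeal F L)).prod

lemma artinFun_mul {I J : Ideal (𝓞 F)} (hI : I ≠ 0) (hJ : J ≠ 0) :
    artinFun F L (I * J) = artinFun F L I * artinFun F L J := by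
  rw [artinFun, normalizedFactors_mul hI hJ, Multiset.map_add, Multiset.prod_add]
  rfl

lemma artinFun_one : artinFun F L 1 = 1 := by
  rw [artinFun, normalizedFactors_one, Multiset.map_zero, Multiset.prod_zero]

lemma artinFun_asIdeal (q : HeightOneSpectrum (𝓞 F)) : artinFun F L q.asIdeal = frob F L q := by
  rw [artinFun, normalizedFactors_irreducible q.irreducible, normalize_eq, Multiset.map_singleton,
    Multiset.prod_singleton, frobIdeal_asIdeal]

/-- **The Artin map** of an abelian extension of number fields, on the monoid of nonzero ideals. -/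
noncomputable def artin : (Ideal (𝓞 F))⁰ →* Gal(L/F) where
  toFun I := artinFun F L I
  map_one' := artinFun_one F L
  map_mul' I J := artinFun_mul F L (nonZeroDivisors.coe_ne_zero I) (nonZeroDivisors.coe_ne_zero J)

lemma artin_apply (I : (Ideal (𝓞 F))⁰) : artin F L I = artinFun F L I := rfl

/-- A nonzero prime as an element of `(Ideal (𝓞 F))⁰`. -/
def primeIdeal (q : HeightOneSpectrum (𝓞 F)) : (Ideal (𝓞 F))⁰ :=
  ⟨q.asIdeal, mem_nonZeroDivisors_of_ne_zero q.ne_bot⟩

@[simp] lemma coe_primeIdeal (q : HeightOneSpectrum (𝓞 F)) :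
    ((primeIdeal F q : (Ideal (𝓞 F))⁰) : Ideal (𝓞 F)) = q.asIdeal := rfl

lemma artin_primeIdeal (q : HeightOneSpectrum (𝓞 F)) : artin F L (primeIdeal F q) = frob F L q :=
  artinFun_asIdeal F L q

/-- The prime of `𝓞 F` below a nonzero prime of `𝓞 L`. -/
noncomputable def primeBelow (Q : HeightOneSpectrum (𝓞 L)) : HeightOneSpectrum (𝓞 F) :=
  ⟨Q.asIdeal.under (𝓞 F), Ideal.IsPrime.under (𝓞 F) Q.asIdeal,
    Ideal.under_ne_bot (𝓞 F) Q.ne_bot⟩

instance (Q : HeightOneSpectrum (𝓞 L)) : Q.asIdeal.LiesOver (primeBelow F L Q).asIdeal :=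
  Ideal.over_under Q.asIdeal

lemma relNorm_ne_zero {A : Ideal (𝓞 L)} (hA : A ≠ 0) : Ideal.relNorm (𝓞 F) A ≠ 0 := by
  rw [Ne, Ideal.zero_eq_bot, Ideal.relNorm_eq_bot_iff]
  exact hA

/-- The relative norm on nonzero ideals. -/
noncomputable def relNorm₀ : (Ideal (𝓞 L))⁰ →* (Ideal (𝓞 F))⁰ where
  toFun A := ⟨Ideal.relNorm (𝓞 F) (A : Ideal (𝓞 L)),
    mem_nonZeroDivisors_of_ne_zero (relNorm_ne_zero F L (nonZeroDivisors.coe_ne_zero A))⟩
  map_one' := Subtype.ext (map_one (Ideal.relNorm (𝓞 F)))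
  map_mul' _ _ := Subtype.ext (map_mul (Ideal.relNorm (𝓞 F)) _ _)

@[simp] lemma coe_relNorm₀ (A : (Ideal (𝓞 L))⁰) :
    ((relNorm₀ F L A : (Ideal (𝓞 F))⁰) : Ideal (𝓞 F)) = Ideal.relNorm (𝓞 F) (A : Ideal (𝓞 L)) :=
  rfl

lemma relNorm_asIdeal (Q : HeightOneSpectrum (𝓞 L)) :
    Ideal.relNorm (𝓞 F) Q.asIdeal =
      (primeBelow F L Q).asIdeal ^ Q.asIdeal.inertiaDeg (𝓞 F) := by
  haveI : Q.asIdeal.IsMaximal := Q.isMaximal
  haveI : (primeBelow F L Q).asIdeal.IsMaximal := (primeBelow F L Q).isMaximal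
  exact Ideal.relNorm_eq_pow_of_isMaximal Q.asIdeal (primeBelow F L Q).asIdeal

lemma artinFun_pow {I : Ideal (𝓞 F)} (hI : I ≠ 0) (n : ℕ) :
    artinFun F L (I ^ n) = artinFun F L I ^ n := by
  induction n with
  | zero => rw [pow_zero, pow_zero, artinFun_one]
  | succ n ih => rw [pow_succ, artinFun_mul F L (pow_ne_zero n hI) hI, ih, pow_succ]

/-- The Artin symbol of the norm of a prime above an unramified prime is trivial. -/
lemma artinFun_relNorm_asIdeal (Q : HeightOneSpectrum (𝓞 L))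
    (hq : UnramAt F L (primeBelow F L Q)) :
    artinFun F L (Ideal.relNorm (𝓞 F) Q.asIdeal) = 1 := by
  rw [relNorm_asIdeal, artinFun_pow F L (primeBelow F L Q).ne_bot, artinFun_asIdeal]
  haveI := Q.isPrime
  exact frob_pow_inertiaDeg hq Q.asIdeal

/-- **Norms are in the kernel of the Artin map** (all prime factors of `A` lying over unramified
primes). -/
theorem artinFun_relNorm (A : Ideal (𝓞 L)) (hA : A ≠ 0)
    (hunr : ∀ Q : HeightOneSpectrum (𝓞 L), Q.asIdeal ∣ A → UnramAt F L (primeBelow F L Q)) :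
    artinFun F L (Ideal.relNorm (𝓞 F) A) = 1 := by
  induction A using UniqueFactorizationMonoid.induction_on_prime with
  | h₁ => exact absurd rfl hA
  | h₂ x hx =>
    rw [Ideal.isUnit_iff] at hx
    rw [hx, ← Ideal.one_eq_top, map_one, artinFun_one]
  | h₃ a p ha hp ih =>
    have hpp : p.IsPrime := Ideal.isPrime_of_prime hp
    rw [map_mul, artinFun_mul F L (relNorm_ne_zero F L hp.ne_zero) (relNorm_ne_zero F L ha)]
    have h1 := artinFun_relNorm_asIdeal F L ⟨p, hpp, hp.ne_zero⟩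
      (hunr ⟨p, hpp, hp.ne_zero⟩ (Dvd.intro _ rfl))
    have h2 := ih ha (fun Q hQ => hunr Q (Dvd.dvd.mul_left hQ p))
    rw [h1, h2, one_mul]

theorem artin_relNorm₀ (hunr : ∀ q : HeightOneSpectrum (𝓞 F), UnramAt F L q)
    (A : (Ideal (𝓞 L))⁰) : artin F L (relNorm₀ F L A) = 1 :=
  artinFun_relNorm F L A (nonZeroDivisors.coe_ne_zero A) (fun _ _ => hunr _)

end Abelian

end Fermat.Agent.ExtVan
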