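/-
S14 long shot, brick (C0) part 2 (helper6): functoriality of the Artin symbol in towers
`K ⊆ E ⊆ N` (restriction to `E`, base change to `E`), splitting criterion.
-/
import Fermat.Agent.ExtVan.Artin

set_option autoImplicit false
set_option linter.unusedSectionVars false
set_option linter.style.haveILetI false

open NumberField IsDedekindDomain

namespace Fermat.Agent.ExtVan

open scoped Pointwise nonZeroDivisors

section Ram

variable {F L : Type*} [Field F] [Field L] [NumberField F] [NumberField L] [Algebra F L]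
  [IsGalois F L]

lemma UnramAt.ramificationIdx_eq_one {q : HeightOneSpectrum (𝓞 F)} (hq : UnramAt F L q)
    (Q : Ideal (𝓞 L)) [Q.IsPrime] [Q.LiesOver q.asIdeal] : Q.ramificationIdx (𝓞 F) = 1 := by
  have h1 := Ideal.card_inertia_eq_ramificationIdxIn (G := Gal(L/F)) q.asIdeal Q
  rw [Ideal.ramificationIdxIn_eq_ramificationIdx q.asIdeal Q Gal(L/F),
    hq Q inferInstance inferInstance] at h1
  rw [← h1]
  exact Subgroup.card_bot

lemma unramAt_iff_ramificationIdx {q : HeightOneSpectrum (𝓞 F)} :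
    UnramAt F L q ↔
      ∀ Q : Ideal (𝓞 L), Q.IsPrime → Q.LiesOver q.asIdeal → Q.ramificationIdx (𝓞 F) = 1 :=
  ⟨fun h Q _ _ => h.ramificationIdx_eq_one Q, unramAt_of_ramificationIdx⟩

end Ram

section Tower

variable (K E N : Type*) [Field K] [Field E] [Field N] [NumberField K] [NumberField E]
  [NumberField N] [Algebra K E] [Algebra E N] [Algebra K N] [IsScalarTower K E N]
  [IsAbelianGalois K N] [IsAbelianGalois K E] [IsAbelianGalois E N]

variable {K E N}

/-- Unramified in `N/K` implies unramified in `E/K`. -/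
lemma UnramAt.tower_bot {q : HeightOneSpectrum (𝓞 K)} (hq : UnramAt K N q) : UnramAt K E q := by
  rw [unramAt_iff_ramificationIdx]
  intro Q' hQ' hQ'q
  obtain ⟨⟨Q, hQ, hQQ'⟩⟩ := Ideal.nonempty_primesOver (S := 𝓞 N) Q'
  haveI : Q.LiesOver q.asIdeal := Ideal.LiesOver.trans Q Q' q.asIdeal
  have h1 := hq.ramificationIdx_eq_one Q
  have h2 := Ideal.ramificationIdx_below_dvd (R := 𝓞 K) Q' Q
  rw [h1] at h2
  exact Nat.dvd_one.mp h2

/-- Unramified in `N/K` implies unramified in `N/E` at the primes above. -/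
lemma UnramAt.tower_top {q : HeightOneSpectrum (𝓞 K)} (hq : UnramAt K N q)
    (Q' : HeightOneSpectrum (𝓞 E)) [Q'.asIdeal.LiesOver q.asIdeal] : UnramAt E N Q' := by
  rw [unramAt_iff_ramificationIdx]
  intro Q hQ hQQ'
  haveI : Q.LiesOver q.asIdeal := Ideal.LiesOver.trans Q Q'.asIdeal q.asIdeal
  have h1 := hq.ramificationIdx_eq_one Q
  have h2 := Ideal.ramificationIdx_above_dvd (R := 𝓞 K) Q'.asIdeal Q
  rw [h1] at h2
  exact Nat.dvd_one.mp h2

/-- **Restriction**: the Frobenius of `q` in `E/K` is the restriction of the Frobenius in `N/K`. -/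
theorem restrictNormalHom_frob {q : HeightOneSpectrum (𝓞 K)} (hq : UnramAt K N q) :
    AlgEquiv.restrictNormalHom E (frob K N q) = frob K E q := by
  obtain ⟨⟨Q', hQ', hQ'q⟩⟩ := Ideal.nonempty_primesOver (S := 𝓞 E) q.asIdeal
  obtain ⟨⟨Q, hQ, hQQ'⟩⟩ := Ideal.nonempty_primesOver (S := 𝓞 N) Q'
  haveI : Q.LiesOver q.asIdeal := Ideal.LiesOver.trans Q Q' q.asIdeal
  refine frob_eq_of_isArithFrobAt (Q := Q') (hq.tower_bot (E := E)) ?_
  intro x
  have h1 := isArithFrobAt_frob K N q Q (algebraMap (𝓞 E) (𝓞 N) x)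
  rw [← Q.over_def q.asIdeal] at h1
  rw [← Q'.over_def q.asIdeal]
  have hmem : ∀ y : 𝓞 E, y ∈ Q' ↔ algebraMap (𝓞 E) (𝓞 N) y ∈ Q := by
    intro y
    conv_lhs => rw [Q.over_def Q']
    rfl
  rw [hmem, map_sub, map_pow]
  convert h1 using 2
  apply RingOfIntegers.ext
  show algebraMap E N ((AlgEquiv.restrictNormalHom E (frob K N q)) (x : E)) =
    (frob K N q) (algebraMap E N (x : E))
  exact AlgEquiv.restrictNormal_commutes _ E _

/-- An element of `Gal(N/K)` fixing `E` pointwise, as an element of `Gal(N/E)`. -/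
def liftOfFixes (τ : Gal(N/K)) (h : ∀ e : E, τ (algebraMap E N e) = algebraMap E N e) : Gal(N/E) :=
  { τ.toRingEquiv with commutes' := h }

@[simp] lemma liftOfFixes_apply (τ : Gal(N/K))
    (h : ∀ e : E, τ (algebraMap E N e) = algebraMap E N e) (x : N) : liftOfFixes τ h x = τ x := rfl

lemma restrictScalars_liftOfFixes (τ : Gal(N/K))
    (h : ∀ e : E, τ (algebraMap E N e) = algebraMap E N e) :
    (liftOfFixes τ h).restrictScalars K = τ := by
  ext x; rfl

lemma fixes_of_restrictNormalHom_eq_one {τ : Gal(N/K)}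
    (h : AlgEquiv.restrictNormalHom E τ = 1) (e : E) : τ (algebraMap E N e) = algebraMap E N e := by
  have h1 := AlgEquiv.restrictNormal_commutes τ E e
  have h2 : τ.restrictNormal E = 1 := h
  rw [h2] at h1
  exact h1.symm

/-- **Base change**: the Frobenius of a prime `Q'` of `E` in `N/E` is the `f(Q'/q)`-th power of the
Frobenius of `q = Q' ∩ K` in `N/K`. -/
theorem restrictScalars_frob (Q' : HeightOneSpectrum (𝓞 E))
    (hq : UnramAt K N (primeBelow K E Q')) :
    (frob E N Q').restrictScalars K =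
      frob K N (primeBelow K E Q') ^ Q'.asIdeal.inertiaDeg (𝓞 K) := by
  set q := primeBelow K E Q' with hqdef
  set f := Q'.asIdeal.inertiaDeg (𝓞 K) with hf
  haveI := Q'.isPrime
  -- the power fixes `E`
  have hres : AlgEquiv.restrictNormalHom E (frob K N q ^ f) = 1 := by
    rw [map_pow, restrictNormalHom_frob hq]
    exact frob_pow_inertiaDeg (hq.tower_bot (E := E)) Q'.asIdeal
  have hfix := fixes_of_restrictNormalHom_eq_one hres
  obtain ⟨⟨Q, hQ, hQQ'⟩⟩ := Ideal.nonempty_primesOver (S := 𝓞 N) Q'.asIdeal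
  haveI : Q.LiesOver q.asIdeal := Ideal.LiesOver.trans Q Q'.asIdeal q.asIdeal
  have hfrob : IsArithFrobAt (𝓞 E) (liftOfFixes (frob K N q ^ f) hfix) Q := by
    intro x
    have h1 := frob_pow_smul_sub_pow_mem K N q Q f x
    rw [Ideal.absNorm_pow_inertiaDeg q.asIdeal Q'.asIdeal] at h1
    rw [← Q.over_def Q'.asIdeal]
    have h2 : Nat.card (𝓞 E ⧸ Q'.asIdeal) = Ideal.absNorm Q'.asIdeal := by
      rw [Ideal.absNorm_apply, Submodule.cardQuot_apply]
    rw [h2]
    exact h1
  have := frob_eq_of_isArithFrobAt (hq.tower_top Q') hfrob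
  rw [← this, restrictScalars_liftOfFixes]

/-- `restrictScalars` as a monoid homomorphism `Gal(N/E) →* Gal(N/K)`. -/
def resScalarsHom : Gal(N/E) →* Gal(N/K) where
  toFun σ := σ.restrictScalars K
  map_one' := rfl
  map_mul' _ _ := rfl

@[simp] lemma resScalarsHom_apply (σ : Gal(N/E)) :
    resScalarsHom (K := K) σ = σ.restrictScalars K := rfl

/-- **Restriction for ideals**. -/
theorem restrictNormalHom_artinFun (I : Ideal (𝓞 K)) (hI : I ≠ 0)
    (hunr : ∀ q : HeightOneSpectrum (𝓞 K), q.asIdeal ∣ I → UnramAt K N q) :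
    AlgEquiv.restrictNormalHom E (artinFun K N I) = artinFun K E I := by
  induction I using UniqueFactorizationMonoid.induction_on_prime with
  | h₁ => exact absurd rfl hI
  | h₂ x hx =>
    rw [Ideal.isUnit_iff] at hx
    rw [hx, ← Ideal.one_eq_top, artinFun_one, artinFun_one, map_one]
  | h₃ a p ha hp ih =>
    have hpp : p.IsPrime := Ideal.isPrime_of_prime hp
    rw [artinFun_mul K N hp.ne_zero ha, artinFun_mul K E hp.ne_zero ha, map_mul,
      ih ha (fun q hq => hunr q (Dvd.dvd.mul_left hq p))]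
    congr 1
    have h1 := restrictNormalHom_frob (E := E) (hunr ⟨p, hpp, hp.ne_zero⟩ (Dvd.intro _ rfl))
    rw [← artinFun_asIdeal K N, ← artinFun_asIdeal K E] at h1
    exact h1

/-- **Base change for ideals**: `Art_{N/E}(B) = Art_{N/K}(N_{E/K} B)` in `Gal(N/K)`. -/
theorem restrictScalars_artinFun (B : Ideal (𝓞 E)) (hB : B ≠ 0)
    (hunr : ∀ Q' : HeightOneSpectrum (𝓞 E), Q'.asIdeal ∣ B → UnramAt K N (primeBelow K E Q')) :
    (artinFun E N B).restrictScalars K = artinFun K N (Ideal.relNorm (𝓞 K) B) := by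
  induction B using UniqueFactorizationMonoid.induction_on_prime with
  | h₁ => exact absurd rfl hB
  | h₂ x hx =>
    rw [Ideal.isUnit_iff] at hx
    rw [hx, ← Ideal.one_eq_top, artinFun_one, map_one, artinFun_one]
    rfl
  | h₃ a p ha hp ih =>
    have hpp : p.IsPrime := Ideal.isPrime_of_prime hp
    rw [artinFun_mul E N hp.ne_zero ha, map_mul,
      artinFun_mul K N (relNorm_ne_zero K E hp.ne_zero) (relNorm_ne_zero K E ha),
      ← ih ha (fun Q hQ => hunr Q (Dvd.dvd.mul_left hQ p))]
    have h1 := restrictScalars_frob (N := N) ⟨p, hpp, hp.ne_zero⟩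
      (hunr ⟨p, hpp, hp.ne_zero⟩ (Dvd.intro _ rfl))
    rw [← artinFun_asIdeal E N, ← artinFun_asIdeal K N,
      ← artinFun_pow K N (primeBelow K E ⟨p, hpp, hp.ne_zero⟩).ne_bot,
      ← relNorm_asIdeal K E ⟨p, hpp, hp.ne_zero⟩] at h1
    show (artinFun E N p).restrictScalars K * (artinFun E N a).restrictScalars K = _
    rw [h1]

/-- Consistency: `Art_{N/E}(B)|_M`-type statement in the form used by the crossing argument:
for `K ⊆ E ⊆ N`, `Art_{N/E}(B)` viewed in `Gal(N/K)` and restricted to `E` is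
`Art_{E/K}(N_{E/K} B)` (which is trivial: norms). -/
theorem artin_restrictScalars (hunr : ∀ q : HeightOneSpectrum (𝓞 K), UnramAt K N q)
    (B : (Ideal (𝓞 E))⁰) :
    (artin E N B).restrictScalars K = artin K N (relNorm₀ K E B) :=
  restrictScalars_artinFun (B : Ideal (𝓞 E)) (nonZeroDivisors.coe_ne_zero B) (fun _ _ => hunr _)

theorem artin_restrictNormalHom (hunr : ∀ q : HeightOneSpectrum (𝓞 K), UnramAt K N q)
    (I : (Ideal (𝓞 K))⁰) :
    AlgEquiv.restrictNormalHom E (artin K N I) = artin K E I :=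
  restrictNormalHom_artinFun (I : Ideal (𝓞 K)) (nonZeroDivisors.coe_ne_zero I) (fun _ _ => hunr _)

/-! ### Splitting criterion -/

lemma restrictNormalHom_eq_one_iff (τ : Gal(N/K)) :
    AlgEquiv.restrictNormalHom E τ = 1 ↔ ∀ e : E, τ (algebraMap E N e) = algebraMap E N e := by
  refine ⟨fun h e => fixes_of_restrictNormalHom_eq_one h e, fun h => ?_⟩
  ext e
  apply (algebraMap E N).injective
  have h1 := AlgEquiv.restrictNormal_commutes τ E e
  rw [h e] at h1
  exact h1

lemma mem_range_resScalarsHom_iff (τ : Gal(N/K)) :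
    τ ∈ (resScalarsHom (K := K) (E := E) (N := N)).range ↔
      AlgEquiv.restrictNormalHom E τ = 1 := by
  rw [restrictNormalHom_eq_one_iff]
  constructor
  · rintro ⟨σ, rfl⟩ e
    exact σ.commutes e
  · intro h
    exact ⟨liftOfFixes τ h, restrictScalars_liftOfFixes τ h⟩

/-- **Splitting criterion**: for `q` unramified in `N`, the Frobenius of `q` in `N/K` fixes `E`
iff the primes of `E` above `q` have residue degree one. -/
theorem frob_fixes_iff {q : HeightOneSpectrum (𝓞 K)} (hq : UnramAt K N q)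
    (Q' : Ideal (𝓞 E)) [Q'.IsPrime] [Q'.LiesOver q.asIdeal] :
    (∀ e : E, frob K N q (algebraMap E N e) = algebraMap E N e) ↔
      Q'.inertiaDeg (𝓞 K) = 1 := by
  rw [← restrictNormalHom_eq_one_iff, restrictNormalHom_frob hq,
    frob_eq_one_iff (hq.tower_bot (E := E)) Q']

theorem frob_mem_range_resScalarsHom_iff {q : HeightOneSpectrum (𝓞 K)} (hq : UnramAt K N q)
    (Q' : Ideal (𝓞 E)) [Q'.IsPrime] [Q'.LiesOver q.asIdeal] :
    frob K N q ∈ (resScalarsHom (K := K) (E := E) (N := N)).range ↔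
      Q'.inertiaDeg (𝓞 K) = 1 := by
  rw [mem_range_resScalarsHom_iff, restrictNormalHom_frob hq,
    frob_eq_one_iff (hq.tower_bot (E := E)) Q']

end Tower

section IntermediateField

variable {K N : Type*} [Field K] [Field N] [NumberField K] [NumberField N] [Algebra K N]
  [IsAbelianGalois K N]

/-- **Splitting criterion, intermediate-field form**: for `q` unramified in `N` and an
intermediate field `E`, `frob q ∈ E.fixingSubgroup` iff the primes of `E` above `q` have residue
degree one over `q`. (For `E = fixedField H` recall `fixingSubgroup_fixedField`.) -/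
theorem frob_mem_fixingSubgroup_iff (E : IntermediateField K N) {q : HeightOneSpectrum (𝓞 K)}
    (hq : UnramAt K N q) (Q' : Ideal (𝓞 E)) [Q'.IsPrime] [Q'.LiesOver q.asIdeal] :
    frob K N q ∈ E.fixingSubgroup ↔ Q'.inertiaDeg (𝓞 K) = 1 := by
  rw [IntermediateField.mem_fixingSubgroup_iff, ← frob_fixes_iff (E := E) hq Q']
  constructor
  · intro h e
    exact h e e.2
  · intro h x hx
    exact h ⟨x, hx⟩

end IntermediateField

end Fermat.Agent.ExtVan
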