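/-
S14 long shot, brick (C0) part 3 (helper6): equivariance of the Frobenius / Artin symbol under
automorphisms of the top field (`Frob(τ q) = τ Frob(q) τ⁻¹`), Frobenius on roots of unity,
and conversions of `UnramAt` to `Algebra.IsUnramifiedAt`.
-/
import Fermat.Agent.ExtVan.ArtinFunct

set_option autoImplicit false
set_option linter.unusedSectionVars false
set_option linter.style.haveILetI false

open NumberField IsDedekindDomain

namespace Fermat.Agent.ExtVan

open scoped Pointwise nonZeroDivisors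

section Unram

variable {F L : Type*} [Field F] [Field L] [NumberField F] [NumberField L] [Algebra F L]
  [IsGalois F L]

lemma ramificationIdx_eq_one_iff_isUnramifiedAt (q : HeightOneSpectrum (𝓞 F)) (Q : Ideal (𝓞 L)) [Q.IsPrime]
    [Q.LiesOver q.asIdeal] : Q.ramificationIdx (𝓞 F) = 1 ↔ Algebra.IsUnramifiedAt (𝓞 F) Q := by
  haveI : Finite (𝓞 F ⧸ Q.under (𝓞 F)) := by
    rw [← Q.over_def q.asIdeal]
    exact Ideal.finiteQuotientOfFreeOfNeBot q.asIdeal q.ne_bot
  exact Ideal.ramificationIdx_eq_one_iff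

lemma unramAt_iff_isUnramifiedAt {q : HeightOneSpectrum (𝓞 F)} :
    UnramAt F L q ↔
      ∀ (Q : Ideal (𝓞 L)) [Q.IsPrime], Q.LiesOver q.asIdeal → Algebra.IsUnramifiedAt (𝓞 F) Q := by
  rw [unramAt_iff_ramificationIdx]
  constructor
  · intro h Q hQ hQq
    exact (ramificationIdx_eq_one_iff_isUnramifiedAt q Q).mp (h Q hQ hQq)
  · intro h Q hQ hQq
    exact (ramificationIdx_eq_one_iff_isUnramifiedAt q Q).mpr (h Q hQq)

/-- Everywhere unramified (in the `Algebra.IsUnramifiedAt` spelling) gives `UnramAt` at all primes. -/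
lemma unramAt_of_forall_isUnramifiedAt
    (h : ∀ (Q : Ideal (𝓞 L)) [Q.IsPrime], Q ≠ ⊥ → Algebra.IsUnramifiedAt (𝓞 F) Q)
    (q : HeightOneSpectrum (𝓞 F)) : UnramAt F L q :=
  unramAt_iff_isUnramifiedAt.mpr fun Q _ _ => h Q (ne_bot_of_liesOver F L q Q)

end Unram

section Equiv

variable {K M : Type*} [Field K] [Field M] [NumberField K] [NumberField M] [Algebra K M]
  [IsGalois ℚ K]

/-- `τ` maps (the image of) `K` to itself. -/
lemma apply_algebraMap_eq (τ : Gal(M/ℚ)) (k : K) :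
    τ (algebraMap K M k) = algebraMap K M (τ.restrictNormal K k) :=
  (AlgEquiv.restrictNormal_commutes τ K k).symm

/-- The action on rings of integers is compatible with restriction. -/
lemma smul_algebraMap_eq (τ : Gal(M/ℚ)) (x : 𝓞 K) :
    τ • algebraMap (𝓞 K) (𝓞 M) x = algebraMap (𝓞 K) (𝓞 M) ((τ.restrictNormal K) • x) := by
  apply RingOfIntegers.ext
  show τ (algebraMap K M (x : K)) = algebraMap K M (τ.restrictNormal K (x : K))
  exact apply_algebraMap_eq τ _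

lemma restrictNormal_inv (τ : Gal(M/ℚ)) : (τ⁻¹).restrictNormal K = (τ.restrictNormal K)⁻¹ :=
  map_inv (AlgEquiv.restrictNormalHom K) τ

/-- The prime below a conjugate is the conjugate of the prime below. -/
lemma under_smul (τ : Gal(M/ℚ)) (Q : Ideal (𝓞 M)) :
    (τ • Q).under (𝓞 K) = (τ.restrictNormal K) • Q.under (𝓞 K) := by
  ext x
  rw [Ideal.mem_pointwise_smul_iff_inv_smul_mem, Ideal.under_def, Ideal.mem_comap,
    Ideal.mem_pointwise_smul_iff_inv_smul_mem, Ideal.under_def, Ideal.mem_comap,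
    ← restrictNormal_inv, smul_algebraMap_eq]

/-- Conjugate ideals have the same norm. -/
lemma card_quotient_smul {R G : Type*} [CommRing R] [Group G] [MulSemiringAction G R] (σ : G)
    (I : Ideal R) : Nat.card (R ⧸ σ • I) = Nat.card (R ⧸ I) := by
  refine (Nat.card_congr (Ideal.quotientEquiv I (σ • I) (MulSemiringAction.toRingEquiv G R σ) ?_).toEquiv).symm
  rfl

lemma absNorm_smul (σ : Gal(K/ℚ)) (I : Ideal (𝓞 K)) :
    Ideal.absNorm (σ • I) = Ideal.absNorm I := by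
  rw [Ideal.absNorm_apply, Submodule.cardQuot_apply, Ideal.absNorm_apply, Submodule.cardQuot_apply]
  exact card_quotient_smul σ I

/-- Conjugation by `τ ∈ Gal(M/ℚ)` on `Gal(M/K)` (for `K/ℚ` normal). -/
noncomputable def conjAut (τ : Gal(M/ℚ)) (g : Gal(M/K)) : Gal(M/K) :=
  AlgEquiv.ofRingEquiv (f := (τ * g.restrictScalars ℚ * τ⁻¹ : Gal(M/ℚ)).toRingEquiv) (by
    intro k
    show τ (g (τ⁻¹ (algebraMap K M k))) = algebraMap K M k
    rw [apply_algebraMap_eq τ⁻¹ k, g.commutes, ← apply_algebraMap_eq τ⁻¹ k]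
    exact AlgEquiv.apply_symm_apply τ _)

@[simp] lemma conjAut_apply (τ : Gal(M/ℚ)) (g : Gal(M/K)) (x : M) :
    conjAut τ g x = τ (g (τ⁻¹ x)) := rfl

lemma restrictScalars_conjAut (τ : Gal(M/ℚ)) (g : Gal(M/K)) :
    (conjAut τ g).restrictScalars ℚ = τ * g.restrictScalars ℚ * τ⁻¹ := by
  ext x; rfl

lemma conjAut_mul (τ : Gal(M/ℚ)) (g h : Gal(M/K)) :
    conjAut τ (g * h) = conjAut τ g * conjAut τ h := by
  ext x
  simp only [conjAut_apply, AlgEquiv.mul_apply]
  congr 2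
  exact (τ.symm_apply_apply _).symm

lemma conjAut_one (τ : Gal(M/ℚ)) : conjAut τ (1 : Gal(M/K)) = 1 := by
  ext x
  simp only [conjAut_apply, AlgEquiv.one_apply]
  exact τ.apply_symm_apply _

/-- Conjugation as a group homomorphism. -/
noncomputable def conjHom (τ : Gal(M/ℚ)) : Gal(M/K) →* Gal(M/K) where
  toFun := conjAut τ
  map_one' := conjAut_one τ
  map_mul' := conjAut_mul τ

@[simp] lemma conjHom_apply (τ : Gal(M/ℚ)) (g : Gal(M/K)) : conjHom τ g = conjAut τ g := rfl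

lemma conjAut_smul (τ : Gal(M/ℚ)) (g : Gal(M/K)) (x : 𝓞 M) :
    conjAut τ g • x = τ • (g • (τ⁻¹ • x)) := by
  apply RingOfIntegers.ext
  rfl


/-- The conjugate of a nonzero prime by a field automorphism. -/
noncomputable def smulPrime (σ : Gal(K/ℚ)) (q : HeightOneSpectrum (𝓞 K)) :
    HeightOneSpectrum (𝓞 K) :=
  ⟨σ • q.asIdeal, inferInstance, fun h => q.ne_bot (by
    have h1 := congrArg (fun I => σ⁻¹ • I) h
    simpa using h1)⟩

@[simp] lemma smulPrime_asIdeal (σ : Gal(K/ℚ)) (q : HeightOneSpectrum (𝓞 K)) :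
    (smulPrime σ q).asIdeal = σ • q.asIdeal := rfl

lemma absNorm_smulPrime (σ : Gal(K/ℚ)) (q : HeightOneSpectrum (𝓞 K)) :
    Ideal.absNorm (smulPrime σ q).asIdeal = Ideal.absNorm q.asIdeal :=
  absNorm_smul σ q.asIdeal

variable [IsAbelianGalois K M]

/-- **Equivariance of the Frobenius**: `Frob(τ q) = τ Frob(q) τ⁻¹` for `τ ∈ Gal(M/ℚ)`. -/
theorem frob_smulPrime (τ : Gal(M/ℚ)) (q : HeightOneSpectrum (𝓞 K))
    (hq : UnramAt K M (smulPrime (τ.restrictNormal K) q)) :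
    frob K M (smulPrime (τ.restrictNormal K) q) = conjAut τ (frob K M q) := by
  set Q : Ideal (𝓞 M) := (primeAbove K M q).1 with hQ
  haveI : Q.IsPrime := inferInstanceAs (primeAbove K M q).1.IsPrime
  haveI : Q.LiesOver q.asIdeal := inferInstanceAs ((primeAbove K M q).1.LiesOver q.asIdeal)
  haveI : (τ • Q).LiesOver (smulPrime (τ.restrictNormal K) q).asIdeal :=
    ⟨by rw [under_smul, ← Q.over_def q.asIdeal]; rfl⟩
  refine (frob_eq_of_isArithFrobAt hq (Q := τ • Q) ?_).symm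
  intro x
  rw [← (τ • Q).over_def (smulPrime (τ.restrictNormal K) q).asIdeal, smulPrime_asIdeal,
    card_quotient_smul]
  show conjAut τ (frob K M q) • x - x ^ Nat.card (𝓞 K ⧸ q.asIdeal) ∈ τ • Q
  rw [conjAut_smul]
  have h1 : frob K M q • (τ⁻¹ • x) - (τ⁻¹ • x) ^ Nat.card (𝓞 K ⧸ Q.under (𝓞 K)) ∈ Q :=
    isArithFrobAt_frob K M q Q (τ⁻¹ • x)
  rw [← Q.over_def q.asIdeal] at h1
  have h2 := Ideal.smul_mem_pointwise_smul τ _ Q h1
  rw [smul_sub, smul_pow', smul_inv_smul] at h2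
  exact h2


lemma smul_eq_bot_iff (σ : Gal(K/ℚ)) (P : Ideal (𝓞 K)) : σ • P = ⊥ ↔ P = ⊥ := by
  constructor
  · intro h
    have h1 := congrArg (fun I => σ⁻¹ • I) h
    simpa using h1
  · rintro rfl
    exact Ideal.smul_bot σ

/-- Equivariance for `frobIdeal` (the junk values agree). -/
theorem frobIdeal_smul (hunr : ∀ q : HeightOneSpectrum (𝓞 K), UnramAt K M q) (τ : Gal(M/ℚ))
    (P : Ideal (𝓞 K)) :
    frobIdeal K M ((τ.restrictNormal K) • P) = conjAut τ (frobIdeal K M P) := by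
  by_cases h : P.IsPrime ∧ P ≠ ⊥
  · have h1 := frob_smulPrime τ ⟨P, h.1, h.2⟩ (hunr _)
    rw [← frobIdeal_asIdeal, ← frobIdeal_asIdeal] at h1
    exact h1
  · have h' : ¬ (((τ.restrictNormal K) • P).IsPrime ∧ (τ.restrictNormal K) • P ≠ ⊥) := by
      rw [Ideal.IsPrime.smul_iff, Ne, smul_eq_bot_iff]
      exact h
    rw [frobIdeal, dif_neg h', frobIdeal, dif_neg h, conjAut_one]

/-- **Equivariance of the Artin symbol**: `Art(τ I) = τ Art(I) τ⁻¹`. -/
theorem artinFun_smul (hunr : ∀ q : HeightOneSpectrum (𝓞 K), UnramAt K M q) (τ : Gal(M/ℚ))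
    (I : Ideal (𝓞 K)) (hI : I ≠ 0) :
    artinFun K M ((τ.restrictNormal K) • I) = conjAut τ (artinFun K M I) := by
  induction I using UniqueFactorizationMonoid.induction_on_prime with
  | h₁ => exact absurd rfl hI
  | h₂ x hx =>
    rw [Ideal.isUnit_iff] at hx
    rw [hx, ← Ideal.one_eq_top, smul_one, artinFun_one, conjAut_one]
  | h₃ a p ha hp ih =>
    have hpp : p.IsPrime := Ideal.isPrime_of_prime hp
    have hne : ∀ J : Ideal (𝓞 K), J ≠ 0 → (τ.restrictNormal K) • J ≠ 0 := by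
      intro J hJ h
      rw [Ideal.zero_eq_bot, smul_eq_bot_iff] at h
      exact hJ h
    rw [smul_mul', artinFun_mul K M (hne p hp.ne_zero) (hne a ha),
      artinFun_mul K M hp.ne_zero ha, conjAut_mul, ih ha]
    congr 1
    have h1 := frob_smulPrime τ ⟨p, hpp, hp.ne_zero⟩ (hunr _)
    rw [← artinFun_asIdeal, ← artinFun_asIdeal] at h1
    exact h1

/-- The action of `Gal(K/ℚ)` on nonzero ideals. -/
noncomputable def smulIdeal₀ (σ : Gal(K/ℚ)) : (Ideal (𝓞 K))⁰ →* (Ideal (𝓞 K))⁰ where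
  toFun I := ⟨σ • (I : Ideal (𝓞 K)), mem_nonZeroDivisors_of_ne_zero (by
    intro h
    rw [Ideal.zero_eq_bot, smul_eq_bot_iff] at h
    exact nonZeroDivisors.coe_ne_zero I h)⟩
  map_one' := Subtype.ext (smul_one σ)
  map_mul' I J := Subtype.ext (smul_mul' σ (I : Ideal (𝓞 K)) (J : Ideal (𝓞 K)))

@[simp] lemma coe_smulIdeal₀ (σ : Gal(K/ℚ)) (I : (Ideal (𝓞 K))⁰) :
    ((smulIdeal₀ σ I : (Ideal (𝓞 K))⁰) : Ideal (𝓞 K)) = σ • (I : Ideal (𝓞 K)) := rfl

theorem artin_smulIdeal₀ (hunr : ∀ q : HeightOneSpectrum (𝓞 K), UnramAt K M q) (τ : Gal(M/ℚ))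
    (I : (Ideal (𝓞 K))⁰) :
    artin K M (smulIdeal₀ (τ.restrictNormal K) I) = conjHom τ (artin K M I) :=
  artinFun_smul hunr τ I (nonZeroDivisors.coe_ne_zero I)

/-- Equivariance, stated inside `Gal(M/ℚ)`. -/
theorem restrictScalars_frobIdeal_smul (hunr : ∀ q : HeightOneSpectrum (𝓞 K), UnramAt K M q)
    (τ : Gal(M/ℚ)) (P : Ideal (𝓞 K)) :
    (frobIdeal K M ((τ.restrictNormal K) • P)).restrictScalars ℚ =
      τ * (frobIdeal K M P).restrictScalars ℚ * τ⁻¹ := by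
  rw [frobIdeal_smul hunr, restrictScalars_conjAut]

theorem restrictScalars_artinFun_smul (hunr : ∀ q : HeightOneSpectrum (𝓞 K), UnramAt K M q)
    (τ : Gal(M/ℚ)) (I : Ideal (𝓞 K)) (hI : I ≠ 0) :
    (artinFun K M ((τ.restrictNormal K) • I)).restrictScalars ℚ =
      τ * (artinFun K M I).restrictScalars ℚ * τ⁻¹ := by
  rw [artinFun_smul hunr τ I hI, restrictScalars_conjAut]

end Equiv

section Cyclotomic

variable (F L : Type*) [Field F] [Field L] [NumberField F] [NumberField L] [Algebra F L]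
  [IsAbelianGalois F L]

/-- **Frobenius on roots of unity**: `Frob_q ζ = ζ ^ N(q)` if `ζ ^ m = 1` with `m ∉ q`. -/
theorem frob_smul_of_pow_eq_one (q : HeightOneSpectrum (𝓞 F)) {ζ : 𝓞 L} {m : ℕ}
    (hζ : ζ ^ m = 1) (hm : (m : 𝓞 F) ∉ q.asIdeal) :
    frob F L q • ζ = ζ ^ Ideal.absNorm q.asIdeal := by
  set Q : Ideal (𝓞 L) := (primeAbove F L q).1 with hQ
  haveI : Q.IsPrime := inferInstanceAs (primeAbove F L q).1.IsPrime
  haveI : Q.LiesOver q.asIdeal := inferInstanceAs ((primeAbove F L q).1.LiesOver q.asIdeal)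
  have hm' : (m : 𝓞 L) ∉ Q := by
    intro h
    apply hm
    rw [Q.over_def q.asIdeal, Ideal.under_def, Ideal.mem_comap, map_natCast]
    exact h
  have h := (isArithFrobAt_frob F L q Q).apply_of_pow_eq_one hζ hm'
  rw [← Q.over_def q.asIdeal] at h
  have h2 : Nat.card (𝓞 F ⧸ q.asIdeal) = Ideal.absNorm q.asIdeal := by
    rw [Ideal.absNorm_apply, Submodule.cardQuot_apply]
  rw [h2] at h
  exact h

lemma natCast_not_mem_of_coprime (q : HeightOneSpectrum (𝓞 F)) {m : ℕ}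
    (hm : Nat.Coprime m (Ideal.absNorm q.asIdeal)) : (m : 𝓞 F) ∉ q.asIdeal := by
  intro h
  have h1 : ((Ideal.absNorm q.asIdeal : ℕ) : 𝓞 F) ∈ q.asIdeal := by
    have := Ideal.absNorm_mem q.asIdeal
    exact_mod_cast this
  obtain ⟨a, b, hab⟩ := (Nat.isCoprime_iff_coprime.mpr hm)
  have h2 : ((a : 𝓞 F) * (m : 𝓞 F) + (b : 𝓞 F) * ((Ideal.absNorm q.asIdeal : ℕ) : 𝓞 F)) = 1 := by
    have := congrArg (Int.cast : ℤ → 𝓞 F) hab
    push_cast at this
    exact this
  apply q.isPrime.ne_top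
  rw [Ideal.eq_top_iff_one, ← h2]
  exact q.asIdeal.add_mem (q.asIdeal.mul_mem_left _ h) (q.asIdeal.mul_mem_left _ h1)

/-- Field-level version: `Frob_q ζ = ζ ^ N(q)` for `ζ ∈ L` an `m`-th root of unity, `m` prime to
`N(q)`. -/
theorem frob_apply_of_pow_eq_one (q : HeightOneSpectrum (𝓞 F)) {ζ : L} {m : ℕ}
    (hζ : ζ ^ m = 1) (hm : Nat.Coprime m (Ideal.absNorm q.asIdeal)) :
    frob F L q ζ = ζ ^ Ideal.absNorm q.asIdeal := by
  have hm0 : m ≠ 0 := by
    rintro rfl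
    rw [Nat.coprime_zero_left] at hm
    have := two_le_absNorm F q
    omega
  have hint : IsIntegral ℤ ζ := ⟨Polynomial.X ^ m - 1, Polynomial.monic_X_pow_sub_C 1 hm0, by simp [hζ]⟩
  set z : 𝓞 L := ⟨ζ, hint⟩ with hz
  have hz1 : z ^ m = 1 := by
    apply RingOfIntegers.ext
    show ζ ^ m = 1
    exact hζ
  have h := frob_smul_of_pow_eq_one F L q hz1 (natCast_not_mem_of_coprime F q hm)
  have h2 := congrArg (fun y : 𝓞 L => (y : L)) h
  exact h2

end Cyclotomic

end Fermat.Agent.ExtVan
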