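/-
S14 long shot, brick (C0) part 4 (helper6): the Artin symbol on roots of unity,
`Art_{L/F}(I) ζ = ζ ^ N(I)` for `ζ ^ m = 1`, `N(I)` prime to `m`.
-/
import Fermat.Agent.ExtVan.ArtinEquiv

set_option autoImplicit false
set_option linter.unusedSectionVars false
set_option linter.style.haveILetI false

open NumberField IsDedekindDomain

namespace Fermat.Agent.ExtVan

open scoped Pointwise nonZeroDivisors

section Cyclo

variable (F L : Type*) [Field F] [Field L] [NumberField F] [NumberField L] [Algebra F L]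
  [IsAbelianGalois F L]

/-- **The Artin symbol on roots of unity**: `Art(I) ζ = ζ ^ N(I)` if `ζ ^ m = 1` with `m` prime to
`N(I)`. No ramification hypothesis is needed. -/
theorem artinFun_apply_of_pow_eq_one (I : Ideal (𝓞 F)) (hI : I ≠ 0) {ζ : L} {m : ℕ}
    (hζ : ζ ^ m = 1) (hm : Nat.Coprime m (Ideal.absNorm I)) :
    artinFun F L I ζ = ζ ^ Ideal.absNorm I := by
  induction I using UniqueFactorizationMonoid.induction_on_prime with
  | h₁ => exact absurd rfl hI
  | h₂ x hx =>
    rw [Ideal.isUnit_iff] at hx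
    rw [hx, ← Ideal.one_eq_top, artinFun_one, Ideal.one_eq_top, Ideal.absNorm_top, pow_one]
    rfl
  | h₃ a p ha hp ih =>
    have hpp : p.IsPrime := Ideal.isPrime_of_prime hp
    rw [map_mul] at hm
    have hm1 : Nat.Coprime m (Ideal.absNorm p) := Nat.Coprime.coprime_mul_right_right hm
    have hm2 : Nat.Coprime m (Ideal.absNorm a) := Nat.Coprime.coprime_mul_left_right hm
    have h1 := frob_apply_of_pow_eq_one F L ⟨p, hpp, hp.ne_zero⟩ hζ hm1
    rw [← artinFun_asIdeal] at h1
    rw [artinFun_mul F L hp.ne_zero ha, AlgEquiv.mul_apply, ih ha hm2, map_pow, h1, ← pow_mul,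
      map_mul]

/-- The Artin symbol of a principal ideal on roots of unity. -/
theorem artinFun_span_singleton_apply_of_pow_eq_one (x : 𝓞 F) (hx : x ≠ 0) {ζ : L} {m : ℕ}
    (hζ : ζ ^ m = 1) (hm : Nat.Coprime m (Algebra.norm ℤ x).natAbs) :
    artinFun F L (Ideal.span {x}) ζ = ζ ^ (Algebra.norm ℤ x).natAbs := by
  have h0 : Ideal.span {x} ≠ 0 := by
    rw [Ne, Ideal.zero_eq_bot, Ideal.span_singleton_eq_bot]
    exact hx
  have h1 := artinFun_apply_of_pow_eq_one F L (Ideal.span {x}) h0 hζ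
    (by rw [Ideal.absNorm_span_singleton]; exact hm)
  rw [Ideal.absNorm_span_singleton] at h1
  exact h1

/-- Version for `artin` on `(Ideal (𝓞 F))⁰`. -/
theorem artin_apply_of_pow_eq_one (I : (Ideal (𝓞 F))⁰) {ζ : L} {m : ℕ}
    (hζ : ζ ^ m = 1) (hm : Nat.Coprime m (Ideal.absNorm (I : Ideal (𝓞 F)))) :
    artin F L I ζ = ζ ^ Ideal.absNorm (I : Ideal (𝓞 F)) :=
  artinFun_apply_of_pow_eq_one F L I (nonZeroDivisors.coe_ne_zero I) hζ hm

end Cyclo

end Fermat.Agent.ExtVan
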