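/-
S14 long shot, brick [D] (helper7): the ENDGAME.
Given an abstract Artin datum for an unramified cyclic degree-`p` extension `M / K`, `K = ℚ(ζ_p)`,
`M / ℚ` Galois with `Gal(K/ℚ)` acting on `Gal(M/K)` through `ω⁻¹`, reciprocity on principal ideals
and the Jacobi-sum (Stickelberger) factorisation give a contradiction as soon as some prime has a
nontrivial Frobenius.
-/
import Mathlib
import Fermat.Prelude.Def_Stickelberger_Basic

set_option autoImplicit false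

noncomputable section

namespace Fermat.Agent.ExtVan

open NumberField Module
open scoped Pointwise nonZeroDivisors

/-- `Gal(K/ℚ)` acts on `Gal(M/K)` through `ω⁻¹`: if `τ ζ = ζ ^ k` then `(τ g τ⁻¹) ^ k = g`. -/
def IsOmegaInv (p : ℕ) (K M : Type*) [Field K] [Field M] [Algebra K M] [Algebra ℚ K] [Algebra ℚ M]
    [IsScalarTower ℚ K M] : Prop :=
  ∀ (ζ : M), IsPrimitiveRoot ζ p → ∀ (τ : M ≃ₐ[ℚ] M) (g : M ≃ₐ[K] M) (k : ℕ), τ ζ = ζ ^ k →
    (τ * g.restrictScalars ℚ * τ⁻¹) ^ k = g.restrictScalars ℚ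

section arithmetic

theorem exponentSet_sum_mul_two (p : ℕ) (hp : Odd p) :
    Stickelberger.eigenvalueScalar p * 2 = ((p - 1) / 2) * ((p - 1) / 2 + 1) := by
  obtain ⟨m, rfl⟩ := hp
  have hm : (2 * m + 1 - 1) / 2 = m := by omega
  rw [hm]
  have h1 : Stickelberger.exponentSet (2 * m + 1) = (Finset.range (m + 1)).filter (fun c => 0 < c) := by
    ext c
    simp only [Stickelberger.mem_exponentSet, Finset.mem_filter, Finset.mem_range]
    omega
  have h2 : Stickelberger.eigenvalueScalar (2 * m + 1) = ∑ c ∈ Finset.range (m + 1), c := by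
    rw [Stickelberger.eigenvalueScalar, h1, Finset.sum_filter]
    refine Finset.sum_congr rfl fun c _ => ?_
    split_ifs with h
    · rfl
    · omega
  rw [h2, Finset.sum_range_id_mul_two]
  simp [mul_comm]

theorem not_dvd_eigenvalueScalar {p : ℕ} (hp : p.Prime) (hp2 : p ≠ 2) :
    ¬ p ∣ Stickelberger.eigenvalueScalar p := by
  intro h
  have hodd : Odd p := hp.odd_of_ne_two hp2
  have h2 := exponentSet_sum_mul_two p hodd
  have h3 : p ∣ ((p - 1) / 2) * ((p - 1) / 2 + 1) := by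
    rw [← h2]; exact Dvd.dvd.mul_right h 2
  have hp3 : 3 ≤ p := by
    have := hp.two_le
    omega
  rcases (Nat.Prime.dvd_mul hp).mp h3 with h4 | h4
  · have := Nat.le_of_dvd (by omega) h4
    omega
  · have := Nat.le_of_dvd (by omega) h4
    omega

end arithmetic


section galois

variable {p : ℕ} [hp : Fact p.Prime]
  {K M : Type*} [Field K] [NumberField K] [hK : IsCyclotomicExtension {p} ℚ K] [IsGalois ℚ K]
  [Field M] [NumberField M] [Algebra K M] [IsGalois K M] [IsGalois ℚ M]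

omit [NumberField K] hK [IsGalois ℚ K] [NumberField M] [IsGalois ℚ M] in
/-- Every element of `Gal(M/K)` is killed by `p = [M:K]`. -/
theorem pow_finrank_eq_one (hdeg : finrank K M = p) (g : M ≃ₐ[K] M) : g ^ p = 1 := by
  have : FiniteDimensional K M :=
    FiniteDimensional.of_finrank_pos (by rw [hdeg]; exact hp.out.pos)
  have h := pow_card_eq_one' (G := M ≃ₐ[K] M) (x := g)
  rwa [IsGalois.card_aut_eq_finrank, hdeg] at h

omit [NumberField K] hK [IsGalois ℚ K] [NumberField M] [IsGalois ℚ M] in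
theorem gal_pow_eq_pow_of_modEq (hdeg : finrank K M = p) (g : M ≃ₐ[K] M) {a b : ℕ}
    (h : a ≡ b [MOD p]) : g ^ a = g ^ b :=
  _root_.pow_eq_pow_of_modEq h (pow_finrank_eq_one hdeg g)

omit [IsGalois ℚ K] [NumberField M] [IsGalois K M] [IsGalois ℚ M] in
/-- A primitive `p`-th root of unity of `M` coming from `K`. -/
theorem exists_primitiveRoot_map :
    ∃ ζ : K, IsPrimitiveRoot ζ p ∧ IsPrimitiveRoot (algebraMap K M ζ) p := by
  have h := hK.zeta_spec
  exact ⟨_, h, h.map_of_injective (algebraMap K M).injective⟩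


omit [IsGalois ℚ K] in
/-- an automorphism of `K = ℚ(ζ)` fixing `ζ` is trivial. -/
theorem algEquiv_eq_one_of_apply_eq {ζ : K} (hζ : IsPrimitiveRoot ζ p) (σ : K ≃ₐ[ℚ] K)
    (h : σ ζ = ζ) : σ = 1 := by
  apply AlgEquiv.coe_toAlgHom_injective
  apply (hζ.powerBasis ℚ).algHom_ext
  rw [IsPrimitiveRoot.powerBasis_gen]
  exact h

/-- **Key step 1**: if `frobP q ≠ 1` then the stabilizer of `q` in `Gal(K/ℚ)` is trivial. -/
theorem eq_one_of_smul_eq (homega : IsOmegaInv p K M) (hdeg : finrank K M = p)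
    (frobP : Ideal (𝓞 K) → (M ≃ₐ[K] M))
    (hconj : ∀ (τ : M ≃ₐ[ℚ] M) (q : Ideal (𝓞 K)) [q.IsPrime], q ≠ ⊥ →
      (frobP ((τ.restrictNormal K) • q)).restrictScalars ℚ =
        τ * (frobP q).restrictScalars ℚ * τ⁻¹)
    (q : Ideal (𝓞 K)) [q.IsPrime] (hq0 : q ≠ ⊥) (hq : frobP q ≠ 1)
    (σ : K ≃ₐ[ℚ] K) (hσ : σ • q = q) : σ = 1 := by
  obtain ⟨ζ, hζ, hζM⟩ := exists_primitiveRoot_map (p := p) (K := K) (M := M)
  obtain ⟨τ, hτ⟩ := AlgEquiv.restrictNormalHom_surjective M σ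
  have hτ' : τ.restrictNormal K = σ := hτ
  have h1 : (τ (algebraMap K M ζ)) ^ p = 1 := by rw [← map_pow, hζM.pow_eq_one, map_one]
  obtain ⟨k, hkp, hk⟩ := hζM.eq_pow_of_pow_eq_one h1
  have h2 := homega _ hζM τ (frobP q) k hk.symm
  have h3 := hconj τ q hq0
  rw [hτ', hσ] at h3
  rw [← h3] at h2
  have h4 : frobP q ^ k = frobP q := by
    apply AlgEquiv.restrictScalars_injective ℚ
    rw [← h2]
    exact map_pow (AlgEquiv.restrictScalarsHom ℚ) (frobP q) k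
  have hord : orderOf (frobP q) = p := orderOf_eq_prime (pow_finrank_eq_one hdeg _) hq
  have hk1 : k = 1 := by
    rcases Nat.eq_zero_or_pos k with h0 | hpos
    · rw [h0, pow_zero] at h4
      exact absurd h4.symm hq
    · have h5 : frobP q ^ (k - 1) = 1 := by
        have : frobP q ^ (k - 1) * frobP q = frobP q := by
          rw [← pow_succ, Nat.sub_add_cancel hpos, h4]
        exact mul_eq_right.mp this
      have h6 : p ∣ k - 1 := by
        rw [← hord]; exact orderOf_dvd_of_pow_eq_one h5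
      have h7 : k - 1 = 0 := Nat.eq_zero_of_dvd_of_lt h6 (by omega)
      omega
  rw [hk1, pow_one] at hk
  apply algEquiv_eq_one_of_apply_eq hζ
  apply (algebraMap K M).injective
  rw [← hτ', AlgEquiv.restrictNormal_commutes, ← hk]


omit [IsGalois ℚ K] in
/-- **Key step 2**: a prime of `K = ℚ(ζ_p)` with trivial stabilizer in `Gal(K/ℚ)` has prime
absolute norm `ℓ ≠ p`. -/
theorem absNorm_prime_of_stabilizer_trivial (hp2 : p ≠ 2)
    (q : Ideal (𝓞 K)) [q.IsPrime] (hq0 : q ≠ ⊥)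
    (hstab : ∀ σ : K ≃ₐ[ℚ] K, σ • q = q → σ = 1) :
    ∃ ℓ : ℕ, ℓ.Prime ∧ ℓ ≠ p ∧ Ideal.absNorm q = ℓ := by
  have hK' := hK
  have : IsGalois ℚ K := IsCyclotomicExtension.isGalois {p} ℚ K
  set P : Ideal ℤ := q.under ℤ with hP
  have hPprime : P.IsPrime := inferInstance
  have hP0 : P ≠ ⊥ := Ideal.under_ne_bot ℤ hq0
  -- `P = (ℓ)`
  obtain ⟨ℓ, hℓ, hPℓ⟩ : ∃ ℓ : ℕ, ℓ.Prime ∧ P = Ideal.span {(ℓ : ℤ)} := by
    have : NeZero q := ⟨hq0⟩
    exact ⟨Ideal.absNorm P, Nat.absNorm_under_prime q, (Int.ideal_span_absNorm_eq_self P).symm⟩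
  have : (Ideal.span {(ℓ : ℤ)}).IsPrime := hPℓ ▸ hPprime
  have : q.LiesOver (Ideal.span {(ℓ : ℤ)}) := ⟨by rw [← hPℓ]⟩
  have hcard : Nat.card (MulAction.stabilizer (K ≃ₐ[ℚ] K) q) = 1 := by
    rw [Nat.card_eq_one_iff_unique]
    refine ⟨⟨?_⟩, ⟨1⟩⟩
    intro a b
    have ha := hstab a.1 a.2
    have hb := hstab b.1 b.2
    exact Subtype.ext (ha.trans hb.symm)
  have hef := Ideal.card_stabilizer_eq (G := K ≃ₐ[ℚ] K) (Ideal.span {(ℓ : ℤ)}) q
  rw [hcard] at hef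
  have he : (Ideal.span {(ℓ : ℤ)}).ramificationIdxIn (𝓞 K) = 1 :=
    Nat.eq_one_of_mul_eq_one_right hef.symm
  have hf : (Ideal.span {(ℓ : ℤ)}).inertiaDegIn (𝓞 K) = 1 :=
    Nat.eq_one_of_mul_eq_one_left hef.symm
  refine ⟨ℓ, hℓ, ?_, ?_⟩
  · rintro rfl
    rw [IsCyclotomicExtension.Rat.ramificationIdxIn_eq_of_prime ℓ K] at he
    have := hp.out.two_le
    omega
  · have hmax : (Ideal.span {(ℓ : ℤ)}).IsMaximal := by
      rw [← hPℓ]; exact hPprime.isMaximal hP0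
    have hqmax : q.IsMaximal := Ideal.IsPrime.isMaximal inferInstance hq0
    rw [Ideal.absNorm_eq_pow_inertiaDeg' q hℓ, Ideal.inertiaDeg'_eq_inertiaDeg,
      ← Ideal.inertiaDegIn_eq_inertiaDeg (Ideal.span {(ℓ : ℤ)}) q (K ≃ₐ[ℚ] K), hf, pow_one]


omit [IsGalois ℚ K] in
/-- the automorphism `ζ ↦ ζ ^ c` of `K = ℚ(ζ_p)` for `0 < c < p` (junk `1` otherwise). -/
theorem exists_sig : ∃ (ζ : K) (_ : IsPrimitiveRoot ζ p) (sig : ℕ → (K ≃ₐ[ℚ] K)),
    ∀ c ∈ Stickelberger.exponentSet p, sig c ζ = ζ ^ c := by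
  classical
  have hζ := hK.zeta_spec
  have hirr : Irreducible (Polynomial.cyclotomic p ℚ) :=
    Polynomial.cyclotomic.irreducible_rat hp.out.pos
  have hcop : ∀ c ∈ Stickelberger.exponentSet p, Nat.Coprime c p := by
    intro c hc
    rw [Stickelberger.mem_exponentSet] at hc
    exact ((Nat.Prime.coprime_iff_not_dvd hp.out).mpr
      (Nat.not_dvd_of_pos_of_lt hc.1 (by omega))).symm
  refine ⟨IsCyclotomicExtension.zeta p ℚ K, hζ, fun c => if h : Nat.Coprime c p then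
    IsCyclotomicExtension.fromZetaAut (hζ.pow_of_coprime c h) hirr else 1, ?_⟩
  intro c hc
  beta_reduce
  rw [dif_pos (hcop c hc)]
  exact IsCyclotomicExtension.fromZetaAut_spec _ hirr


omit hp [NumberField K] hK [IsGalois ℚ K] [NumberField M] [IsGalois K M] [IsGalois ℚ M] in
theorem smul_ne_bot' {G : Type*} [Group G] {R : Type*} [CommRing R] [MulSemiringAction G R]
    (σ : G) {q : Ideal R} (hq0 : q ≠ ⊥) : σ • q ≠ ⊥ := by
  intro h
  apply hq0
  have : σ⁻¹ • σ • q = σ⁻¹ • (⊥ : Ideal R) := by rw [h]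
  rwa [inv_smul_smul, Ideal.smul_bot] at this

omit hK in
/-- **Key step 3**: if `σ (ζ ^ c) = ζ` (i.e. `σ = σ_c⁻¹`) then `frobP (σ • q) = (frobP q) ^ c`. -/
theorem frobP_smul_eq_pow (homega : IsOmegaInv p K M) (hdeg : finrank K M = p)
    (frobP : Ideal (𝓞 K) → (M ≃ₐ[K] M))
    (hconj : ∀ (τ : M ≃ₐ[ℚ] M) (q : Ideal (𝓞 K)) [q.IsPrime], q ≠ ⊥ →
      (frobP ((τ.restrictNormal K) • q)).restrictScalars ℚ =
        τ * (frobP q).restrictScalars ℚ * τ⁻¹)
    {ζ : K} (hζ : IsPrimitiveRoot ζ p)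
    (q : Ideal (𝓞 K)) [q.IsPrime] (hq0 : q ≠ ⊥) (σ : K ≃ₐ[ℚ] K) (c : ℕ) (hσ : σ (ζ ^ c) = ζ) :
    frobP (σ • q) = frobP q ^ c := by
  have hζM : IsPrimitiveRoot (algebraMap K M ζ) p :=
    hζ.map_of_injective (algebraMap K M).injective
  obtain ⟨τ, hτ⟩ := AlgEquiv.restrictNormalHom_surjective M σ
  have hτ' : τ.restrictNormal K = σ := hτ
  have h1 : (τ (algebraMap K M ζ)) ^ p = 1 := by rw [← map_pow, hζM.pow_eq_one, map_one]
  obtain ⟨k, hkp, hk⟩ := hζM.eq_pow_of_pow_eq_one h1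
  have h2 := homega _ hζM τ (frobP q) k hk.symm
  have h3 := hconj τ q hq0
  rw [hτ'] at h3
  rw [← h3] at h2
  have h4 : frobP (σ • q) ^ k = frobP q := by
    apply AlgEquiv.restrictScalars_injective ℚ
    rw [← h2]
    exact map_pow (AlgEquiv.restrictScalarsHom ℚ) (frobP (σ • q)) k
  -- `σ ζ = ζ ^ k`
  have h5 : σ ζ = ζ ^ k := by
    apply (algebraMap K M).injective
    rw [← hτ', AlgEquiv.restrictNormal_commutes, ← hk, map_pow]
  -- `k * c ≡ 1 mod p`
  have h6 : k * c ≡ 1 [MOD p] := by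
    have h7 : ζ ^ (k * c) = ζ ^ 1 := by
      rw [pow_mul, ← h5, ← map_pow, hσ, pow_one]
    rw [pow_one] at h7
    rcases Nat.eq_zero_or_pos (k * c) with h0 | hpos
    · rw [h0, pow_zero] at h7
      exact absurd h7.symm (hζ.ne_one hp.out.one_lt)
    · have h8 : ζ ^ (k * c - 1) = 1 := by
        have hζ0 : ζ ≠ 0 := hζ.ne_zero hp.out.ne_zero
        have : ζ ^ (k * c - 1) * ζ = 1 * ζ := by
          rw [← pow_succ, Nat.sub_add_cancel hpos, h7, one_mul]
        exact mul_right_cancel₀ hζ0 this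
      have h9 : p ∣ k * c - 1 := (hζ.pow_eq_one_iff_dvd _).mp h8
      exact ((Nat.modEq_iff_dvd' hpos).mpr h9).symm
  rw [← h4, ← pow_mul]
  have := gal_pow_eq_pow_of_modEq hdeg (frobP (σ • q)) h6
  rw [this, pow_one]


/-- **[D] Endgame.**  An abstract Artin datum (`art`, `frobP`) for `M / K` (`K = ℚ(ζ_p)`, `[M:K] = p`,
`Gal(K/ℚ)` acting through `ω⁻¹`), which kills principal ideals (`hrec`, reciprocity) and has some
nontrivial Frobenius (`hne`, first inequality), contradicts the Jacobi-sum factorisation (`hS`). -/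
theorem endgame (hp2 : p ≠ 2) (homega : IsOmegaInv p K M) (hdeg : finrank K M = p)
    (art : (Ideal (𝓞 K))⁰ →* (M ≃ₐ[K] M)) (frobP : Ideal (𝓞 K) → (M ≃ₐ[K] M))
    (hart : ∀ (q : Ideal (𝓞 K)) [q.IsPrime] (hq : q ≠ ⊥),
      art ⟨q, mem_nonZeroDivisors_of_ne_zero hq⟩ = frobP q)
    (hconj : ∀ (τ : M ≃ₐ[ℚ] M) (q : Ideal (𝓞 K)) [q.IsPrime], q ≠ ⊥ →
      (frobP ((τ.restrictNormal K) • q)).restrictScalars ℚ =
        τ * (frobP q).restrictScalars ℚ * τ⁻¹)
    (hrec : ∀ (I : (Ideal (𝓞 K))⁰), (I : Ideal (𝓞 K)).IsPrincipal → art I = 1)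
    (hne : ∃ q : Ideal (𝓞 K), q.IsPrime ∧ q ≠ ⊥ ∧ frobP q ≠ 1)
    (hS : ∀ (ζ : K), IsPrimitiveRoot ζ p → ∀ sig : ℕ → (K ≃ₐ[ℚ] K),
      (∀ c ∈ Stickelberger.exponentSet p, sig c ζ = ζ ^ c) →
      ∀ (q : Ideal (𝓞 K)) [q.IsPrime] (ℓ : ℕ), ℓ.Prime → ℓ ≠ p → Ideal.absNorm q = ℓ →
        ∃ J : 𝓞 K, Ideal.span {J} = ∏ c ∈ Stickelberger.exponentSet p, (sig c)⁻¹ • q) :
    False := by
  classical
  obtain ⟨q, hqp, hq0, hq⟩ := hne
  have hstab : ∀ σ : K ≃ₐ[ℚ] K, σ • q = q → σ = 1 :=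
    fun σ hσ => eq_one_of_smul_eq homega hdeg frobP hconj q hq0 hq σ hσ
  obtain ⟨ℓ, hℓ, hℓp, hN⟩ := absNorm_prime_of_stabilizer_trivial hp2 q hq0 hstab
  obtain ⟨ζ, hζ, sig, hsig⟩ := exists_sig (p := p) (K := K)
  obtain ⟨J, hJ⟩ := hS ζ hζ sig hsig q ℓ hℓ hℓp hN
  set g := frobP q with hg
  -- the ideals `σ_c⁻¹ q` as elements of `(Ideal (𝓞 K))⁰`
  let x : ℕ → (Ideal (𝓞 K))⁰ := fun c =>
    ⟨(sig c)⁻¹ • q, mem_nonZeroDivisors_of_ne_zero (smul_ne_bot' _ hq0)⟩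
  have hx : ∀ c ∈ Stickelberger.exponentSet p, art (x c) = g ^ c := by
    intro c hc
    have h1 : art (x c) = frobP ((sig c)⁻¹ • q) := hart ((sig c)⁻¹ • q) (smul_ne_bot' _ hq0)
    rw [h1]
    apply frobP_smul_eq_pow homega hdeg frobP hconj hζ q hq0
    rw [← hsig c hc]
    exact (sig c).symm_apply_apply ζ
  have hprod : ∀ S' : Finset ℕ, S' ⊆ Stickelberger.exponentSet p →
      art (∏ c ∈ S', x c) = g ^ (∑ c ∈ S', c) := by
    intro S'
    induction S' using Finset.induction_on with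
    | empty => intro _; simp
    | insert a s ha ih =>
      intro hs
      rw [Finset.prod_insert ha, Finset.sum_insert ha, map_mul, pow_add,
        ih ((Finset.subset_insert a s).trans hs), hx a (hs (Finset.mem_insert_self a s))]
  have h1 := hprod _ (Finset.Subset.refl _)
  have h2 : art (∏ c ∈ Stickelberger.exponentSet p, x c) = 1 := by
    apply hrec
    refine ⟨⟨J, ?_⟩⟩
    rw [Submonoid.coe_finsetProd, Ideal.submodule_span_eq, hJ]
  rw [h2] at h1
  have hord : orderOf g = p := orderOf_eq_prime (pow_finrank_eq_one hdeg _) hq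
  have h3 : p ∣ Stickelberger.eigenvalueScalar p := by
    have h4 : orderOf g ∣ Stickelberger.eigenvalueScalar p := orderOf_dvd_of_pow_eq_one h1.symm
    rwa [hord] at h4
  exact not_dvd_eigenvalueScalar hp.out hp2 h3

end galois

end Fermat.Agent.ExtVan
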