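/-
S14 (Ext-vanishing), package [A] (helper5): reduction of `ExtVanishingCts p` to the non-existence of
an "obstruction cocycle" `b : G_ℚ → 𝔽_p` (a cocycle for `𝔽_p(χ⁻¹)`, unramified outside `p`, locally
a coboundary at `p`, nontrivial on `ker χ`).  Pure linear algebra.
-/
import Mathlib
import Fermat.Prelude.Def_ExtCitation_AdmissibleExtension_v2
import Fermat.Prelude.Def_ExtCitation_KummerBridge

set_option autoImplicit false

noncomputable section

namespace Fermat.Agent.ExtVan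

open ExtCitation Module

/-- the algebraic closure of `ℚ` used by the prelude. -/
abbrev Qbar : Type := AlgebraicClosure ℚ

/-- the absolute Galois group of `ℚ`. -/
abbrev GQ : Type := Qbar ≃ₐ[ℚ] Qbar

variable (p : ℕ) [Fact p.Prime]

/-- The mod `p` cyclotomic character with values in `ZMod p`. -/
def chi (σ : GQ) : ZMod p := ((cycloChar p σ : (ZMod p)ˣ) : ZMod p)

lemma chi_eq_cycloExp (σ : GQ) : chi p σ = (cycloExp p σ : ZMod p) := coe_cycloChar p σ

lemma chi_mul (σ τ : GQ) : chi p (σ * τ) = chi p σ * chi p τ := by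
  simp [chi, map_mul]

lemma chi_one : chi p (1 : GQ) = 1 := by simp [chi]

lemma chi_ne_zero (σ : GQ) : chi p σ ≠ 0 := (cycloChar p σ).ne_zero

/-- An obstruction cocycle: the datum extracted from a non-split admissible extension. -/
structure IsObstruction (b : GQ → ZMod p) : Prop where
  cocycle : ∀ σ τ : GQ, b (σ * τ) = chi p τ * b σ + b τ
  nontrivial : ∃ σ : GQ, chi p σ = 1 ∧ b σ ≠ 0
  open_kernel : IsOpen {σ : GQ | chi p σ = 1 ∧ b σ = 0}
  unramified : ∀ ℓ : ℕ, ℓ.Prime → ℓ ≠ p → ∀ A : ValuationSubring Qbar, A.LiesOverPrime ℓ →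
    ∀ σ ∈ A.inertiaSubgroupIn ℚ, chi p σ = 1 ∧ b σ = 0
  split_at_p : ∀ A : ValuationSubring Qbar, A.LiesOverPrime p →
    ∃ c : ZMod p, ∀ σ ∈ A.decompositionSubgroup ℚ, b σ = (chi p σ - 1) * c

variable {p}
variable {V : Type} [AddCommGroup V] [Module (ZMod p) V] [DistribMulAction GQ V]
  [SMulCommClass GQ (ZMod p) V]

lemma card_zmod_p : Nat.card (ZMod p) = p := by
  have : NeZero p := ⟨(Fact.out : p.Prime).ne_zero⟩
  rw [Nat.card_eq_fintype_card, ZMod.card]

/-- finrank from cardinality. -/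
lemma finrank_eq_of_card {W : Type*} [AddCommGroup W] [Module (ZMod p) W] {n : ℕ}
    (h : Nat.card W = p ^ n) : Module.Finite (ZMod p) W ∧ finrank (ZMod p) W = n := by
  have hp : p.Prime := Fact.out
  have : Finite W := Nat.finite_of_card_ne_zero (by rw [h]; exact pow_ne_zero _ hp.ne_zero)
  have : Module.Finite (ZMod p) W := Module.Finite.of_finite
  refine ⟨inferInstance, ?_⟩
  have h1 := Module.natCard_eq_pow_finrank (K := ZMod p) (V := W)
  rw [h, card_zmod_p] at h1
  exact (Nat.pow_right_injective hp.two_le h1).symm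

/-- **Reduction [A]**: if no obstruction cocycle exists, every admissible extension splits. -/
theorem extVanishingCts_of_not_isObstruction
    (h : ∀ b : GQ → ZMod p, ¬ IsObstruction p b) : ExtVanishingCts p := by
  intro V _ _ _ _ C hadm
  have hp : p.Prime := Fact.out
  obtain ⟨hVfin, hV2⟩ := finrank_eq_of_card (p := p) (W := V) (n := 2) hadm.card_total
  obtain ⟨hCfin, hC1⟩ := finrank_eq_of_card (p := p) (W := C) (n := 1)
    (by rw [hadm.card_sub, pow_one])
  -- a generator of `C`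
  obtain ⟨⟨e₁, he₁C⟩, he₁ne, he₁gen⟩ := (finrank_eq_one_iff' (K := ZMod p) (V := C)).mp hC1
  have he₁0 : e₁ ≠ 0 := fun h0 => he₁ne (Subtype.ext h0)
  have hCgen : ∀ w ∈ C, ∃ c : ZMod p, c • e₁ = w := by
    intro w hw
    obtain ⟨c, hc⟩ := he₁gen ⟨w, hw⟩
    exact ⟨c, congrArg Subtype.val hc⟩
  have hinj : ∀ c c' : ZMod p, c • e₁ = c' • e₁ → c = c' := fun c c' hcc =>
    smul_left_injective (ZMod p) he₁0 hcc
  -- a vector outside `C`
  have hCtop : C ≠ ⊤ := by
    intro htop
    rw [htop, finrank_top, hV2] at hC1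
    omega
  obtain ⟨e₂, -, he₂C⟩ := SetLike.exists_of_lt (lt_top_iff_ne_top.mpr hCtop)
  -- complements of `C`
  have hnot : ∀ c : ZMod p, e₂ + c • e₁ ∉ C := fun c hmem => he₂C (by
    have := C.sub_mem hmem (C.smul_mem c he₁C)
    simpa using this)
  have hcompl : ∀ c : ZMod p, IsCompl C (Submodule.span (ZMod p) {e₂ + c • e₁}) := by
    intro c
    have hne : e₂ + c • e₁ ≠ 0 := fun h0 => hnot c (h0 ▸ C.zero_mem)
    rw [Submodule.isCompl_iff_disjoint]
    · rw [Submodule.disjoint_span_singleton' hne]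
      exact hnot c
    · rw [hV2, hC1, finrank_span_singleton hne]
  -- the cocycle
  have hb : ∀ σ : GQ, ∃ c : ZMod p, c • e₁ = σ • e₂ - chi p σ • e₂ := fun σ =>
    hCgen _ (by rw [chi_eq_cycloExp]; exact hadm.cyclo_quot σ e₂)
  choose b hb using hb
  have hσe₂ : ∀ σ : GQ, σ • e₂ = chi p σ • e₂ + b σ • e₁ := fun σ => by rw [hb]; abel
  have hσe₁ : ∀ σ : GQ, σ • e₁ = e₁ := fun σ => hadm.fixed_sub σ e₁ he₁C
  have hcoc : ∀ σ τ : GQ, b (σ * τ) = chi p τ * b σ + b τ := by
    intro σ τ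
    apply hinj
    have h1 : (σ * τ) • e₂ = chi p (σ * τ) • e₂ + b (σ * τ) • e₁ := hσe₂ _
    rw [mul_smul, hσe₂ τ, smul_add, smul_comm σ (chi p τ) e₂, smul_comm σ (b τ) e₁, hσe₁,
      hσe₂ σ, chi_mul] at h1
    linear_combination (norm := module) -h1
  -- a global complement from a global coboundary
  have hsplit : ∀ c : ZMod p, (∀ σ : GQ, b σ = (chi p σ - 1) * c) → SplitsGlobally C := by
    intro c hc
    refine ⟨Submodule.span (ZMod p) {e₂ + c • e₁}, ?_, hcompl c⟩
    intro σ x hx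
    obtain ⟨a, rfl⟩ := Submodule.mem_span_singleton.mp hx
    rw [Submodule.mem_span_singleton]
    refine ⟨a * chi p σ, ?_⟩
    have h1 : σ • (e₂ + c • e₁) = chi p σ • (e₂ + c • e₁) := by
      rw [smul_add, smul_comm σ c e₁, hσe₁, hσe₂ σ, hc σ]
      module
    rw [smul_comm σ a, h1, mul_smul]
  by_cases hcase : ∀ σ : GQ, chi p σ = 1 → b σ = 0
  · -- `b` is trivial on `ker χ`: it is a coboundary
    by_cases hchi : ∀ σ : GQ, chi p σ = 1
    · exact hsplit 0 (fun σ => by rw [hcase σ (hchi σ), mul_zero])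
    · obtain ⟨σ₀, hσ₀⟩ := not_forall.mp hchi
      have hσ₀' : chi p σ₀ - 1 ≠ 0 := sub_ne_zero.mpr hσ₀
      refine hsplit (b σ₀ / (chi p σ₀ - 1)) (fun σ => ?_)
      -- `b (σ σ₀) = b (σ₀ σ)` since they differ by an element of `ker χ`
      have hn : chi p ((σ₀ * σ)⁻¹ * (σ * σ₀)) = 1 := by
        have h1 : chi p ((σ₀ * σ) * ((σ₀ * σ)⁻¹ * (σ * σ₀))) = chi p (σ * σ₀) := by
          rw [mul_inv_cancel_left]
        rw [chi_mul, chi_mul p σ₀ σ, chi_mul p σ σ₀] at h1
        have h2 : chi p σ₀ * chi p σ ≠ 0 := mul_ne_zero (chi_ne_zero p σ₀) (chi_ne_zero p σ)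
        apply mul_left_cancel₀ h2
        rw [h1]; ring
      have h3 : b (σ * σ₀) = b (σ₀ * σ) := by
        have h4 : σ * σ₀ = (σ₀ * σ) * ((σ₀ * σ)⁻¹ * (σ * σ₀)) := by rw [mul_inv_cancel_left]
        rw [h4, hcoc, hn, hcase _ hn]; ring
      rw [hcoc, hcoc] at h3
      field_simp
      linear_combination h3
  · -- the obstruction cocycle
    exfalso
    obtain ⟨σ₁, hσ₁⟩ := not_forall.mp hcase
    obtain ⟨hσ₁χ, hσ₁b⟩ := Classical.not_imp.mp hσ₁
    -- characterisation of the trivially acting elements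
    have htriv : ∀ σ : GQ, (∀ v : V, σ • v = v) ↔ (chi p σ = 1 ∧ b σ = 0) := by
      intro σ
      constructor
      · intro hv
        have h1 := hσe₂ σ
        rw [hv e₂] at h1
        have h2 : (1 - chi p σ) • e₂ = b σ • e₁ := by
          linear_combination (norm := module) h1
        have hχ : chi p σ = 1 := by
          by_contra hne
          have hne' : (1 - chi p σ) ≠ 0 := sub_ne_zero.mpr (Ne.symm hne)
          apply he₂C
          have h3 : e₂ = (1 - chi p σ)⁻¹ • (b σ • e₁) := by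
            rw [← h2, smul_smul, inv_mul_cancel₀ hne', one_smul]
          rw [h3]
          exact C.smul_mem _ (C.smul_mem _ he₁C)
        refine ⟨hχ, ?_⟩
        rw [hχ, sub_self, zero_smul] at h2
        exact hinj _ _ (by rw [← h2, zero_smul])
      · rintro ⟨h1, h2⟩ v
        have hv : v ∈ C ⊔ Submodule.span (ZMod p) {e₂ + (0 : ZMod p) • e₁} := by
          rw [(hcompl 0).sup_eq_top]; trivial
        obtain ⟨w, hw, y, hy, rfl⟩ := Submodule.mem_sup.mp hv
        obtain ⟨a, rfl⟩ := Submodule.mem_span_singleton.mp hy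
        rw [smul_add, hadm.fixed_sub σ w hw, smul_comm σ a, smul_add, smul_comm σ (0 : ZMod p) e₁,
          hσe₁, hσe₂ σ, h1, h2]
        module
    apply h b
    refine ⟨hcoc, ⟨σ₁, hσ₁χ, hσ₁b⟩, ?_, ?_, ?_⟩
    · have hset : {σ : GQ | chi p σ = 1 ∧ b σ = 0} = {σ : GQ | ∀ v : V, σ • v = v} := by
        ext σ
        exact (htriv σ).symm
      rw [hset]
      exact hadm.open_kernel
    · intro ℓ hℓ hℓp A hA σ hσ
      exact (htriv σ).mp (hadm.unramified_outside ℓ hℓ hℓp A hA σ hσ)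
    · intro A hA
      obtain ⟨C', hC'stab, hC'⟩ := hadm.locally_split A hA
      have hv : e₂ ∈ C ⊔ C' := by rw [hC'.sup_eq_top]; trivial
      obtain ⟨w, hw, y, hy, hwy⟩ := Submodule.mem_sup.mp hv
      obtain ⟨c₀, rfl⟩ := hCgen w hw
      refine ⟨-c₀, fun σ hσ => ?_⟩
      have hy' : y = e₂ + (-c₀) • e₁ := by
        rw [← hwy]; module
      have h1 : σ • y ∈ C' := hC'stab σ hσ y hy
      have h2 : chi p σ • y ∈ C' := C'.smul_mem _ hy
      have h3 : σ • y - chi p σ • y = (b σ - (chi p σ - 1) * (-c₀)) • e₁ := by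
        rw [hy', smul_add, smul_comm σ (-c₀) e₁, hσe₁, hσe₂ σ]
        module
      have h4 : (b σ - (chi p σ - 1) * (-c₀)) • e₁ ∈ C ⊓ C' := by
        refine ⟨C.smul_mem _ he₁C, ?_⟩
        rw [← h3]
        exact C'.sub_mem h1 h2
      rw [hC'.inf_eq_bot, Submodule.mem_bot] at h4
      have h5 := hinj _ 0 (by rw [h4, zero_smul])
      exact sub_eq_zero.mp h5

end Fermat.Agent.ExtVan
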