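/-
S14 long shot, brick [A2] (Galois part, helper5): from an obstruction cocycle `b : G_ℚ → 𝔽_p` to the
fields `K = ℚ(ζ_p) ⊆ M ⊆ Qbar`, `M` the fixed field of `{χ = 1 ∧ b = 0}`:
`M/ℚ` finite Galois, `[M : K] = p`, `Gal(K/ℚ)` acts on `Gal(M/K)` through `ω⁻¹`.
-/
import Mathlib
import Fermat.Agent.ExtVan.Reduction
import Fermat.Agent.ExtVan.Endgame

set_option autoImplicit false

noncomputable section

namespace Fermat.Agent.ExtVan

open ExtCitation IntermediateField

instance isGalois_Qbar : IsGalois ℚ Qbar := by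
  have h : (AlgebraicClosure.instAlgebra ℚ : Algebra ℚ Qbar) = DivisionRing.toRatAlgebra :=
    Subsingleton.elim _ _
  rw [← h]
  exact IsAlgClosure.isGalois ℚ _

variable {p : ℕ} [Fact p.Prime] {b : GQ → ZMod p}

namespace IsObstruction

theorem map_one (hb : IsObstruction p b) : b 1 = 0 := by
  have h := hb.cocycle 1 1
  rw [mul_one, chi_one, one_mul] at h
  exact left_eq_add.mp h

theorem map_inv (hb : IsObstruction p b) (σ : GQ) : b σ⁻¹ = - ((chi p σ)⁻¹ * b σ) := by
  have h := hb.cocycle σ σ⁻¹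
  rw [mul_inv_cancel, hb.map_one] at h
  have h2 : chi p σ⁻¹ = (chi p σ)⁻¹ := by
    have h3 : chi p σ⁻¹ * chi p σ = 1 := by rw [← chi_mul, inv_mul_cancel, chi_one]
    exact eq_inv_of_mul_eq_one_left h3
  rw [h2] at h
  exact eq_neg_of_add_eq_zero_right h.symm

theorem map_conj (hb : IsObstruction p b) (τ σ : GQ) (hσ : chi p σ = 1) :
    b (τ * σ * τ⁻¹) = (chi p τ)⁻¹ * b σ := by
  have h2 : chi p τ⁻¹ = (chi p τ)⁻¹ := by
    have h3 : chi p τ⁻¹ * chi p τ = 1 := by rw [← chi_mul, inv_mul_cancel, chi_one]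
    exact eq_inv_of_mul_eq_one_left h3
  rw [hb.cocycle (τ * σ) τ⁻¹, hb.cocycle τ σ, hb.map_inv τ, hσ, h2]
  ring

theorem map_mul_of_chi (hb : IsObstruction p b) (σ τ : GQ) (hτ : chi p τ = 1) :
    b (σ * τ) = b σ + b τ := by
  rw [hb.cocycle, hτ, one_mul]

end IsObstruction

/-- The kernel `{χ = 1 ∧ b = 0}` of an obstruction cocycle, as a subgroup of `G_ℚ`. -/
def obsKer (hb : IsObstruction p b) : Subgroup GQ where
  carrier := {σ | chi p σ = 1 ∧ b σ = 0}
  mul_mem' := by
    rintro σ τ ⟨h1, h2⟩ ⟨h3, h4⟩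
    refine ⟨by rw [chi_mul, h1, h3, one_mul], ?_⟩
    rw [hb.map_mul_of_chi σ τ h3, h2, h4, add_zero]
  one_mem' := ⟨chi_one p, hb.map_one⟩
  inv_mem' := by
    rintro σ ⟨h1, h2⟩
    have h3 : chi p σ⁻¹ * chi p σ = 1 := by rw [← chi_mul, inv_mul_cancel, chi_one]
    refine ⟨by rwa [h1, mul_one] at h3, ?_⟩
    rw [hb.map_inv, h2, mul_zero, neg_zero]

theorem mem_obsKer (hb : IsObstruction p b) (σ : GQ) :
    σ ∈ obsKer hb ↔ chi p σ = 1 ∧ b σ = 0 := Iff.rfl

instance obsKer_normal (hb : IsObstruction p b) : (obsKer hb).Normal where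
  conj_mem := by
    rintro σ ⟨h1, h2⟩ τ
    have h3 : chi p τ * chi p τ⁻¹ = 1 := by rw [← chi_mul, mul_inv_cancel, chi_one]
    refine ⟨?_, ?_⟩
    · rw [chi_mul, chi_mul, h1, mul_one, h3]
    · rw [hb.map_conj τ σ h1, h2, mul_zero]

theorem obsKer_isOpen (hb : IsObstruction p b) : IsOpen ((obsKer hb : Subgroup GQ) : Set GQ) :=
  hb.open_kernel

theorem obsKer_isClosed (hb : IsObstruction p b) : IsClosed ((obsKer hb : Subgroup GQ) : Set GQ) :=
  Subgroup.isClosed_of_isOpen _ (obsKer_isOpen hb)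

/-- the fixed field of `obsKer`. -/
def obsField (hb : IsObstruction p b) : IntermediateField ℚ Qbar :=
  IntermediateField.fixedField (obsKer hb)

theorem fixingSubgroup_obsField (hb : IsObstruction p b) :
    (obsField hb).fixingSubgroup = obsKer hb :=
  InfiniteGalois.fixingSubgroup_fixedField ⟨obsKer hb, obsKer_isClosed hb⟩

instance obsField_finiteDimensional (hb : IsObstruction p b) :
    FiniteDimensional ℚ (obsField hb) := by
  have h := (InfiniteGalois.isOpen_iff_finite (obsField hb)).mp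
    (by rw [fixingSubgroup_obsField]; exact obsKer_isOpen hb)
  exact h

instance obsField_isGalois (hb : IsObstruction p b) : IsGalois ℚ (obsField hb) := by
  change @IsGalois ℚ _ (obsField hb) _ (IntermediateField.algebra' _)
  rw [← InfiniteGalois.normal_iff_isGalois, fixingSubgroup_obsField]
  infer_instance

theorem mem_obsField_fixed_iff (hb : IsObstruction p b) (σ : GQ) :
    (∀ x ∈ obsField hb, σ x = x) ↔ chi p σ = 1 ∧ b σ = 0 := by
  rw [← mem_obsKer hb, ← fixingSubgroup_obsField hb, IntermediateField.mem_fixingSubgroup_iff]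

/-! ### The cyclotomic field `K = ℚ(ζ_p)` inside `Qbar` -/

section Cyclo

variable (p)

theorem exists_primitiveRoot_Qbar : ∃ ζ : Qbar, IsPrimitiveRoot ζ p := by
  have : NeZero p := ⟨(Fact.out : p.Prime).ne_zero⟩
  have : NeZero (p : Qbar) := ⟨Nat.cast_ne_zero.mpr (NeZero.ne p)⟩
  exact HasEnoughRootsOfUnity.exists_primitiveRoot Qbar p

/-- a chosen primitive `p`-th root of unity in `Qbar`. -/
def zetaQ : Qbar := (exists_primitiveRoot_Qbar p).choose

theorem zetaQ_spec : IsPrimitiveRoot (zetaQ p) p := (exists_primitiveRoot_Qbar p).choose_spec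

variable {p}

/-- the defining property of the mod `p` cyclotomic character. -/
theorem chi_spec (σ : GQ) {ζ : Qbar} (hζ : ζ ^ p = 1) : σ ζ = ζ ^ (chi p σ).val := by
  have : NeZero p := ⟨(Fact.out : p.Prime).ne_zero⟩
  have hu : IsUnit ζ := IsUnit.of_pow_eq_one hζ (NeZero.ne p)
  obtain ⟨t, rfl⟩ := hu
  have ht : t ∈ rootsOfUnity p Qbar := by
    rw [mem_rootsOfUnity]
    exact Units.ext (by simpa using hζ)
  have h := modularCyclotomicCharacter.spec Qbar (card_rootsOfUnity_eq_self p)
    (σ : Qbar ≃+* Qbar) ht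
  simpa [chi, cycloChar] using h

theorem chi_eq_of_apply (σ : GQ) {ζ : Qbar} (hζ : IsPrimitiveRoot ζ p) {k : ℕ}
    (h : σ ζ = ζ ^ k) : chi p σ = (k : ZMod p) := by
  have : NeZero p := ⟨(Fact.out : p.Prime).ne_zero⟩
  have h1 := chi_spec σ hζ.pow_eq_one
  rw [h] at h1
  have h2 : k ≡ (chi p σ).val [MOD p] := by
    have h3 : ζ ^ (k % p) = ζ ^ k := by
      conv_lhs => rw [hζ.eq_orderOf]
      exact pow_mod_orderOf ζ k
    have h4 := hζ.pow_inj (Nat.mod_lt k (NeZero.pos p)) (ZMod.val_lt (chi p σ)) (h3.trans h1)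
    show k % p = (chi p σ).val % p
    rw [h4, Nat.mod_eq_of_lt (ZMod.val_lt (chi p σ))]
  have h3 : ((k : ℕ) : ZMod p) = (((chi p σ).val : ℕ) : ZMod p) :=
    (ZMod.natCast_eq_natCast_iff _ _ _).mpr h2
  rw [h3, ZMod.natCast_val, ZMod.cast_id]

theorem chi_eq_one_iff (σ : GQ) {ζ : Qbar} (hζ : IsPrimitiveRoot ζ p) :
    chi p σ = 1 ↔ σ ζ = ζ := by
  constructor
  · intro h
    have h1 := chi_spec σ hζ.pow_eq_one
    have hp1 : 1 < p := (Fact.out : p.Prime).one_lt
    have : Fact (1 < p) := ⟨hp1⟩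
    rw [h, ZMod.val_one, pow_one] at h1
    exact h1
  · intro h
    have := chi_eq_of_apply σ hζ (k := 1) (by rw [pow_one, h])
    simpa using this

variable (p)

/-- `K = ℚ(ζ_p)` inside `Qbar`. -/
def cycloField : IntermediateField ℚ Qbar := ℚ⟮zetaQ p⟯

theorem zetaQ_mem : zetaQ p ∈ cycloField p := IntermediateField.mem_adjoin_simple_self ℚ _

variable {p}

theorem forall_mem_cycloField_iff (σ : GQ) : (∀ x ∈ cycloField p, σ x = x) ↔ chi p σ = 1 := by
  rw [chi_eq_one_iff σ (zetaQ_spec p)]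
  constructor
  · intro h
    exact h _ (zetaQ_mem p)
  · intro h x hx
    have hle : cycloField p ≤ IntermediateField.fixedField (Subgroup.zpowers σ) := by
      rw [cycloField, IntermediateField.adjoin_simple_le_iff]
      intro τ
      obtain ⟨n, hn⟩ := Subgroup.mem_zpowers_iff.mp τ.2
      show (τ : GQ) (zetaQ p) = zetaQ p
      rw [← hn]
      have hfix : ∀ m : ℕ, (σ ^ m) (zetaQ p) = zetaQ p := by
        intro m
        induction m with
        | zero => simp
        | succ m ih => rw [pow_succ, AlgEquiv.mul_apply, h, ih]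
      cases n with
      | ofNat m => simpa using hfix m
      | negSucc m =>
        rw [zpow_negSucc]
        have := hfix (m + 1)
        calc (σ ^ (m + 1))⁻¹ (zetaQ p) = (σ ^ (m + 1))⁻¹ ((σ ^ (m + 1)) (zetaQ p)) := by rw [this]
          _ = zetaQ p := by rw [← AlgEquiv.mul_apply, inv_mul_cancel, AlgEquiv.one_apply]
    exact hle hx ⟨σ, Subgroup.mem_zpowers σ⟩

theorem cycloField_le_obsField (hb : IsObstruction p b) : cycloField p ≤ obsField hb := by
  intro x hx
  rw [obsField, IntermediateField.mem_fixedField_iff]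
  intro σ hσ
  exact (forall_mem_cycloField_iff σ).mpr hσ.1 x hx

instance cycloField_isCyclotomicExtension : IsCyclotomicExtension {p} ℚ (cycloField p) := by
  have : NeZero p := ⟨(Fact.out : p.Prime).ne_zero⟩
  exact (zetaQ_spec p).intermediateField_adjoin_isCyclotomicExtension ℚ

end Cyclo

/-! ### `M` over `K`: degree `p`, Galois, and the `ω⁻¹`-action -/

open NumberField

/-- `M` as an extension of `K`. -/
def obsFieldK (hb : IsObstruction p b) : IntermediateField (cycloField p) Qbar :=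
  IntermediateField.extendScalars (cycloField_le_obsField hb)

variable (hb : IsObstruction p b)

instance obsField_numberField : NumberField (obsField hb) where
  to_charZero := inferInstance
  to_finiteDimensional := obsField_finiteDimensional hb

instance obsFieldK_finiteDimensional : FiniteDimensional ℚ (obsFieldK hb) :=
  obsField_finiteDimensional hb

instance obsFieldK_numberField : NumberField (obsFieldK hb) where
  to_charZero := inferInstance
  to_finiteDimensional := obsFieldK_finiteDimensional hb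

instance obsFieldK_isGaloisQ : IsGalois ℚ (obsFieldK hb) := obsField_isGalois hb

instance cycloField_finiteDimensional : FiniteDimensional ℚ (cycloField p) := by
  have : NeZero p := ⟨(Fact.out : p.Prime).ne_zero⟩
  exact IsCyclotomicExtension.finiteDimensional {p} ℚ (cycloField p)

instance cycloField_numberField : NumberField (cycloField p) where
  to_charZero := inferInstance
  to_finiteDimensional := cycloField_finiteDimensional

instance obsFieldK_isGalois : IsGalois (cycloField p) (obsFieldK hb) :=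
  IsGalois.tower_top_of_isGalois ℚ (cycloField p) (obsFieldK hb)

instance obsFieldK_finiteDimensionalK : FiniteDimensional (cycloField p) (obsFieldK hb) :=
  Module.Finite.right ℚ (cycloField p) (obsFieldK hb)

theorem mem_obsFieldK_iff (x : Qbar) : x ∈ obsFieldK hb ↔ x ∈ obsField hb := Iff.rfl

theorem mem_fixingSubgroup_cycloField_iff (σ : GQ) :
    σ ∈ (cycloField p).fixingSubgroup ↔ chi p σ = 1 := by
  rw [IntermediateField.mem_fixingSubgroup_iff]
  exact forall_mem_cycloField_iff σ

/-- `b` as a homomorphism on `Gal(Qbar/K) = ker χ`. -/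
def bHom : (cycloField p).fixingSubgroup →* Multiplicative (ZMod p) where
  toFun σ := Multiplicative.ofAdd (b σ.1)
  map_one' := by
    show Multiplicative.ofAdd (b 1) = 1
    rw [hb.map_one]; rfl
  map_mul' σ τ := by
    show Multiplicative.ofAdd (b (σ.1 * τ.1)) = _
    rw [hb.map_mul_of_chi σ.1 τ.1 ((mem_fixingSubgroup_cycloField_iff τ.1).mp τ.2)]
    rfl

theorem bHom_apply (σ : (cycloField p).fixingSubgroup) :
    bHom hb σ = Multiplicative.ofAdd (b σ.1) := rfl

theorem mem_ker_bHom (σ : (cycloField p).fixingSubgroup) : σ ∈ (bHom hb).ker ↔ b σ.1 = 0 := by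
  rw [MonoidHom.mem_ker, bHom_apply]
  exact Iff.rfl

theorem bHom_surjective : Function.Surjective (bHom hb) := by
  have hp : p.Prime := Fact.out
  have : NeZero p := ⟨hp.ne_zero⟩
  obtain ⟨σ, hσ1, hσ2⟩ := hb.nontrivial
  let σ' : (cycloField p).fixingSubgroup := ⟨σ, (mem_fixingSubgroup_cycloField_iff σ).mpr hσ1⟩
  have hne : (bHom hb).range ≠ ⊥ := by
    intro h
    have : bHom hb σ' ∈ (bHom hb).range := ⟨σ', rfl⟩
    rw [h, Subgroup.mem_bot] at this
    exact hσ2 this
  have hcard : Nat.card (Multiplicative (ZMod p)) = p := by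
    rw [Nat.card_eq_fintype_card, Fintype.card_multiplicative, ZMod.card]
  have : Fact (Nat.card (Multiplicative (ZMod p))).Prime := ⟨by rw [hcard]; exact hp⟩
  have htop := (Subgroup.eq_bot_or_eq_top_of_prime_card (bHom hb).range).resolve_left hne
  exact MonoidHom.range_eq_top.mp htop

/-- restriction `Gal(Qbar/K) → Gal(M/K)`. -/
def resK : (cycloField p).fixingSubgroup →* Gal(obsFieldK hb/cycloField p) :=
  (AlgEquiv.restrictNormalHom (obsFieldK hb)).comp
    (IntermediateField.fixingSubgroupEquiv (cycloField p)).toMonoidHom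

theorem resK_apply (σ : (cycloField p).fixingSubgroup) (x : obsFieldK hb) :
    ((resK hb σ x : obsFieldK hb) : Qbar) = σ.1 (x : Qbar) := by
  have := AlgEquiv.restrictNormal_commutes
    (IntermediateField.fixingSubgroupEquiv (cycloField p) σ) (obsFieldK hb) x
  exact this

theorem resK_surjective : Function.Surjective (resK hb) := by
  intro g
  obtain ⟨σ, hσ⟩ := AlgEquiv.restrictNormalHom_surjective (F := cycloField p) (K₁ := obsFieldK hb)
    Qbar g
  exact ⟨(IntermediateField.fixingSubgroupEquiv (cycloField p)).symm σ, by simp [resK, hσ]⟩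

theorem ker_resK : (resK hb).ker = (bHom hb).ker := by
  ext σ
  rw [mem_ker_bHom, MonoidHom.mem_ker]
  have hσχ : chi p σ.1 = 1 := (mem_fixingSubgroup_cycloField_iff σ.1).mp σ.2
  constructor
  · intro h
    have h1 : ∀ x ∈ obsField hb, σ.1 x = x := by
      intro x hx
      have := resK_apply hb σ ⟨x, hx⟩
      rw [h] at this
      exact this.symm
    exact ((mem_obsField_fixed_iff hb σ.1).mp h1).2
  · intro h
    have h1 := (mem_obsField_fixed_iff hb σ.1).mpr ⟨hσχ, h⟩
    ext x
    rw [resK_apply]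
    exact h1 x.1 x.2

theorem finrank_obsFieldK : Module.finrank (cycloField p) (obsFieldK hb) = p := by
  have hp : p.Prime := Fact.out
  have : NeZero p := ⟨hp.ne_zero⟩
  rw [← IsGalois.card_aut_eq_finrank]
  have h1 : Nat.card Gal(obsFieldK hb/cycloField p) = (resK hb).ker.index := by
    rw [Subgroup.index_ker, MonoidHom.range_eq_top.mpr (resK_surjective hb), Subgroup.card_top]
  have h2 : Nat.card (Multiplicative (ZMod p)) = (bHom hb).ker.index := by
    rw [Subgroup.index_ker, MonoidHom.range_eq_top.mpr (bHom_surjective hb), Subgroup.card_top]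
  rw [h1, ker_resK, ← h2, Nat.card_eq_fintype_card, Fintype.card_multiplicative, ZMod.card]

theorem IsObstruction.map_pow_of_chi (hb : IsObstruction p b) (σ : GQ) (hσ : chi p σ = 1) (k : ℕ) :
    chi p (σ ^ k) = 1 ∧ b (σ ^ k) = k * b σ := by
  induction k with
  | zero => simp [chi_one, hb.map_one]
  | succ k ih =>
    refine ⟨by rw [pow_succ, chi_mul, ih.1, hσ, one_mul], ?_⟩
    rw [pow_succ, hb.map_mul_of_chi _ _ hσ, ih.2]
    push_cast
    ring

theorem isOmegaInv_obsFieldK : IsOmegaInv p (cycloField p) (obsFieldK hb) := by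
  intro ζ hζ τ g k hτ
  have hp : p.Prime := Fact.out
  obtain ⟨τ', hτ'⟩ := AlgEquiv.restrictNormalHom_surjective (F := ℚ) (K₁ := obsFieldK hb) Qbar τ
  obtain ⟨g', hg'⟩ := resK_surjective hb g
  have hg'χ : chi p g'.1 = 1 := (mem_fixingSubgroup_cycloField_iff g'.1).mp g'.2
  -- `χ τ' = k`
  have hζ' : IsPrimitiveRoot ((ζ : obsFieldK hb) : Qbar) p :=
    hζ.map_of_injective (f := algebraMap (obsFieldK hb) Qbar) (algebraMap (obsFieldK hb) Qbar).injective
  have hτζ : τ' ((ζ : obsFieldK hb) : Qbar) = ((ζ : obsFieldK hb) : Qbar) ^ k := by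
    have h1 := AlgEquiv.restrictNormal_commutes τ' (obsFieldK hb) ζ
    have h2 : τ'.restrictNormal (obsFieldK hb) = τ := hτ'
    rw [h2, hτ, map_pow] at h1
    exact h1.symm
  have hχτ : chi p τ' = (k : ZMod p) := chi_eq_of_apply τ' hζ' hτζ
  have hk0 : (k : ZMod p) ≠ 0 := hχτ ▸ chi_ne_zero p τ'
  -- the element `u = (τ' g' τ'⁻¹) ^ k`
  set v : GQ := τ' * g'.1 * τ'⁻¹ with hv
  have hvχ : chi p v = 1 := by
    have h3 : chi p τ' * chi p τ'⁻¹ = 1 := by rw [← chi_mul, mul_inv_cancel, chi_one]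
    rw [hv, chi_mul, chi_mul, hg'χ, mul_one, h3]
  have hvb : b v = (k : ZMod p)⁻¹ * b g'.1 := by rw [hv, hb.map_conj τ' g'.1 hg'χ, hχτ]
  obtain ⟨huχ, hub⟩ := hb.map_pow_of_chi v hvχ k
  have hub' : b (v ^ k) = b g'.1 := by
    rw [hub, hvb, ← mul_assoc, mul_inv_cancel₀ hk0, one_mul]
  have hmem : g'.1⁻¹ * v ^ k ∈ obsKer hb := by
    refine ⟨?_, ?_⟩
    · have h3 : chi p g'.1⁻¹ * chi p g'.1 = 1 := by rw [← chi_mul, inv_mul_cancel, chi_one]
      rw [hg'χ, mul_one] at h3
      rw [chi_mul, h3, huχ, one_mul]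
    · rw [hb.map_mul_of_chi _ _ huχ, hb.map_inv, hg'χ, hub']
      simp
  have hfix : ∀ x ∈ obsField hb, (v ^ k) x = g'.1 x := by
    intro x hx
    have h1 := (mem_obsField_fixed_iff hb _).mpr hmem x hx
    rw [AlgEquiv.mul_apply] at h1
    have h2 := congrArg g'.1 h1
    rwa [← AlgEquiv.mul_apply, mul_inv_cancel, AlgEquiv.one_apply] at h2
  -- push down to `M`
  set r := AlgEquiv.restrictNormalHom (F := ℚ) (K₁ := Qbar) (obsFieldK hb) with hr
  have hrτ : r τ' = τ := hτ'
  have hrg : r g'.1 = g.restrictScalars ℚ := by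
    ext x
    have h1 := AlgEquiv.restrictNormal_commutes g'.1 (obsFieldK hb) x
    have h2 := resK_apply hb g' x
    rw [hg'] at h2
    show ((g'.1.restrictNormal (obsFieldK hb)) x : Qbar) = (g x : Qbar)
    rw [h2]
    exact h1
  have hru : r (v ^ k) = r g'.1 := by
    ext x
    have h1 := AlgEquiv.restrictNormal_commutes (v ^ k) (obsFieldK hb) x
    have h2 := AlgEquiv.restrictNormal_commutes g'.1 (obsFieldK hb) x
    show (((v ^ k).restrictNormal (obsFieldK hb)) x : Qbar) = ((g'.1.restrictNormal (obsFieldK hb)) x : Qbar)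
    exact h1.trans ((hfix x.1 x.2).trans h2.symm)
  calc (τ * g.restrictScalars ℚ * τ⁻¹) ^ k = (r τ' * r g'.1 * (r τ')⁻¹) ^ k := by rw [hrτ, hrg]
    _ = r (v ^ k) := by rw [hv, map_pow, map_mul, map_mul, map_inv]
    _ = r g'.1 := hru
    _ = g.restrictScalars ℚ := hrg


/-- **[A2], Galois part, packaged** with `Algebra K M := (inclusion hKM).toAlgebra` and the
default-synthesised `ℚ`-algebra instances. -/
theorem bridgeGalois (hb : IsObstruction p b) :
    ∃ (K M : IntermediateField ℚ Qbar) (hKM : K ≤ M),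
      FiniteDimensional ℚ M ∧ IsGalois ℚ M ∧ IsCyclotomicExtension {p} ℚ K ∧
      (∀ σ : GQ, (∀ x ∈ M, σ x = x) ↔ (chi p σ = 1 ∧ b σ = 0)) ∧
      (∀ σ : GQ, (∀ x ∈ K, σ x = x) ↔ chi p σ = 1) ∧
      (letI := (IntermediateField.inclusion hKM).toAlgebra
       Module.finrank K M = p ∧ IsGalois K M ∧ IsOmegaInv p K M) :=
  ⟨cycloField p, obsField hb, cycloField_le_obsField hb, obsField_finiteDimensional hb,
    obsField_isGalois hb, cycloField_isCyclotomicExtension, mem_obsField_fixed_iff hb,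
    fun σ => forall_mem_cycloField_iff σ, finrank_obsFieldK hb, obsFieldK_isGalois hb,
    isOmegaInv_obsFieldK hb⟩

end Fermat.Agent.ExtVan
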