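/-
S14 long shot, brick [A2a] (helper7): INERTIA LIFTING.
For a finite Galois `M ≤ Qbar` over `ℚ`, a prime `Q` of `𝓞 M` and `σ ∈ Gal(M/ℚ)` in the inertia group
of `Q`, there are a valuation subring `A` of `Qbar` over `Q` and a lift `σ' ∈ A.inertiaSubgroupIn ℚ`
of `σ`.  Proof: Mathlib's profinite versions of "Galois acts transitively on primes over a prime"
and "the decomposition group surjects onto the residue automorphisms", applied to `Gal(Qbar/M)`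
acting on `𝓞 Qbar`; the valuation subring is the localization of `𝓞 Qbar` at a prime over `Q`.
-/
import Mathlib
import Fermat.Prelude.Def_FLTPrelim_Ramification

set_option autoImplicit false

noncomputable section

namespace Fermat.Agent.ExtVan.InertiaLift

open NumberField
open scoped Pointwise

/-- the algebraic closure of `ℚ` used by the prelude. -/
abbrev Qb : Type := AlgebraicClosure ℚ

instance isAlgebraic_Qb : Algebra.IsAlgebraic ℚ Qb := AlgebraicClosure.isAlgebraic ℚ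

instance isAlgClosure_Qb : IsAlgClosure ℚ Qb := ⟨inferInstance, inferInstance⟩

section Top

variable (F : IntermediateField ℚ Qb)

instance isAlgebraic_top : Algebra.IsAlgebraic F Qb := Algebra.IsAlgebraic.tower_top (K := ℚ) F

instance isAlgClosure_top : IsAlgClosure F Qb := ⟨inferInstance, inferInstance⟩

/-- discrete topology on the ring of all algebraic integers. -/
scoped instance : TopologicalSpace (𝓞 Qb) := ⊥

scoped instance : DiscreteTopology (𝓞 Qb) := ⟨rfl⟩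

/-- continuity of an action on a discrete space with open stabilizers. -/
theorem continuousSMul_of_stabilizer_isOpen {G X : Type*} [Group G] [TopologicalSpace G]
    [IsTopologicalGroup G] [MulAction G X] [TopologicalSpace X] [DiscreteTopology X]
    (h : ∀ x : X, IsOpen (MulAction.stabilizer G x : Set G)) : ContinuousSMul G X := by
  constructor
  rw [continuous_discrete_rng]
  intro c
  rw [isOpen_iff_mem_nhds]
  rintro ⟨g, x⟩ hgx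
  have hgx' : g • x = c := hgx
  have h1 : (fun τ : G => g * τ) '' (MulAction.stabilizer G x : Set G) ∈ nhds g := by
    have hopen : IsOpen ((fun τ : G => g * τ) '' (MulAction.stabilizer G x : Set G)) :=
      (Homeomorph.mulLeft g).isOpenMap _ (h x)
    exact hopen.mem_nhds ⟨1, one_mem _, mul_one g⟩
  have h2 : ({x} : Set X) ∈ nhds x := (isOpen_discrete _).mem_nhds rfl
  refine Filter.mem_of_superset (prod_mem_nhds h1 h2) ?_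
  rintro ⟨g', x'⟩ ⟨⟨τ, hτ, rfl⟩, hx'⟩
  have hx'' : x' = x := hx'
  subst hx''
  change (g * τ) • x' = c
  rw [mul_smul, MulAction.mem_stabilizer_iff.mp hτ, hgx']

instance continuousSMul_gal : ContinuousSMul (Qb ≃ₐ[F] Qb) (𝓞 Qb) := by
  apply continuousSMul_of_stabilizer_isOpen
  intro x
  have h := stabilizer_isOpen_of_isIntegral (K := F) (L := Qb) (x : Qb)
  convert h using 1
  ext g
  simp only [SetLike.mem_coe, MulAction.mem_stabilizer_iff]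
  constructor
  · intro hg
    exact congrArg (fun y : 𝓞 Qb => (y : Qb)) hg
  · intro hg
    exact RingOfIntegers.ext hg


theorem coe_algebraMap_int (x : 𝓞 F) :
    ((algebraMap (𝓞 F) (𝓞 Qb) x : 𝓞 Qb) : Qb) = algebraMap F Qb (x : F) := rfl

theorem coe_smul_int (g : Qb ≃ₐ[F] Qb) (x : 𝓞 Qb) : ((g • x : 𝓞 Qb) : Qb) = g (x : Qb) := rfl

instance smulCommClass_gal : SMulCommClass (Qb ≃ₐ[F] Qb) (𝓞 F) (𝓞 Qb) := by
  constructor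
  intro g a b
  rw [Algebra.smul_def, Algebra.smul_def, smul_mul']
  congr 1
  apply RingOfIntegers.ext
  rw [coe_smul_int, coe_algebraMap_int, AlgEquiv.commutes]

instance isInvariant_gal : Algebra.IsInvariant (𝓞 F) (𝓞 Qb) (Qb ≃ₐ[F] Qb) := by
  constructor
  intro b hb
  have h1 : ∀ g : Qb ≃ₐ[F] Qb, g (b : Qb) = (b : Qb) := fun g => by
    rw [← coe_smul_int, hb g]
  obtain ⟨y, hy⟩ := (InfiniteGalois.mem_range_algebraMap_iff_fixed (k := F) (K := Qb) (b : Qb)).mpr h1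
  have hint : IsIntegral ℤ y := by
    have hb' : IsIntegral ℤ (b : Qb) := RingOfIntegers.isIntegral_coe b
    rw [← hy] at hb'
    exact (isIntegral_algebraMap_iff (algebraMap F Qb).injective).mp hb'
  refine ⟨⟨y, hint⟩, ?_⟩
  apply RingOfIntegers.ext
  rw [coe_algebraMap_int]
  exact hy

end Top

section Lift

variable (M : IntermediateField ℚ Qb) [IsGalois ℚ M]

omit [IsGalois ℚ M] in
theorem coe_smul_int' (σ : M ≃ₐ[ℚ] M) (x : 𝓞 M) : ((σ • x : 𝓞 M) : M) = σ (x : M) := rfl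

theorem coe_smul_intQ (g : Qb ≃ₐ[ℚ] Qb) (x : 𝓞 Qb) : ((g • x : 𝓞 Qb) : Qb) = g (x : Qb) := rfl

/-- compatibility of the actions of `Gal(Qb/ℚ)` on `𝓞 Qb` and of `Gal(M/ℚ)` on `𝓞 M`. -/
theorem smul_algebraMap_int (g : Qb ≃ₐ[ℚ] Qb) (x : 𝓞 M) :
    g • (algebraMap (𝓞 M) (𝓞 Qb) x) =
      algebraMap (𝓞 M) (𝓞 Qb) ((AlgEquiv.restrictNormalHom M g) • x) := by
  apply RingOfIntegers.ext
  rw [coe_smul_intQ, coe_algebraMap_int, coe_algebraMap_int, coe_smul_int']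
  exact (AlgEquiv.restrictNormal_commutes g M (x : M)).symm

omit [IsGalois ℚ M] in
/-- an element of `Gal(Qb/M)` viewed in `Gal(Qb/ℚ)` acts in the same way on `𝓞 Qb`. -/
theorem restrictScalars_smul_int (n : Qb ≃ₐ[M] Qb) (x : 𝓞 Qb) :
    (n.restrictScalars ℚ) • x = n • x := rfl

omit [IsGalois ℚ M] in
theorem restrictScalars_smul_ideal (n : Qb ≃ₐ[M] Qb) (I : Ideal (𝓞 Qb)) :
    (n.restrictScalars ℚ) • I = n • I := by
  ext x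
  rw [Ideal.mem_pointwise_smul_iff_inv_smul_mem, Ideal.mem_pointwise_smul_iff_inv_smul_mem]
  rfl

theorem restrictNormalHom_restrictScalars (n : Qb ≃ₐ[M] Qb) :
    AlgEquiv.restrictNormalHom M (n.restrictScalars ℚ) = 1 := by
  ext x
  change algebraMap M Qb ((AlgEquiv.restrictNormal (n.restrictScalars ℚ) M) x) = _
  rw [AlgEquiv.restrictNormal_commutes]
  exact n.commutes x


/-- **Lifting of inertia elements** to the ring of all algebraic integers. -/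
theorem exists_lift (Q : Ideal (𝓞 M)) [Q.IsPrime] (σ : M ≃ₐ[ℚ] M)
    (hσ : ∀ x : 𝓞 M, σ • x - x ∈ Q) :
    ∃ (𝔓 : Ideal (𝓞 Qb)) (_ : 𝔓.IsPrime) (τ : Qb ≃ₐ[ℚ] Qb),
      𝔓.under (𝓞 M) = Q ∧ AlgEquiv.restrictNormalHom M τ = σ ∧ τ • 𝔓 = 𝔓 ∧
      ∀ b : 𝓞 Qb, τ • b - b ∈ 𝔓 := by
  -- Step 1: a prime of `𝓞 Qb` over `Q`
  obtain ⟨𝔓, -, h𝔓prime, h𝔓Q⟩ :=
    Ideal.exists_ideal_over_prime_of_isIntegral Q (⊥ : Ideal (𝓞 Qb)) (by
      rw [Ideal.comap_bot_of_injective _ (FaithfulSMul.algebraMap_injective (𝓞 M) (𝓞 Qb))]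
      exact bot_le)
  have := h𝔓prime
  have : 𝔓.LiesOver Q := ⟨h𝔓Q.symm⟩
  have hmem : ∀ x : 𝓞 M, algebraMap (𝓞 M) (𝓞 Qb) x ∈ 𝔓 ↔ x ∈ Q := by
    intro x
    rw [← h𝔓Q, Ideal.mem_comap]
  -- Step 2: an arbitrary lift of `σ`
  obtain ⟨g, hg⟩ := AlgEquiv.restrictNormalHom_surjective Qb σ
  -- `σ` and `σ⁻¹` preserve `Q`
  have hσQ : ∀ x : 𝓞 M, σ • x ∈ Q ↔ x ∈ Q := by
    intro x
    constructor
    · intro h
      have := Q.sub_mem h (hσ x)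
      rwa [sub_sub_cancel] at this
    · intro h
      have := Q.add_mem (hσ x) h
      rwa [sub_add_cancel] at this
  have hσQ' : ∀ x : 𝓞 M, σ⁻¹ • x ∈ Q ↔ x ∈ Q := by
    intro x
    rw [← hσQ (σ⁻¹ • x), smul_inv_smul]
  -- Step 3
  have h3 : (g • 𝔓).under (𝓞 M) = 𝔓.under (𝓞 M) := by
    ext x
    rw [Ideal.under_def, Ideal.under_def, Ideal.mem_comap, Ideal.mem_comap,
      Ideal.mem_pointwise_smul_iff_inv_smul_mem, smul_algebraMap_int, map_inv, hg, hmem, hmem,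
      hσQ']
  -- Step 4: move `g • 𝔓` back to `𝔓` by an element of `Gal(Qb/M)`
  obtain ⟨n, hn⟩ := Algebra.IsInvariant.exists_smul_of_under_eq_of_profinite (A := 𝓞 M)
    (G := Qb ≃ₐ[M] Qb) (g • 𝔓) 𝔓 h3
  set g₁ : Qb ≃ₐ[ℚ] Qb := n.restrictScalars ℚ * g with hg₁
  have hg₁𝔓 : g₁ • 𝔓 = 𝔓 := by
    rw [hg₁, mul_smul, restrictScalars_smul_ideal, ← hn]
  have hg₁σ : AlgEquiv.restrictNormalHom M g₁ = σ := by
    rw [hg₁, map_mul, restrictNormalHom_restrictScalars, one_mul, hg]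
  -- Step 5: the residue automorphism of `g₁` is `𝓞 M ⧸ Q`-linear
  let e : 𝓞 Qb ≃+* 𝓞 Qb := MulSemiringAction.toRingEquiv (Qb ≃ₐ[ℚ] Qb) (𝓞 Qb) g₁
  have he : 𝔓 = 𝔓.map e := by
    conv_lhs => rw [← hg₁𝔓]
    rfl
  let φ : (𝓞 Qb ⧸ 𝔓) ≃ₐ[𝓞 M ⧸ Q] (𝓞 Qb ⧸ 𝔓) :=
    { Ideal.quotientEquiv 𝔓 𝔓 e he with
      commutes' := by
        rintro ⟨x⟩
        change Ideal.Quotient.mk 𝔓 (g₁ • algebraMap (𝓞 M) (𝓞 Qb) x) =
          Ideal.Quotient.mk 𝔓 (algebraMap (𝓞 M) (𝓞 Qb) x)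
        rw [Ideal.Quotient.eq, smul_algebraMap_int, hg₁σ, ← map_sub, hmem]
        exact hσ x }
  have hφ : ∀ b : 𝓞 Qb, φ (Ideal.Quotient.mk 𝔓 b) = Ideal.Quotient.mk 𝔓 (g₁ • b) := fun b => rfl
  -- Step 6
  obtain ⟨⟨n₁, hn₁stab⟩, hn₁⟩ := Ideal.Quotient.stabilizerHom_surjective_of_profinite
    (G := Qb ≃ₐ[M] Qb) Q 𝔓 φ
  have hn₁' : ∀ b : 𝓞 Qb, Ideal.Quotient.mk 𝔓 (n₁ • b) = φ (Ideal.Quotient.mk 𝔓 b) := by
    intro b
    rw [← hn₁]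
    rfl
  have hn₁𝔓 : n₁ • 𝔓 = 𝔓 := hn₁stab
  -- Step 7
  refine ⟨𝔓, h𝔓prime, (n₁.restrictScalars ℚ)⁻¹ * g₁, ?_, ?_, ?_, ?_⟩
  · rw [← h𝔓Q]
  · rw [map_mul, map_inv, restrictNormalHom_restrictScalars, inv_one, one_mul, hg₁σ]
  · rw [mul_smul, hg₁𝔓, inv_smul_eq_iff, restrictScalars_smul_ideal, hn₁𝔓]
  · intro b
    rw [← Ideal.Quotient.eq]
    apply φ.injective
    rw [hφ b, ← hn₁', mul_smul]
    congr 1
    change n₁ • ((n₁.restrictScalars ℚ)⁻¹ • (g₁ • b)) = g₁ • b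
    have : (n₁.restrictScalars ℚ)⁻¹ • (g₁ • b) = n₁⁻¹ • (g₁ • b) := rfl
    rw [this, smul_inv_smul]

end Lift

section Loc

variable (𝔓 : Ideal (𝓞 Qb)) [h𝔓 : 𝔓.IsPrime]

/-- the localization of `𝓞 Qb` at `𝔓`, as a subring of `Qb`. -/
def locSubring : Subring Qb where
  carrier := {x | ∃ a s : 𝓞 Qb, s ∉ 𝔓 ∧ x * algebraMap (𝓞 Qb) Qb s = algebraMap (𝓞 Qb) Qb a}
  zero_mem' := ⟨0, 1, (Ideal.ne_top_iff_one 𝔓).mp h𝔓.ne_top, by simp⟩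
  one_mem' := ⟨1, 1, (Ideal.ne_top_iff_one 𝔓).mp h𝔓.ne_top, by simp⟩
  add_mem' := by
    rintro x y ⟨a, s, hs, hx⟩ ⟨b, t, ht, hy⟩
    refine ⟨a * t + b * s, s * t, fun h => (h𝔓.mem_or_mem h).elim hs ht, ?_⟩
    rw [map_mul, map_add, map_mul, map_mul]
    linear_combination (algebraMap (𝓞 Qb) Qb t) * hx + (algebraMap (𝓞 Qb) Qb s) * hy
  mul_mem' := by
    rintro x y ⟨a, s, hs, hx⟩ ⟨b, t, ht, hy⟩
    refine ⟨a * b, s * t, fun h => (h𝔓.mem_or_mem h).elim hs ht, ?_⟩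
    rw [map_mul, map_mul, ← hx, ← hy]; ring
  neg_mem' := by
    rintro x ⟨a, s, hs, hx⟩
    refine ⟨-a, s, hs, ?_⟩
    rw [map_neg, ← hx]; ring

theorem mem_locSubring {x : Qb} :
    x ∈ locSubring 𝔓 ↔
      ∃ a s : 𝓞 Qb, s ∉ 𝔓 ∧ x * algebraMap (𝓞 Qb) Qb s = algebraMap (𝓞 Qb) Qb a := Iff.rfl


/-- the localization of `𝓞 Qb` at a prime `𝔓` containing a nonzero integer is a valuation ring
(finite-level argument: localizations of Dedekind domains at nonzero primes are DVRs). -/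
theorem mem_or_inv_mem_locSubring {ℓ : ℕ} (hℓ : ℓ ≠ 0) (hℓ𝔓 : (ℓ : 𝓞 Qb) ∈ 𝔓) (x : Qb) :
    x ∈ locSubring 𝔓 ∨ x⁻¹ ∈ locSubring 𝔓 := by
  by_cases hx0 : x = 0
  · left; rw [hx0]; exact (locSubring 𝔓).zero_mem
  let L : IntermediateField ℚ Qb := IntermediateField.adjoin ℚ {x}
  have hfd : FiniteDimensional ℚ L :=
    IntermediateField.adjoin.finiteDimensional (Algebra.IsIntegral.isIntegral x)
  have : NumberField L := { to_charZero := inferInstance, to_finiteDimensional := hfd }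
  have hxL : x ∈ L := IntermediateField.mem_adjoin_simple_self ℚ x
  -- the prime of `𝓞 L` below `𝔓`
  have hne : 𝔓.under (𝓞 L) ≠ ⊥ := by
    intro h
    have h1 : (ℓ : 𝓞 L) ∈ 𝔓.under (𝓞 L) := by
      rw [Ideal.under_def, Ideal.mem_comap, map_natCast]
      exact hℓ𝔓
    rw [h, Ideal.mem_bot] at h1
    exact hℓ (by exact_mod_cast h1)
  let v : IsDedekindDomain.HeightOneSpectrum (𝓞 L) := ⟨𝔓.under (𝓞 L), inferInstance, hne⟩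
  obtain ⟨n, d, hnd⟩ := v.exists_primeCompl_mul_eq_or_mul_eq (K := L) ⟨x, hxL⟩
  have hd : algebraMap (𝓞 L) (𝓞 Qb) d ∉ 𝔓 := fun h => d.2 h
  have key : ∀ y : 𝓞 L, algebraMap (𝓞 Qb) Qb (algebraMap (𝓞 L) (𝓞 Qb) y) =
      algebraMap L Qb (algebraMap (𝓞 L) L y) := fun y => rfl
  rcases hnd with h | h
  · left
    refine ⟨algebraMap (𝓞 L) (𝓞 Qb) n, algebraMap (𝓞 L) (𝓞 Qb) d, hd, ?_⟩
    rw [key, key, ← h, map_mul]
    rfl
  · right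
    refine ⟨algebraMap (𝓞 L) (𝓞 Qb) n, algebraMap (𝓞 L) (𝓞 Qb) d, hd, ?_⟩
    rw [key, key, ← h, map_mul]
    change x⁻¹ * (x * _) = _
    rw [← mul_assoc, inv_mul_cancel₀ hx0, one_mul]

/-- the localization of `𝓞 Qb` at `𝔓` as a valuation subring. -/
def locVal {ℓ : ℕ} (hℓ : ℓ ≠ 0) (hℓ𝔓 : (ℓ : 𝓞 Qb) ∈ 𝔓) : ValuationSubring Qb :=
  ValuationSubring.ofSubring (locSubring 𝔓) (mem_or_inv_mem_locSubring 𝔓 hℓ hℓ𝔓)

theorem mem_locVal {ℓ : ℕ} (hℓ : ℓ ≠ 0) (hℓ𝔓 : (ℓ : 𝓞 Qb) ∈ 𝔓) {x : Qb} :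
    x ∈ locVal 𝔓 hℓ hℓ𝔓 ↔
      ∃ a s : 𝓞 Qb, s ∉ 𝔓 ∧ x * algebraMap (𝓞 Qb) Qb s = algebraMap (𝓞 Qb) Qb a := Iff.rfl


variable {ℓ : ℕ} (hℓ : ℓ ≠ 0) (hℓ𝔓 : (ℓ : 𝓞 Qb) ∈ 𝔓)

theorem algebraMap_int_injective : Function.Injective (algebraMap (𝓞 Qb) Qb) :=
  RingOfIntegers.coe_injective

theorem mem_nonunits_locVal {x : Qb} {a s : 𝓞 Qb} (ha : a ∈ 𝔓) (hs : s ∉ 𝔓)
    (h : x * algebraMap (𝓞 Qb) Qb s = algebraMap (𝓞 Qb) Qb a) :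
    x ∈ (locVal 𝔓 hℓ hℓ𝔓).nonunits := by
  rw [ValuationSubring.mem_nonunits_iff_or]
  by_contra hcon
  push Not at hcon
  obtain ⟨hx0, b, t, ht, hb⟩ := hcon
  have h1 : algebraMap (𝓞 Qb) Qb (s * t) = algebraMap (𝓞 Qb) Qb (a * b) := by
    rw [map_mul, map_mul, ← h, ← hb]
    field_simp
  have h2 : s * t = a * b := algebraMap_int_injective h1
  have h3 : s * t ∈ 𝔓 := h2 ▸ 𝔓.mul_mem_right b ha
  exact (h𝔓.mem_or_mem h3).elim hs ht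

theorem liesOverPrime_locVal : (locVal 𝔓 hℓ hℓ𝔓).LiesOverPrime ℓ := by
  change (ℓ : Qb) ∈ (locVal 𝔓 hℓ hℓ𝔓).nonunits
  apply mem_nonunits_locVal 𝔓 hℓ hℓ𝔓 hℓ𝔓 ((Ideal.ne_top_iff_one 𝔓).mp h𝔓.ne_top)
  simp

theorem algebraMap_smul_intQ (τ : Qb ≃ₐ[ℚ] Qb) (b : 𝓞 Qb) :
    algebraMap (𝓞 Qb) Qb (τ • b) = τ (algebraMap (𝓞 Qb) Qb b) := rfl

include hℓ hℓ𝔓 in
theorem apply_mem_locVal (τ : Qb ≃ₐ[ℚ] Qb) (hτ : τ • 𝔓 = 𝔓) {x : Qb}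
    (hx : x ∈ locVal 𝔓 hℓ hℓ𝔓) : τ x ∈ locVal 𝔓 hℓ hℓ𝔓 := by
  obtain ⟨a, s, hs, h⟩ := hx
  refine ⟨τ • a, τ • s, ?_, ?_⟩
  · intro hmem
    rw [← hτ, Ideal.smul_mem_pointwise_smul_iff] at hmem
    exact hs hmem
  · rw [algebraMap_smul_intQ, algebraMap_smul_intQ, ← map_mul, h]

theorem smul_locVal (τ : Qb ≃ₐ[ℚ] Qb) (hτ : τ • 𝔓 = 𝔓) :
    τ • locVal 𝔓 hℓ hℓ𝔓 = locVal 𝔓 hℓ hℓ𝔓 := by
  have hτ' : τ⁻¹ • 𝔓 = 𝔓 := by rw [inv_smul_eq_iff, hτ]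
  ext x
  rw [ValuationSubring.mem_pointwise_smul_iff_inv_smul_mem]
  constructor
  · intro h
    have := apply_mem_locVal 𝔓 hℓ hℓ𝔓 τ hτ h
    rwa [AlgEquiv.smul_def, ← AlgEquiv.mul_apply, mul_inv_cancel, AlgEquiv.one_apply] at this
  · intro h
    exact apply_mem_locVal 𝔓 hℓ hℓ𝔓 τ⁻¹ hτ' h

/-- an element of `Gal(Qb/ℚ)` fixing `𝔓` and acting trivially on `𝓞 Qb ⧸ 𝔓` lies in the inertia
subgroup of the valuation subring `locVal 𝔓`. -/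
theorem mem_inertiaSubgroupIn_locVal (τ : Qb ≃ₐ[ℚ] Qb) (hτ : τ • 𝔓 = 𝔓)
    (hτ' : ∀ b : 𝓞 Qb, τ • b - b ∈ 𝔓) :
    τ ∈ (locVal 𝔓 hℓ hℓ𝔓).inertiaSubgroupIn ℚ := by
  have hdec : τ ∈ (locVal 𝔓 hℓ hℓ𝔓).decompositionSubgroup ℚ := smul_locVal 𝔓 hℓ hℓ𝔓 τ hτ
  refine ⟨⟨τ, hdec⟩, ?_, rfl⟩
  change MulSemiringAction.toRingAut _ _ (⟨τ, hdec⟩ : (locVal 𝔓 hℓ hℓ𝔓).decompositionSubgroup ℚ) = 1
  ext r
  obtain ⟨⟨x, hx⟩, rfl⟩ := IsLocalRing.residue_surjective r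
  change (⟨τ, hdec⟩ : (locVal 𝔓 hℓ hℓ𝔓).decompositionSubgroup ℚ) •
    IsLocalRing.residue _ (⟨x, hx⟩ : locVal 𝔓 hℓ hℓ𝔓) = IsLocalRing.residue _ ⟨x, hx⟩
  rw [← IsLocalRing.ResidueField.residue_smul, ← sub_eq_zero, ← map_sub,
    IsLocalRing.residue_eq_zero_iff, ← ValuationSubring.coe_mem_nonunits_iff]
  change τ x - x ∈ (locVal 𝔓 hℓ hℓ𝔓).nonunits
  obtain ⟨a, s, hs, h⟩ := hx
  have hs' : τ • s ∉ 𝔓 := by
    intro hmem
    rw [← hτ, Ideal.smul_mem_pointwise_smul_iff] at hmem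
    exact hs hmem
  refine mem_nonunits_locVal 𝔓 hℓ hℓ𝔓 (a := (τ • a - a) * s - a * (τ • s - s)) (s := s * τ • s)
    (𝔓.sub_mem (𝔓.mul_mem_right _ (hτ' a)) (𝔓.mul_mem_left _ (hτ' s)))
    (fun hmem => (h𝔓.mem_or_mem hmem).elim hs hs') ?_
  have h' : τ x * τ (algebraMap (𝓞 Qb) Qb s) = τ (algebraMap (𝓞 Qb) Qb a) := by
    rw [← map_mul, h]
  simp only [map_sub, map_mul, algebraMap_smul_intQ]
  linear_combination (algebraMap (𝓞 Qb) Qb s) * h' - (τ (algebraMap (𝓞 Qb) Qb s)) * h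

end Loc

/-- **Inertia lifting.**  `M ≤ Qb` Galois over `ℚ`, `Q` a prime of `𝓞 M` containing the nonzero
integer `ℓ`, `σ ∈ Gal(M/ℚ)` acting trivially on `𝓞 M ⧸ Q`.  Then there are a valuation subring `A`
of `Qb` lying over `ℓ` and a lift of `σ` in the inertia subgroup of `A`. -/
theorem exists_inertia_lift (M : IntermediateField ℚ Qb) [IsGalois ℚ M]
    (Q : Ideal (𝓞 M)) [Q.IsPrime] {ℓ : ℕ} (hℓ : ℓ ≠ 0) (hℓQ : (ℓ : 𝓞 M) ∈ Q)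
    (σ : M ≃ₐ[ℚ] M) (hσ : ∀ x : 𝓞 M, σ • x - x ∈ Q) :
    ∃ (A : ValuationSubring Qb) (τ : Qb ≃ₐ[ℚ] Qb), A.LiesOverPrime ℓ ∧
      τ ∈ A.inertiaSubgroupIn ℚ ∧ AlgEquiv.restrictNormalHom M τ = σ := by
  obtain ⟨𝔓, h𝔓, τ, h𝔓Q, hτσ, hτ𝔓, hτ⟩ := exists_lift M Q σ hσ
  have hℓ𝔓 : (ℓ : 𝓞 Qb) ∈ 𝔓 := by
    have h1 : (ℓ : 𝓞 M) ∈ 𝔓.under (𝓞 M) := h𝔓Q ▸ hℓQ
    rw [Ideal.under_def, Ideal.mem_comap, map_natCast] at h1
    exact h1
  exact ⟨locVal 𝔓 hℓ hℓ𝔓, τ, liesOverPrime_locVal 𝔓 hℓ hℓ𝔓,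
    mem_inertiaSubgroupIn_locVal 𝔓 hℓ hℓ𝔓 τ hτ𝔓 hτ, hτσ⟩

end Fermat.Agent.ExtVan.InertiaLift
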