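/-
S14 long shot, brick [A2b] (helper7): the UNRAMIFIED step of the bridge.
Given an obstruction cocycle `b`, and intermediate fields `K ≤ M` of `Qbar / ℚ` with
`Gal(Qbar/M) = {χ = 1 ∧ b = 0}` and `Gal(Qbar/K) ⊆ {χ = 1}`, the extension `M / K` is unramified
at every nonzero prime of `𝓞 M` (inertia lifting + the local conditions of `IsObstruction`).
-/
import Mathlib
import Fermat.Agent.ExtVan.Reduction
import Fermat.Agent.ExtVan.InertiaLift
import Fermat.Agent.ExtVan.ArtinEquiv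

set_option autoImplicit false

noncomputable section

namespace Fermat.Agent.ExtVan

open NumberField ExtCitation IsDedekindDomain
open scoped Pointwise

variable {p : ℕ} [Fact p.Prime]

/-- a prime number contained in a nonzero prime ideal of a ring of integers. -/
theorem exists_prime_natCast_mem {F : Type*} [Field F] [NumberField F] (Q : Ideal (𝓞 F))
    [Q.IsPrime] (hQ : Q ≠ ⊥) : ∃ ℓ : ℕ, ℓ.Prime ∧ (ℓ : 𝓞 F) ∈ Q := by
  have : NeZero Q := ⟨hQ⟩
  exact ⟨Ideal.absNorm (Q.under ℤ), Nat.absNorm_under_prime Q, Int.absNorm_under_mem Q⟩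

/-- **[A2b]** every inertia element of `Gal(M/K)` is trivial. -/
theorem eq_one_of_mem_inertia {b : GQ → ZMod p} (hb : IsObstruction p b)
    (K M : IntermediateField ℚ Qbar) (hKM : K ≤ M) [FiniteDimensional ℚ M] [IsGalois ℚ M]
    (hM : ∀ σ : GQ, (∀ x ∈ M, σ x = x) ↔ (chi p σ = 1 ∧ b σ = 0))
    (hK : ∀ σ : GQ, (∀ x ∈ K, σ x = x) → chi p σ = 1) :
    letI := (IntermediateField.inclusion hKM).toAlgebra
    ∀ (Q : Ideal (𝓞 M)) [Q.IsPrime], Q ≠ ⊥ → ∀ σ : M ≃ₐ[K] M,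
      σ ∈ Ideal.inertia (M ≃ₐ[K] M) Q → σ = 1 := by
  letI := (IntermediateField.inclusion hKM).toAlgebra
  intro Q _ hQ σ hσ
  have hNF : NumberField M := ⟨⟩
  obtain ⟨ℓ, hℓ, hℓQ⟩ := exists_prime_natCast_mem Q hQ
  -- `σ` as an element of `Gal(M/ℚ)`
  set σ' : M ≃ₐ[ℚ] M := σ.restrictScalars ℚ with hσ'
  have hσ'in : ∀ x : 𝓞 M, σ' • x - x ∈ Q := fun x => (AddSubgroup.mem_inertia.mp hσ) x
  obtain ⟨A, τ, hA, hτ, hτσ⟩ :=
    InertiaLift.exists_inertia_lift M Q hℓ.ne_zero hℓQ σ' hσ'in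
  -- `τ` restricted to `M` is `σ`
  have hτM : ∀ x : M, τ (x : Qbar) = ((σ x : M) : Qbar) := by
    intro x
    have h1 := AlgEquiv.restrictNormal_commutes τ M x
    have h2 : AlgEquiv.restrictNormal τ M = σ' := hτσ
    rw [h2] at h1
    exact h1.symm
  -- `χ τ = 1` since `τ` fixes `K`
  have hχ : chi p τ = 1 := by
    apply hK
    intro x hx
    have h1 := hτM ⟨x, hKM hx⟩
    have h2 : σ ⟨x, hKM hx⟩ = ⟨x, hKM hx⟩ := σ.commutes ⟨x, hx⟩
    rw [h2] at h1
    exact h1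
  -- `b τ = 0` from the local conditions
  have hbτ : b τ = 0 := by
    by_cases hℓp : ℓ = p
    · obtain ⟨c, hc⟩ := hb.split_at_p A (hℓp ▸ hA)
      have hdec : τ ∈ A.decompositionSubgroup ℚ := by
        obtain ⟨τ', -, rfl⟩ := hτ
        exact τ'.2
      rw [hc τ hdec, hχ, sub_self, zero_mul]
    · exact (hb.unramified ℓ hℓ hℓp A hA τ hτ).2
  -- hence `τ` fixes `M`, i.e. `σ = 1`
  have hfix := (hM τ).mpr ⟨hχ, hbτ⟩
  ext x
  have h1 := hτM x
  rw [hfix (x : Qbar) x.2] at h1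
  exact h1.symm

/-- **[A2b]** `M / K` is unramified at every nonzero prime of `𝓞 M`. -/
theorem isUnramifiedAt_of_isObstruction {b : GQ → ZMod p} (hb : IsObstruction p b)
    (K M : IntermediateField ℚ Qbar) (hKM : K ≤ M) [FiniteDimensional ℚ M] [IsGalois ℚ M]
    (hM : ∀ σ : GQ, (∀ x ∈ M, σ x = x) ↔ (chi p σ = 1 ∧ b σ = 0))
    (hK : ∀ σ : GQ, (∀ x ∈ K, σ x = x) → chi p σ = 1) :
    letI := (IntermediateField.inclusion hKM).toAlgebra
    ∀ (Q : Ideal (𝓞 M)) [Q.IsPrime], Q ≠ ⊥ → Algebra.IsUnramifiedAt (𝓞 K) Q := by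
  letI := (IntermediateField.inclusion hKM).toAlgebra
  intro Q _ hQ
  have hNF : NumberField M := ⟨⟩
  have hfd : FiniteDimensional ℚ K := FiniteDimensional.left ℚ K M
  have hNFK : NumberField K := ⟨⟩
  have hgal : IsGalois K M := IsGalois.tower_top_of_isGalois ℚ K M
  have hq0 : Q.under (𝓞 K) ≠ ⊥ := Ideal.under_ne_bot (𝓞 K) hQ
  let q : HeightOneSpectrum (𝓞 K) := ⟨Q.under (𝓞 K), inferInstance, hq0⟩
  have hun : UnramAt K M q := by
    intro Q' hQ' hQ'q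
    rw [eq_bot_iff]
    intro σ hσ
    rw [Subgroup.mem_bot]
    exact eq_one_of_mem_inertia hb K M hKM hM hK Q' (ne_bot_of_liesOver K M q Q') σ hσ
  exact (unramAt_iff_isUnramifiedAt.mp hun) Q ⟨rfl⟩

end Fermat.Agent.ExtVan
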