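/-
S14 long shot, brick (C2): Herbrand quotient of a finitely generated module over a cyclic group of
PRIME order `p`, in terms of ranks only.
-/
import Mathlib
import Fermat.Agent.Kummer.KL.Abstract92

set_option autoImplicit false

namespace Fermat.Agent.ExtVan

open Module Fermat.Agent.Kummer.KL

section CokerKer

variable {A : Type*} [AddCommGroup A] [Module.Finite ℤ A]

theorem finite_torsion_int : Finite (Submodule.torsion ℤ A) :=
  Module.finite_of_fg_torsion _ (Submodule.torsion_isTorsion (R := ℤ) (M := A))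

/-- **Index of an endomorphism**: if the endomorphism induced by `φ` on `A / torsion` is injective,
then `[A : φ A] = #ker φ * [A/tors : φ̄ (A/tors)]`. -/
theorem index_range_eq_card_ker_mul (φ : A →ₗ[ℤ] A)
    (hinj : Function.Injective (quotTorsionMap φ)) :
    (LinearMap.range φ).toAddSubgroup.index =
      Nat.card (LinearMap.ker φ) * (LinearMap.range (quotTorsionMap φ)).toAddSubgroup.index := by
  classical
  set T := Submodule.torsion ℤ A with hT
  have : Finite T := finite_torsion_int
  set R := (LinearMap.range φ).toAddSubgroup with hR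
  -- step 1
  have h1 : R.relIndex (R ⊔ T.toAddSubgroup) * (R ⊔ T.toAddSubgroup).index = R.index :=
    AddSubgroup.relIndex_mul_index le_sup_left
  -- step 2: the index of `R ⊔ T`
  have h2 : (R ⊔ T.toAddSubgroup).index =
      (LinearMap.range (quotTorsionMap φ)).toAddSubgroup.index := by
    have hcomap : R ⊔ T.toAddSubgroup =
        (LinearMap.range (quotTorsionMap φ)).toAddSubgroup.comap (T.mkQ : A →+ A ⧸ T) := by
      ext x
      change x ∈ R ⊔ T.toAddSubgroup ↔ T.mkQ x ∈ LinearMap.range (quotTorsionMap φ)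
      rw [LinearMap.mem_range]
      constructor
      · intro hx
        obtain ⟨r, hr, t, ht, rfl⟩ := AddSubgroup.mem_sup.mp hx
        obtain ⟨a, rfl⟩ := hr
        refine ⟨T.mkQ a, ?_⟩
        rw [quotTorsionMap_mk, map_add]
        have : T.mkQ t = 0 := by
          rw [Submodule.mkQ_apply, Submodule.Quotient.mk_eq_zero]; exact ht
        rw [this, add_zero]
      · rintro ⟨y, hy⟩
        obtain ⟨a, rfl⟩ := T.mkQ_surjective y
        rw [quotTorsionMap_mk] at hy
        have hmem : x - φ a ∈ T := by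
          have : T.mkQ (x - φ a) = 0 := by
            rw [map_sub, hy, sub_self]
          rwa [Submodule.mkQ_apply, Submodule.Quotient.mk_eq_zero] at this
        have hx : x = φ a + (x - φ a) := by abel
        rw [hx]
        exact AddSubgroup.add_mem_sup ⟨a, rfl⟩ hmem
    rw [hcomap]
    exact AddSubgroup.index_comap_of_surjective _ T.mkQ_surjective
  -- step 3: the relative index
  have h3 : R.relIndex (R ⊔ T.toAddSubgroup) = Nat.card (LinearMap.ker φ) := by
    rw [AddSubgroup.relIndex_sup_left]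
    -- `R.relIndex T`
    let φT : T →+ T :=
      { toFun := fun t => ⟨φ t, torsion_le_comap φ t.2⟩
        map_zero' := by ext; simp
        map_add' := fun a b => by ext; simp }
    have hrange : R.relIndex T.toAddSubgroup = φT.range.index := by
      rw [AddSubgroup.relIndex]
      congr 1
      ext t
      simp only [AddSubgroup.mem_addSubgroupOf, AddMonoidHom.mem_range]
      constructor
      · rintro ⟨a, ha⟩
        have haT : a ∈ T := by
          have h0 : quotTorsionMap φ (T.mkQ a) = 0 := by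
            rw [quotTorsionMap_mk]
            have : φ a = (t : A) := ha
            rw [this, Submodule.mkQ_apply, Submodule.Quotient.mk_eq_zero]
            exact t.2
          have h1 := hinj (h0.trans (map_zero _).symm)
          rwa [Submodule.mkQ_apply, Submodule.Quotient.mk_eq_zero] at h1
        exact ⟨⟨a, haT⟩, Subtype.ext ha⟩
      · rintro ⟨s, hs⟩
        exact ⟨s, congrArg Subtype.val hs⟩
    rw [hrange]
    have : φT.ker.FiniteIndex := AddSubgroup.finiteIndex_of_finite_quotient
    rw [AddSubgroup.index_range]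
    -- kernels
    refine Nat.card_congr ?_
    refine
      { toFun := fun t => ⟨(t : T), ?_⟩
        invFun := fun a => ⟨⟨(a : A), ?_⟩, ?_⟩
        left_inv := fun t => by ext; rfl
        right_inv := fun a => by ext; rfl }
    · have := t.2
      rw [AddMonoidHom.mem_ker] at this
      rw [LinearMap.mem_ker]
      exact congrArg Subtype.val this
    · have h0 : quotTorsionMap φ (T.mkQ (a : A)) = 0 := by
        rw [quotTorsionMap_mk, LinearMap.mem_ker.mp a.2, map_zero]
      have h1 := hinj (h0.trans (map_zero _).symm)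
      rwa [Submodule.mkQ_apply, Submodule.Quotient.mk_eq_zero] at h1
    · rw [AddMonoidHom.mem_ker]
      ext
      exact LinearMap.mem_ker.mp a.2
  rw [← h1, h2, h3]

end CokerKer

section Aux

variable {A : Type*} [AddCommGroup A]

/-- the index of the range of an injective endomorphism of a free module is `|det|`. -/
theorem index_range_eq_natAbs_det [Module.Free ℤ A] [Module.Finite ℤ A] (f : A →ₗ[ℤ] A)
    (hf : Function.Injective f) :
    (LinearMap.range f).toAddSubgroup.index = (LinearMap.det f).natAbs := by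
  let e : A ≃ₗ[ℤ] LinearMap.range f := LinearEquiv.ofInjective f hf
  have := Submodule.natAbs_det_equiv (LinearMap.range f) e
  rw [AddSubgroup.index_eq_card]
  have h2 : Nat.card (A ⧸ (LinearMap.range f).toAddSubgroup) = Nat.card (A ⧸ LinearMap.range f) :=
    rfl
  rw [h2, ← this]
  congr 2

/-- multiplication by `n ≠ 0` on a free module of rank `a` has index `n ^ a`. -/
theorem index_range_smul_id [Module.Free ℤ A] [Module.Finite ℤ A] (n : ℕ) (hn : n ≠ 0) :
    (LinearMap.range ((n : ℤ) • (LinearMap.id : A →ₗ[ℤ] A))).toAddSubgroup.index =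
      n ^ finrank ℤ A := by
  have hinj : Function.Injective ((n : ℤ) • (LinearMap.id : A →ₗ[ℤ] A)) := by
    intro x y hxy
    have h : (n : ℤ) • x = (n : ℤ) • y := by simpa using hxy
    exact smul_right_injective A (by exact_mod_cast hn : (n : ℤ) ≠ 0) h
  rw [index_range_eq_natAbs_det _ hinj, LinearMap.det_smul, LinearMap.det_id, mul_one,
    Int.natAbs_pow, Int.natAbs_natCast]

/-- two nested submodules, the small one containing a nonzero multiple of the big one, have the
same rank. -/
theorem finrank_eq_of_le_of_smul_le [Module.Finite ℤ A] (N N' : Submodule ℤ A) (h : N ≤ N')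
    (n : ℕ) (hn : n ≠ 0) (hn' : ∀ x ∈ N', (n : ℤ) • x ∈ N) : finrank ℤ N = finrank ℤ N' := by
  let N₀ : Submodule ℤ N' := N.comap N'.subtype
  have h1 := Submodule.finrank_quotient_add_finrank N₀
  have h2 : finrank ℤ (N' ⧸ N₀) = 0 := by
    rw [finrank_eq_zero_iff_isTorsion]
    intro x
    obtain ⟨y, rfl⟩ := N₀.mkQ_surjective x
    refine ⟨⟨(n : ℤ), ?_⟩, ?_⟩
    · rw [mem_nonZeroDivisors_iff_ne_zero]
      exact_mod_cast hn
    · show (n : ℤ) • N₀.mkQ y = 0
      rw [← map_smul, Submodule.mkQ_apply, Submodule.Quotient.mk_eq_zero]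
      exact hn' y y.2
  have h3 : finrank ℤ N₀ = finrank ℤ N := by
    apply LinearEquiv.finrank_eq
    exact Submodule.comapSubtypeEquivOfLe h
  rw [h2, zero_add, h3] at h1
  exact h1

/-- relative index of the image of a stable submodule = index of the range of the restriction. -/
theorem relIndex_map_eq_index_range_restrict (ψ : A →ₗ[ℤ] A) (K : Submodule ℤ A)
    (hK : ∀ x ∈ K, ψ x ∈ K) :
    (K.toAddSubgroup.map ψ.toAddMonoidHom).relIndex K.toAddSubgroup =
      (LinearMap.range (ψ.restrict hK)).toAddSubgroup.index := by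
  rw [AddSubgroup.relIndex]
  congr 1
  ext x
  rw [AddSubgroup.mem_addSubgroupOf, AddSubgroup.mem_map]
  change _ ↔ x ∈ LinearMap.range (ψ.restrict hK)
  rw [LinearMap.mem_range]
  constructor
  · rintro ⟨y, hy, hyx⟩
    exact ⟨⟨y, hy⟩, Subtype.ext hyx⟩
  · rintro ⟨y, hy⟩
    exact ⟨y, y.2, congrArg Subtype.val hy⟩

/-- index bookkeeping for a pair of endomorphisms with `g ∘ f = 0`. -/
theorem relIndex_map_ker (f g : A →ₗ[ℤ] A) (hgf : ∀ e, g (f e) = 0) :
    ((LinearMap.ker g).toAddSubgroup.map f.toAddMonoidHom).relIndex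
        (LinearMap.ker g).toAddSubgroup =
      (LinearMap.ker g ⊔ LinearMap.ker f).toAddSubgroup.index *
        (LinearMap.range f).toAddSubgroup.relIndex (LinearMap.ker g).toAddSubgroup := by
  set Kg := (LinearMap.ker g).toAddSubgroup with hKg
  set Kf := (LinearMap.ker f).toAddSubgroup with hKf
  set F : A →+ A := f.toAddMonoidHom with hF
  have hker : F.ker = Kf := by
    ext x
    rw [AddMonoidHom.mem_ker]
    rfl
  have hrange : (LinearMap.range f).toAddSubgroup = AddSubgroup.map F ⊤ := by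
    ext x
    simp only [Submodule.mem_toAddSubgroup, LinearMap.mem_range, AddSubgroup.mem_map,
      AddSubgroup.mem_top, true_and]
    rfl
  have h1 : AddSubgroup.map F Kg ≤ (LinearMap.range f).toAddSubgroup := by
    rw [hrange]
    exact AddSubgroup.map_mono le_top
  have h2 : (LinearMap.range f).toAddSubgroup ≤ Kg := by
    rintro _ ⟨e, rfl⟩
    exact hgf e
  have h3 := AddSubgroup.relIndex_mul_relIndex _ _ _ h1 h2
  rw [← h3]
  congr 1
  have hmapL : AddSubgroup.map F (Kg ⊔ Kf) = AddSubgroup.map F Kg := by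
    rw [AddSubgroup.map_sup]
    have : AddSubgroup.map F Kf = ⊥ := by
      rw [AddSubgroup.map_eq_bot_iff, hker]
    rw [this, sup_bot_eq]
  rw [hrange, ← hmapL, AddSubgroup.relIndex_map_map, hker, Submodule.sup_toAddSubgroup]
  have e1 : Kg ⊔ Kf ⊔ Kf = Kg ⊔ Kf := by
    rw [sup_assoc, sup_idem]
  have e2 : (⊤ : AddSubgroup A) ⊔ Kf = ⊤ := top_sup_eq _
  rw [e1, e2, AddSubgroup.relIndex_top_right]

end Aux

section Herbrand

variable {E : Type*} [AddCommGroup E] [Module.Finite ℤ E]
  (p : ℕ) [hp : Fact p.Prime] (σ : E →ₗ[ℤ] E) (hσ : σ ^ p = 1)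

/-- the norm operator `1 + σ + ... + σ^(p-1)`. -/
def nrm : E →ₗ[ℤ] E := ∑ i ∈ Finset.range p, σ ^ i

include hσ in
omit [Module.Finite ℤ E] hp in
theorem nrm_sub_one (e : E) : nrm p σ ((σ - 1) e) = 0 :=
  norm_comp_sub_one p σ hσ e

include hσ in
omit [Module.Finite ℤ E] hp in
theorem sub_one_nrm (e : E) : (σ - 1) (nrm p σ e) = 0 := by
  have h : (σ - 1) * (∑ i ∈ Finset.range p, σ ^ i) = 0 := by
    rw [mul_geom_sum, hσ, sub_self]
  have := congrArg (fun g : Module.End ℤ E => g e) h
  exact this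

omit [Module.Finite ℤ E] hp in
theorem nrm_of_mem_ker {e : E} (he : e ∈ LinearMap.ker (σ - 1)) : nrm p σ e = (p : ℤ) • e :=
  norm_apply_of_mem p σ (LinearMap.ker (σ - 1))
    (fun f hf => by
      have : (σ - 1) f = 0 := hf
      simpa [sub_eq_zero] using this) he

include hσ in
omit [Module.Finite ℤ E] hp in
theorem smul_mem_sup (e : E) :
    (p : ℤ) • e ∈ LinearMap.ker (σ - 1) ⊔ LinearMap.ker (nrm p σ) := by
  have h1 : nrm p σ e ∈ LinearMap.ker (σ - 1) := sub_one_nrm p σ hσ e
  have h2 : (p : ℤ) • e - nrm p σ e ∈ LinearMap.ker (nrm p σ) := by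
    rw [LinearMap.mem_ker, map_sub, map_smul, nrm_of_mem_ker p σ h1, sub_self]
  have : (p : ℤ) • e = nrm p σ e + ((p : ℤ) • e - nrm p σ e) := by abel
  rw [this]
  exact Submodule.add_mem_sup h1 h2

include hσ in
/-- `ker (σ - 1) + ker N` has finite index. -/
theorem index_sup_ne_zero :
    (LinearMap.ker (σ - 1) ⊔ LinearMap.ker (nrm p σ)).toAddSubgroup.index ≠ 0 := by
  set L := LinearMap.ker (σ - 1) ⊔ LinearMap.ker (nrm p σ) with hL
  have htors : Module.IsTorsion ℤ (E ⧸ L) := by
    intro x
    obtain ⟨e, rfl⟩ := L.mkQ_surjective x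
    refine ⟨⟨(p : ℤ), ?_⟩, ?_⟩
    · rw [mem_nonZeroDivisors_iff_ne_zero]
      exact_mod_cast hp.out.ne_zero
    · show (p : ℤ) • L.mkQ e = 0
      rw [← map_smul, Submodule.mkQ_apply, Submodule.Quotient.mk_eq_zero]
      exact smul_mem_sup p σ hσ e
  have hfin : Finite (E ⧸ L) := Module.finite_of_fg_torsion _ htors
  have hfin' : Finite (E ⧸ L.toAddSubgroup) := hfin
  exact AddSubgroup.index_ne_zero_of_finite

omit [Module.Finite ℤ E] hp in
theorem nrm_mem_ker_sub_one_of_mem {x : E} (hx : x ∈ LinearMap.ker (σ - 1)) :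
    nrm p σ x ∈ LinearMap.ker (σ - 1) := by
  rw [nrm_of_mem_ker p σ hx]
  exact Submodule.smul_mem _ _ hx

/-- **(5)** the index of `N (ker (σ - 1)) = p • ker (σ - 1)` in `ker (σ - 1)`. -/
theorem relIndex_map_nrm :
    ((LinearMap.ker (σ - 1)).toAddSubgroup.map (nrm p σ).toAddMonoidHom).relIndex
        (LinearMap.ker (σ - 1)).toAddSubgroup =
      Nat.card ↥(LinearMap.ker (σ - 1) ⊓ LinearMap.ker (nrm p σ)) *
        p ^ finrank ℤ (LinearMap.ker (σ - 1)) := by
  set K0 := LinearMap.ker (σ - 1) with hK0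
  have hst : ∀ x ∈ K0, nrm p σ x ∈ K0 := fun x hx => nrm_mem_ker_sub_one_of_mem p σ hx
  rw [relIndex_map_eq_index_range_restrict (nrm p σ) K0 hst]
  set φ : K0 →ₗ[ℤ] K0 := (nrm p σ).restrict hst with hφ
  have hφ' : φ = (p : ℤ) • (LinearMap.id : K0 →ₗ[ℤ] K0) := by
    ext x
    simp only [hφ, LinearMap.coe_restrict_apply, LinearMap.smul_apply, LinearMap.id_coe, id_eq,
      Submodule.coe_smul]
    exact nrm_of_mem_ker p σ x.2
  have hq : quotTorsionMap φ =
      (p : ℤ) • (LinearMap.id : (K0 ⧸ Submodule.torsion ℤ K0) →ₗ[ℤ] _) := by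
    refine LinearMap.ext fun x => ?_
    obtain ⟨y, rfl⟩ := (Submodule.torsion ℤ K0).mkQ_surjective x
    rw [quotTorsionMap_mk, hφ']
    simp
  have hp0 : (p : ℤ) ≠ 0 := by exact_mod_cast hp.out.ne_zero
  have hinj : Function.Injective (quotTorsionMap φ) := by
    rw [hq]
    intro x y hxy
    have h : (p : ℤ) • x = (p : ℤ) • y := by simpa using hxy
    exact smul_right_injective _ hp0 h
  rw [index_range_eq_card_ker_mul φ hinj, hq, index_range_smul_id p hp.out.ne_zero,
    finrank_quotient_torsion]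
  congr 1
  refine Nat.card_congr ?_
  refine
    { toFun := fun x => ⟨((x : K0) : E), ⟨(x : K0).2, ?_⟩⟩
      invFun := fun y => ⟨⟨(y : E), y.2.1⟩, ?_⟩
      left_inv := fun x => by ext; rfl
      right_inv := fun y => by ext; rfl }
  · have := x.2
    rw [LinearMap.mem_ker] at this
    exact congrArg Subtype.val this
  · rw [LinearMap.mem_ker]
    ext
    exact y.2.2

omit [Module.Finite ℤ E] hp in
theorem nrm_comm (e : E) : nrm p σ (σ e) = σ (nrm p σ e) := by
  have h : (∑ i ∈ Finset.range p, σ ^ i) * σ = σ * ∑ i ∈ Finset.range p, σ ^ i := by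
    rw [Finset.sum_mul, Finset.mul_sum]
    refine Finset.sum_congr rfl fun i _ => ?_
    rw [← pow_succ, ← pow_succ']
  exact congrArg (fun g : Module.End ℤ E => g e) h

omit [Module.Finite ℤ E] hp in
theorem apply_mem_ker_nrm {x : E} (hx : x ∈ LinearMap.ker (nrm p σ)) :
    σ x ∈ LinearMap.ker (nrm p σ) := by
  rw [LinearMap.mem_ker, nrm_comm, LinearMap.mem_ker.mp hx, map_zero]

/-- **(6)** the index of `(σ - 1) (ker N)` in `ker N`. -/
theorem relIndex_map_sub_one :
    (((LinearMap.ker (nrm p σ)).toAddSubgroup.map (σ - 1).toAddMonoidHom).relIndex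
        (LinearMap.ker (nrm p σ)).toAddSubgroup) ^ (p - 1) =
      Nat.card ↥(LinearMap.ker (σ - 1) ⊓ LinearMap.ker (nrm p σ)) ^ (p - 1) *
        p ^ finrank ℤ (LinearMap.ker (nrm p σ)) := by
  set K1 := LinearMap.ker (nrm p σ) with hK1
  have hstσ : ∀ x ∈ K1, σ x ∈ K1 := fun x hx => apply_mem_ker_nrm p σ hx
  have hst : ∀ x ∈ K1, (σ - 1) x ∈ K1 := fun x hx => by
    rw [LinearMap.sub_apply, Module.End.one_apply]
    exact K1.sub_mem (hstσ x hx) hx
  rw [relIndex_map_eq_index_range_restrict (σ - 1) K1 hst]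
  set S : K1 →ₗ[ℤ] K1 := σ.restrict hstσ with hS
  set φ : K1 →ₗ[ℤ] K1 := (σ - 1).restrict hst with hφ
  have hφS : φ = S - 1 := by
    ext x
    simp [hφ, hS]
  set S' := quotTorsionMap S with hS'
  have hq : quotTorsionMap φ = S' - 1 := by
    refine LinearMap.ext fun x => ?_
    obtain ⟨y, rfl⟩ := (Submodule.torsion ℤ K1).mkQ_surjective x
    rw [quotTorsionMap_mk, hφS, LinearMap.sub_apply, LinearMap.sub_apply, hS', quotTorsionMap_mk,
      map_sub]
    rfl
  have hSpow : ∀ (i : ℕ) (x : K1), ((S ^ i) x : E) = (σ ^ i) (x : E) := by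
    intro i
    induction i with
    | zero => intro x; simp
    | succ i ih =>
      intro x
      rw [pow_succ, Module.End.mul_apply, ih, pow_succ, Module.End.mul_apply]
      rfl
  have hsum : ∑ i ∈ Finset.range p, S' ^ i = 0 := by
    refine LinearMap.ext fun x => ?_
    obtain ⟨y, rfl⟩ := (Submodule.torsion ℤ K1).mkQ_surjective x
    rw [LinearMap.sum_apply, LinearMap.zero_apply]
    simp only [hS', quotTorsionMap_pow_mk]
    rw [← map_sum]
    have : ∑ i ∈ Finset.range p, (S ^ i) y = 0 := by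
      ext
      rw [Submodule.coe_sum, Submodule.coe_zero]
      simp only [hSpow]
      have := LinearMap.mem_ker.mp y.2
      rw [nrm, LinearMap.sum_apply] at this
      exact this
    rw [this, map_zero]
  have hinj : Function.Injective (quotTorsionMap φ) := by
    rw [hq]
    exact injective_sub_one_of_sum_pow_eq_zero p S' hsum
  rw [index_range_eq_card_ker_mul φ hinj, hq, mul_pow]
  have hidx := card_quotient_range_sub_one_pow p S' hsum
  have hidx' : (LinearMap.range (S' - 1)).toAddSubgroup.index ^ (p - 1) =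
      p ^ finrank ℤ K1 := by
    rw [AddSubgroup.index_eq_card, ← finrank_quotient_torsion (E := K1)]
    exact hidx
  rw [hidx']
  congr 2
  refine Nat.card_congr ?_
  refine
    { toFun := fun x => ⟨((x : K1) : E), ⟨?_, (x : K1).2⟩⟩
      invFun := fun y => ⟨⟨(y : E), y.2.2⟩, ?_⟩
      left_inv := fun x => by ext; rfl
      right_inv := fun y => by ext; rfl }
  · have := x.2
    rw [LinearMap.mem_ker] at this
    exact congrArg Subtype.val this
  · rw [LinearMap.mem_ker]
    ext
    exact y.2.1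

include hσ in
/-- ranks: `rk ker N + rk ker (σ - 1) = rk E`. -/
theorem finrank_ker_nrm_add :
    finrank ℤ (LinearMap.ker (nrm p σ)) + finrank ℤ (LinearMap.ker (σ - 1)) = finrank ℤ E := by
  have h1 := Submodule.finrank_quotient_add_finrank (LinearMap.ker (nrm p σ))
  have h2 : finrank ℤ (E ⧸ LinearMap.ker (nrm p σ)) = finrank ℤ (LinearMap.range (nrm p σ)) :=
    (LinearMap.quotKerEquivRange (nrm p σ)).finrank_eq
  have h3 : finrank ℤ (LinearMap.range (nrm p σ)) = finrank ℤ (LinearMap.ker (σ - 1)) := by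
    refine finrank_eq_of_le_of_smul_le _ _ ?_ p hp.out.ne_zero ?_
    · rintro _ ⟨e, rfl⟩
      exact sub_one_nrm p σ hσ e
    · intro x hx
      rw [← nrm_of_mem_ker p σ hx]
      exact ⟨x, rfl⟩
  rw [h2, h3] at h1
  rw [← h1, add_comm]

theorem finite_ker_inf : Finite ↥(LinearMap.ker (σ - 1) ⊓ LinearMap.ker (nrm p σ)) := by
  refine Module.finite_of_fg_torsion _ ?_
  intro x
  refine ⟨⟨(p : ℤ), ?_⟩, ?_⟩
  · rw [mem_nonZeroDivisors_iff_ne_zero]
    exact_mod_cast hp.out.ne_zero
  · show (p : ℤ) • x = 0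
    ext
    rw [Submodule.coe_smul, Submodule.coe_zero, ← nrm_of_mem_ker p σ x.2.1]
    exact x.2.2

include hσ in
/-- **Herbrand quotient of a finitely generated module over a cyclic group of prime order**, in
terms of ranks: with `a = rk E^G` and `rk E = a + c (p - 1)`,
`#H¹ · p^a = #Ĥ⁰ · p^c`, and both cohomology groups are finite. -/
theorem herbrand_prime (a c : ℕ) (ha : finrank ℤ (LinearMap.ker (σ - 1)) = a)
    (hE : finrank ℤ E = a + c * (p - 1)) :
    (LinearMap.range (σ - 1)).toAddSubgroup.relIndex (LinearMap.ker (nrm p σ)).toAddSubgroup *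
        p ^ a =
      (LinearMap.range (nrm p σ)).toAddSubgroup.relIndex (LinearMap.ker (σ - 1)).toAddSubgroup *
        p ^ c ∧
    (LinearMap.range (σ - 1)).toAddSubgroup.relIndex (LinearMap.ker (nrm p σ)).toAddSubgroup ≠ 0 ∧
    (LinearMap.range (nrm p σ)).toAddSubgroup.relIndex (LinearMap.ker (σ - 1)).toAddSubgroup ≠ 0
    := by
  set H1 := (LinearMap.range (σ - 1)).toAddSubgroup.relIndex
    (LinearMap.ker (nrm p σ)).toAddSubgroup with hH1
  set H0 := (LinearMap.range (nrm p σ)).toAddSubgroup.relIndex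
    (LinearMap.ker (σ - 1)).toAddSubgroup with hH0
  set t := (LinearMap.ker (σ - 1) ⊔ LinearMap.ker (nrm p σ)).toAddSubgroup.index with ht
  have ht0 : t ≠ 0 := index_sup_ne_zero p σ hσ
  set τ := Nat.card ↥(LinearMap.ker (σ - 1) ⊓ LinearMap.ker (nrm p σ)) with hτ
  have hτ0 : τ ≠ 0 := by
    have := finite_ker_inf p σ
    exact Nat.card_ne_zero.mpr ⟨⟨0, Submodule.zero_mem _⟩, inferInstance⟩
  have hp0 : p ≠ 0 := hp.out.ne_zero
  have hp1 : p - 1 ≠ 0 := by have := hp.out.two_le; omega
  -- the two index computations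
  have e0 : t * H0 = τ * p ^ a := by
    rw [← ha, ← relIndex_map_nrm p σ, relIndex_map_ker (nrm p σ) (σ - 1) (sub_one_nrm p σ hσ)]
  have hrk : finrank ℤ (LinearMap.ker (nrm p σ)) = c * (p - 1) := by
    have := finrank_ker_nrm_add p σ hσ
    omega
  have e1 : t * H1 = τ * p ^ c := by
    have h := relIndex_map_sub_one p σ
    rw [relIndex_map_ker (σ - 1) (nrm p σ) (nrm_sub_one p σ hσ), hrk, sup_comm, pow_mul,
      ← mul_pow] at h
    exact Nat.pow_left_injective hp1 h
  refine ⟨?_, ?_, ?_⟩
  · apply Nat.eq_of_mul_eq_mul_left (Nat.pos_of_ne_zero ht0)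
    calc t * (H1 * p ^ a) = (t * H1) * p ^ a := by ring
      _ = (τ * p ^ c) * p ^ a := by rw [e1]
      _ = (τ * p ^ a) * p ^ c := by ring
      _ = (t * H0) * p ^ c := by rw [e0]
      _ = t * (H0 * p ^ c) := by ring
  · intro h
    rw [h, mul_zero] at e1
    exact (mul_ne_zero hτ0 (pow_ne_zero _ hp0)) e1.symm
  · intro h
    rw [h, mul_zero] at e0
    exact (mul_ne_zero hτ0 (pow_ne_zero _ hp0)) e0.symm

end Herbrand

end Fermat.Agent.ExtVan
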