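/-
S14 long shot, brick (C2): in an unramified Galois extension of number fields, a Galois-invariant
ideal is extended from the base field.
-/
import Mathlib

set_option autoImplicit false
set_option linter.style.haveILetI false
set_option linter.unusedSectionVars false

namespace Fermat.Agent.ExtVan

open NumberField
open scoped Pointwise

variable {K M : Type*} [Field K] [NumberField K] [Field M] [NumberField M] [Algebra K M]

/-- `M / K` is unramified at all finite primes, in the form: `q 𝓞_M` is a radical ideal for every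
prime `q` of `𝓞 K`. -/
def UnramifiedEverywhere (K M : Type*) [Field K] [NumberField K] [Field M] [NumberField M]
    [Algebra K M] : Prop :=
  ∀ q : Ideal (𝓞 K), q.IsPrime → q ≠ ⊥ → (q.map (algebraMap (𝓞 K) (𝓞 M))).IsRadical

/-- the Galois group fixes extended ideals. -/
theorem smul_map_algebraMap (τ : M ≃ₐ[K] M) (𝔞 : Ideal (𝓞 K)) :
    τ • (𝔞.map (algebraMap (𝓞 K) (𝓞 M))) = 𝔞.map (algebraMap (𝓞 K) (𝓞 M)) := by
  rw [Ideal.pointwise_smul_def, Ideal.map_map]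
  congr 1
  ext x
  simp only [RingHom.comp_apply, MulSemiringAction.toRingHom_apply]
  have h : ((algebraMap (𝓞 K) (𝓞 M) x : 𝓞 M) : M) = algebraMap K M (x : K) :=
    (IsScalarTower.algebraMap_apply (𝓞 K) (𝓞 M) M x).symm.trans
      (IsScalarTower.algebraMap_apply (𝓞 K) K M x)
  show τ ((algebraMap (𝓞 K) (𝓞 M) x : 𝓞 M) : M) = _
  rw [h, τ.commutes]

variable [IsGalois K M]

/-- **Invariant ideals are extended** (unramified Galois extension). -/
theorem exists_map_eq_of_forall_smul_eq (hunr : UnramifiedEverywhere K M) :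
    ∀ (n : ℕ) (𝔄 : Ideal (𝓞 M)), Ideal.absNorm 𝔄 = n → 𝔄 ≠ ⊥ →
      (∀ τ : M ≃ₐ[K] M, τ • 𝔄 = 𝔄) → ∃ 𝔞 : Ideal (𝓞 K), 𝔞.map (algebraMap (𝓞 K) (𝓞 M)) = 𝔄 := by
  intro n
  induction n using Nat.strong_induction_on with
  | _ n ih =>
    intro 𝔄 hn h𝔄 hinv
    by_cases htop : 𝔄 = ⊤
    · exact ⟨⊤, by rw [Ideal.map_top, htop]⟩
    obtain ⟨Q, hQmax, hQ⟩ := Ideal.exists_le_maximal 𝔄 htop
    haveI : Q.IsPrime := hQmax.isPrime
    have hQ0 : Q ≠ ⊥ := fun h => h𝔄 (le_bot_iff.mp (h ▸ hQ))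
    set q : Ideal (𝓞 K) := Q.under (𝓞 K) with hq
    haveI : q.IsPrime := Ideal.IsPrime.under (𝓞 K) Q
    have hq0 : q ≠ ⊥ := Ideal.under_ne_bot (𝓞 K) hQ0
    haveI : q.IsMaximal := Ideal.IsPrime.isMaximal inferInstance hq0
    haveI : Q.LiesOver q := ⟨rfl⟩
    -- `𝔄 ≤ q 𝓞_M`
    have hle : 𝔄 ≤ q.map (algebraMap (𝓞 K) (𝓞 M)) := by
      rw [← (hunr q inferInstance hq0).radical, Ideal.radical_eq_sInf]
      refine le_sInf ?_
      rintro P ⟨hqP, hP⟩
      haveI : P.IsPrime := hP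
      haveI : P.LiesOver q := by
        constructor
        have h1 : q ≤ P.under (𝓞 K) := by
          rw [Ideal.under_def, ← Ideal.map_le_iff_le_comap]
          exact hqP
        have h2 : P.under (𝓞 K) ≠ ⊤ := (Ideal.IsPrime.under (𝓞 K) P).ne_top
        exact (Ideal.IsMaximal.eq_of_le inferInstance h2 h1)
      obtain ⟨τ, hτ⟩ := Ideal.exists_smul_eq_of_isGaloisGroup q Q P (M ≃ₐ[K] M)
      rw [← hτ, ← hinv τ]
      exact Ideal.pointwise_smul_le_pointwise_smul_iff.mpr hQ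
    obtain ⟨𝔄', h𝔄'⟩ := Ideal.dvd_iff_le.mpr hle
    have hqm0 : q.map (algebraMap (𝓞 K) (𝓞 M)) ≠ ⊥ := by
      rw [Ne, Ideal.map_eq_bot_iff_of_injective (FaithfulSMul.algebraMap_injective _ _)]
      exact hq0
    have h𝔄'0 : 𝔄' ≠ ⊥ := by
      rintro rfl
      rw [Ideal.mul_bot] at h𝔄'
      exact h𝔄 h𝔄'
    have hinv' : ∀ τ : M ≃ₐ[K] M, τ • 𝔄' = 𝔄' := by
      intro τ
      have h1 := hinv τ
      rw [h𝔄', smul_mul', smul_map_algebraMap] at h1
      exact mul_left_cancel₀ hqm0 h1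
    have hqmtop : q.map (algebraMap (𝓞 K) (𝓞 M)) ≠ ⊤ := by
      intro h
      have : q.map (algebraMap (𝓞 K) (𝓞 M)) ≤ Q := Ideal.map_le_iff_le_comap.mpr le_rfl
      rw [h, top_le_iff] at this
      exact hQmax.ne_top this
    have hlt : Ideal.absNorm 𝔄' < n := by
      rw [← hn, h𝔄', map_mul]
      have h1 : Ideal.absNorm (q.map (algebraMap (𝓞 K) (𝓞 M))) ≠ 1 := by
        rw [Ne, Ideal.absNorm_eq_one_iff]
        exact hqmtop
      have h2 : Ideal.absNorm (q.map (algebraMap (𝓞 K) (𝓞 M))) ≠ 0 := by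
        rw [Ne, Ideal.absNorm_eq_zero_iff]
        exact hqm0
      have h3 : Ideal.absNorm 𝔄' ≠ 0 := by
        rw [Ne, Ideal.absNorm_eq_zero_iff]
        exact h𝔄'0
      have h4 : 2 ≤ Ideal.absNorm (q.map (algebraMap (𝓞 K) (𝓞 M))) := by omega
      nlinarith [Nat.pos_of_ne_zero h3]
    obtain ⟨𝔞', h𝔞'⟩ := ih _ hlt 𝔄' rfl h𝔄'0 hinv'
    exact ⟨q * 𝔞', by rw [Ideal.map_mul, h𝔞', h𝔄']⟩

end Fermat.Agent.ExtVan
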