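/-
S14 long shot, brick (C2)+(C5): the FIRST INEQUALITY for unramified cyclic extensions of prime degree
of a totally complex number field: the norm map on ideal class groups is not surjective.
-/
import Mathlib
import Fermat.Agent.Kummer.KL.Units92
import Fermat.Agent.Kummer.KL.Hilbert94
import Fermat.Agent.ExtVan.HerbrandPrime
import Fermat.Agent.ExtVan.InvariantIdeal
import Fermat.Prelude.Def_ClassGroup_GaloisAction

set_option autoImplicit false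
set_option linter.style.haveILetI false
set_option linter.unusedSectionVars false

namespace Fermat.Agent.ExtVan

open NumberField Module Fermat.Agent.Kummer.KL
open scoped Pointwise nonZeroDivisors



section Units

variable {K M : Type*} [Field K] [NumberField K] [Field M] [NumberField M] [Algebra K M]

/-- unit rank of a totally complex field. -/
theorem finrank_units_add_one_of_isTotallyComplex (F : Type*) [Field F] [NumberField F]
    [IsTotallyComplex F] :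
    finrank ℤ (Additive (𝓞 F)ˣ) + 1 = InfinitePlace.nrComplexPlaces F := by
  rw [Units.finrank_eq, Units.rank, InfinitePlace.card_eq_nrRealPlaces_add_nrComplexPlaces,
    IsTotallyComplex.nrRealPlaces_eq_zero, zero_add]
  have h : 0 < Fintype.card (InfinitePlace F) := Fintype.card_pos
  rw [InfinitePlace.card_eq_nrRealPlaces_add_nrComplexPlaces,
    IsTotallyComplex.nrRealPlaces_eq_zero, zero_add] at h
  omega

/-- number of complex places in an extension of a totally complex field. -/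
theorem nrComplexPlaces_eq_mul [IsTotallyComplex K] :
    InfinitePlace.nrComplexPlaces M = InfinitePlace.nrComplexPlaces K * finrank K M := by
  haveI : IsTotallyComplex M := isTotallyComplex_of_algebra K M
  have h1 := IsTotallyComplex.finrank (K := M)
  have h2 := IsTotallyComplex.finrank (K := K)
  have h3 := Module.finrank_mul_finrank ℚ K M
  rw [h1, h2] at h3
  have : 2 * (InfinitePlace.nrComplexPlaces K * finrank K M) =
      2 * InfinitePlace.nrComplexPlaces M := by rw [← h3]; ring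
  omega

variable [IsGalois K M]

/-- The units fixed by a generator of the Galois group come from the base field. -/
theorem ker_unitsLin_sub_one (σ : M ≃ₐ[K] M) (hσ : ∀ τ : M ≃ₐ[K] M, τ ∈ Subgroup.zpowers σ) :
    LinearMap.ker (unitsLin σ - 1) = LinearMap.range (unitsIncl (K := K) (L := M)) := by
  apply le_antisymm
  · intro e he
    rw [LinearMap.mem_ker, LinearMap.sub_apply, Module.End.one_apply, sub_eq_zero] at he
    have hu : unitsAut σ e.toMul = e.toMul := congrArg Additive.toMul he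
    -- all of the Galois group fixes `e`
    have hfix : ∀ (v : (𝓞 M)ˣ), unitsAut σ v = v → ∀ τ : M ≃ₐ[K] M, τ • (v : 𝓞 M) = (v : 𝓞 M) := by
      intro v hv τ
      obtain ⟨k, rfl⟩ := Subgroup.mem_zpowers_iff.mp (hσ τ)
      have h1 : σ • (v : 𝓞 M) = (v : 𝓞 M) := by
        rw [← coe_unitsAut, hv]
      have h2 : σ ∈ MulAction.stabilizer (M ≃ₐ[K] M) (v : 𝓞 M) := h1
      exact Subgroup.zpow_mem _ h2 k
    obtain ⟨a, ha⟩ := Algebra.IsInvariant.isInvariant (A := 𝓞 K) (G := M ≃ₐ[K] M)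
      ((e.toMul : (𝓞 M)ˣ) : 𝓞 M) (hfix _ hu)
    have hu' : unitsAut σ (e.toMul)⁻¹ = (e.toMul)⁻¹ := by rw [map_inv, hu]
    obtain ⟨a', ha'⟩ := Algebra.IsInvariant.isInvariant (A := 𝓞 K) (G := M ≃ₐ[K] M)
      (((e.toMul)⁻¹ : (𝓞 M)ˣ) : 𝓞 M) (hfix _ hu')
    have haa' : a * a' = 1 := by
      apply FaithfulSMul.algebraMap_injective (𝓞 K) (𝓞 M)
      rw [map_mul, ha, ha', map_one, Units.mul_inv]
    refine ⟨Additive.ofMul (Units.mkOfMulEqOne a a' haa'), ?_⟩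
    rw [unitsIncl_apply]
    apply congrArg Additive.ofMul
    apply Units.ext
    exact ha
  · rintro _ ⟨e, rfl⟩
    rw [LinearMap.mem_ker, LinearMap.sub_apply, Module.End.one_apply, sub_eq_zero]
    exact unitsLin_unitsIncl σ e

theorem finrank_ker_unitsLin_sub_one [IsTotallyComplex K] (σ : M ≃ₐ[K] M)
    (hσ : ∀ τ : M ≃ₐ[K] M, τ ∈ Subgroup.zpowers σ) :
    finrank ℤ (LinearMap.ker (unitsLin σ - 1)) + 1 = InfinitePlace.nrComplexPlaces K := by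
  rw [ker_unitsLin_sub_one σ hσ, ← finrank_units_add_one_of_isTotallyComplex K]
  congr 1
  exact (LinearEquiv.ofInjective (unitsIncl (K := K) (L := M)) unitsIncl_injective).symm.finrank_eq

/-- **Herbrand quotient of the unit group** of an unramified-at-infinity cyclic extension of prime
degree: `#H¹ = p · #Ĥ⁰`. -/
theorem herbrand_units {p : ℕ} [hp : Fact p.Prime] [IsTotallyComplex K] (hpM : finrank K M = p)
    (σ : M ≃ₐ[K] M) (hσ : ∀ τ : M ≃ₐ[K] M, τ ∈ Subgroup.zpowers σ) :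
    (LinearMap.range (unitsLin σ - 1)).toAddSubgroup.relIndex
        (LinearMap.ker (nrm p (unitsLin σ))).toAddSubgroup =
      p * (LinearMap.range (nrm p (unitsLin σ))).toAddSubgroup.relIndex
        (LinearMap.ker (unitsLin σ - 1)).toAddSubgroup ∧
    (LinearMap.range (nrm p (unitsLin σ))).toAddSubgroup.relIndex
        (LinearMap.ker (unitsLin σ - 1)).toAddSubgroup ≠ 0 := by
  have hp0 : p ≠ 0 := hp.out.ne_zero
  have hSp : unitsLin σ ^ p = 1 := unitsLin_pow_card hpM hp0 σ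
  set r := InfinitePlace.nrComplexPlaces K with hr
  have hr1 : 1 ≤ r := by
    have := finrank_units_add_one_of_isTotallyComplex K
    omega
  have ha : finrank ℤ (LinearMap.ker (unitsLin σ - 1)) = r - 1 := by
    have := finrank_ker_unitsLin_sub_one σ hσ
    omega
  have hE : finrank ℤ (Additive (𝓞 M)ˣ) = (r - 1) + r * (p - 1) := by
    haveI : IsTotallyComplex M := isTotallyComplex_of_algebra K M
    have h1 := finrank_units_add_one_of_isTotallyComplex M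
    rw [nrComplexPlaces_eq_mul (K := K) (M := M), hpM] at h1
    have hp1 : 1 ≤ p := Nat.pos_of_ne_zero hp0
    obtain ⟨p', rfl⟩ : ∃ p', p = p' + 1 := ⟨p - 1, by omega⟩
    obtain ⟨r', hr'⟩ : ∃ r', r = r' + 1 := ⟨r - 1, by omega⟩
    rw [← hr, hr'] at h1
    rw [hr']
    simp only [Nat.add_sub_cancel]
    have : (r' + 1) * (p' + 1) = r' + (r' + 1) * p' + 1 := by ring
    omega
  obtain ⟨h1, h2, h3⟩ := herbrand_prime p (unitsLin σ) hSp (r - 1) r ha hE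
  refine ⟨?_, h3⟩
  obtain ⟨r', hr'⟩ : ∃ r', r = r' + 1 := ⟨r - 1, by omega⟩
  rw [hr'] at h1
  simp only [Nat.add_sub_cancel] at h1
  have hpp : 0 < p ^ r' := pow_pos (Nat.pos_of_ne_zero hp0) _
  apply Nat.eq_of_mul_eq_mul_right hpp
  rw [h1, pow_succ]
  ring

end Units



section Counting

/-- if `f : A → B` separates the cosets of `R` in `A` then `[A : R] ≤ #B`. -/
theorem relIndex_le_card_of_separating {E : Type*} [AddCommGroup E] (R A : AddSubgroup E)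
    {B : Type*} [Finite B] (f : A → B)
    (hf : ∀ a a' : A, f a = f a' → (a' : E) - a ∈ R) : R.relIndex A ≤ Nat.card B := by
  rw [AddSubgroup.relIndex, AddSubgroup.index]
  refine Nat.card_le_card_of_injective (fun q => f q.out) ?_
  intro q q' h
  have h1 := hf _ _ h
  rw [← q.out_eq, ← q'.out_eq]
  change ((q.out : A) : A ⧸ R.addSubgroupOf A) = ((q'.out : A) : A ⧸ R.addSubgroupOf A)
  rw [QuotientAddGroup.eq, AddSubgroup.mem_addSubgroupOf]
  have : ((-(q.out) + q'.out : A) : E) = (q'.out : E) - q.out := by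
    push_cast
    abel
  rw [this]
  exact h1

/-- if `g : CG → A` separates the cosets of `J` in `CG` modulo `R`, then `[CG : J] ≤ [A : R]`. -/
theorem relIndex_le_relIndex_of_separating {C : Type*} [CommGroup C] (J CG : Subgroup C)
    {E : Type*} [AddCommGroup E] (R A : AddSubgroup E) (hRA : R.relIndex A ≠ 0) (g : CG → A)
    (hg : ∀ c c' : CG, ((g c' : E) - g c ∈ R) → (c : C)⁻¹ * c' ∈ J) :
    J.relIndex CG ≤ R.relIndex A := by
  rw [AddSubgroup.relIndex, AddSubgroup.index, Subgroup.relIndex, Subgroup.index]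
  haveI : Finite (A ⧸ R.addSubgroupOf A) := by
    apply Nat.finite_of_card_ne_zero
    rw [← AddSubgroup.index, ← AddSubgroup.relIndex]
    exact hRA
  refine Nat.card_le_card_of_injective
    (fun q : CG ⧸ J.subgroupOf CG => ((g q.out : A) : A ⧸ R.addSubgroupOf A)) ?_
  intro q q' h
  have h0 : ((g q.out : A) : A ⧸ R.addSubgroupOf A) = ((g q'.out : A) : A ⧸ R.addSubgroupOf A) := h
  rw [QuotientAddGroup.eq, AddSubgroup.mem_addSubgroupOf] at h0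
  have h1 : (g q'.out : E) - g q.out ∈ R := by
    have : ((-(g q.out) + g q'.out : A) : E) = (g q'.out : E) - g q.out := by
      push_cast
      abel
    rwa [this] at h0
  have h2 := hg _ _ h1
  rw [← q.out_eq, ← q'.out_eq]
  change ((q.out : CG) : CG ⧸ J.subgroupOf CG) = ((q'.out : CG) : CG ⧸ J.subgroupOf CG)
  rw [QuotientGroup.eq, Subgroup.mem_subgroupOf]
  exact h2

end Counting




section Cls

variable {R : Type*} [CommRing R] [IsDedekindDomain R]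

/-- the class of an ideal (junk value `1` for the zero ideal). -/
noncomputable def cls (𝔄 : Ideal R) : ClassGroup R := by
  classical
  exact if h : 𝔄 = ⊥ then 1 else ClassGroup.mk0 ⟨𝔄, mem_nonZeroDivisors_of_ne_zero h⟩

theorem cls_of_ne_bot {𝔄 : Ideal R} (h : 𝔄 ≠ ⊥) :
    cls 𝔄 = ClassGroup.mk0 ⟨𝔄, mem_nonZeroDivisors_of_ne_zero h⟩ := by
  classical
  exact dif_neg h

theorem cls_coe (I : (Ideal R)⁰) : cls (I : Ideal R) = ClassGroup.mk0 I := by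
  rw [cls_of_ne_bot (nonZeroDivisors.coe_ne_zero I)]

theorem exists_cls_eq (c : ClassGroup R) : ∃ 𝔄 : Ideal R, 𝔄 ≠ ⊥ ∧ cls 𝔄 = c := by
  obtain ⟨I, rfl⟩ := ClassGroup.mk0_surjective c
  exact ⟨I, nonZeroDivisors.coe_ne_zero I, cls_coe I⟩

theorem cls_mul {𝔄 𝔅 : Ideal R} (h𝔄 : 𝔄 ≠ ⊥) (h𝔅 : 𝔅 ≠ ⊥) : cls (𝔄 * 𝔅) = cls 𝔄 * cls 𝔅 := by
  have h : 𝔄 * 𝔅 ≠ ⊥ := mul_ne_zero h𝔄 h𝔅
  rw [cls_of_ne_bot h, cls_of_ne_bot h𝔄, cls_of_ne_bot h𝔅, ← map_mul]
  rfl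

theorem cls_eq_cls_iff {𝔄 𝔅 : Ideal R} (h𝔄 : 𝔄 ≠ ⊥) (h𝔅 : 𝔅 ≠ ⊥) :
    cls 𝔄 = cls 𝔅 ↔
      ∃ x y : R, x ≠ 0 ∧ y ≠ 0 ∧ Ideal.span {x} * 𝔄 = Ideal.span {y} * 𝔅 := by
  rw [cls_of_ne_bot h𝔄, cls_of_ne_bot h𝔅, ClassGroup.mk0_eq_mk0_iff]
  constructor
  · rintro ⟨x, y, hx, hy, h⟩
    exact ⟨x, y, hx, hy, h⟩
  · rintro ⟨x, y, hx, hy, h⟩
    exact ⟨x, y, hx, hy, h⟩

theorem span_singleton_ne_bot {x : R} (hx : x ≠ 0) : Ideal.span {x} ≠ ⊥ := by
  rw [Ne, Ideal.span_singleton_eq_bot]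
  exact hx

theorem cls_span_singleton_mul {x : R} (hx : x ≠ 0) {𝔄 : Ideal R} (h𝔄 : 𝔄 ≠ ⊥) :
    cls (Ideal.span {x} * 𝔄) = cls 𝔄 := by
  rw [cls_eq_cls_iff (mul_ne_zero (span_singleton_ne_bot hx) h𝔄) h𝔄]
  exact ⟨1, x, one_ne_zero, hx, by rw [Ideal.span_singleton_one, Ideal.top_mul]⟩

theorem cls_span_singleton {x : R} (hx : x ≠ 0) : cls (Ideal.span {x}) = 1 := by
  have h1 : cls (Ideal.span {x} * Ideal.span {x}) = cls (Ideal.span {x}) :=
    cls_span_singleton_mul hx (span_singleton_ne_bot hx)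
  rw [cls_mul (span_singleton_ne_bot hx) (span_singleton_ne_bot hx)] at h1
  exact mul_eq_left.mp h1 |> fun h => h

theorem cls_eq_one_iff {𝔄 : Ideal R} (h𝔄 : 𝔄 ≠ ⊥) :
    cls 𝔄 = 1 ↔ ∃ x y : R, x ≠ 0 ∧ y ≠ 0 ∧ Ideal.span {x} * 𝔄 = Ideal.span {y} := by
  rw [← cls_span_singleton (one_ne_zero (α := R)),
    cls_eq_cls_iff h𝔄 (span_singleton_ne_bot one_ne_zero)]
  simp only [Ideal.span_singleton_one, Ideal.mul_top]

end Cls

section ClassGroups

variable {K M : Type*} [Field K] [NumberField K] [Field M] [NumberField M] [Algebra K M]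

/-- the ring automorphism of `𝓞 M` induced by `σ`. -/
noncomputable def intAut (σ : M ≃ₐ[K] M) : 𝓞 M ≃+* 𝓞 M :=
  MulSemiringAction.toRingEquiv (M ≃ₐ[K] M) (𝓞 M) σ

theorem map_intAut (σ : M ≃ₐ[K] M) (𝔄 : Ideal (𝓞 M)) :
    𝔄.map ((intAut σ : 𝓞 M ≃+* 𝓞 M) : 𝓞 M →+* 𝓞 M) = σ • 𝔄 := rfl

/-- the action of `σ` on the class group of `M`. -/
noncomputable def clAut (σ : M ≃ₐ[K] M) : ClassGroup (𝓞 M) ≃* ClassGroup (𝓞 M) :=
  ClassGroup.mulEquiv (intAut σ)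

theorem smul_ideal_ne_bot (σ : M ≃ₐ[K] M) {𝔄 : Ideal (𝓞 M)} (h : 𝔄 ≠ ⊥) : σ • 𝔄 ≠ ⊥ := by
  intro h0
  apply h
  have := congrArg (fun I => σ⁻¹ • I) h0
  simpa using this

theorem clAut_cls (σ : M ≃ₐ[K] M) {𝔄 : Ideal (𝓞 M)} (h : 𝔄 ≠ ⊥) :
    clAut σ (cls 𝔄) = cls (σ • 𝔄) := by
  rw [cls_of_ne_bot h, clAut, ClassGroup.mulEquiv_mk0, ← cls_coe]
  rfl

theorem map_algebraMap_ne_bot {𝔞 : Ideal (𝓞 K)} (h : 𝔞 ≠ ⊥) :
    𝔞.map (algebraMap (𝓞 K) (𝓞 M)) ≠ ⊥ := by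
  rw [Ne, Ideal.map_eq_bot_iff_of_injective (FaithfulSMul.algebraMap_injective _ _)]
  exact h

theorem extendedHom_cls {𝔞 : Ideal (𝓞 K)} (h : 𝔞 ≠ ⊥) :
    ClassGroup.extendedHom (𝓞 K) (𝓞 M) (cls 𝔞) = cls (𝔞.map (algebraMap (𝓞 K) (𝓞 M))) := by
  rw [cls_of_ne_bot h, ClassGroup.extendedHom_mk0, ← cls_coe]

theorem relNorm_ne_bot {𝔄 : Ideal (𝓞 M)} (h : 𝔄 ≠ ⊥) : Ideal.relNorm (𝓞 K) 𝔄 ≠ ⊥ := by
  rw [Ne, Ideal.relNorm_eq_bot_iff]
  exact h

theorem intNorm_ne_zero {x : 𝓞 M} (hx : x ≠ 0) : Algebra.intNorm (𝓞 K) (𝓞 M) x ≠ 0 := by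
  rw [Ne, Algebra.intNorm_eq_zero]
  exact hx

theorem cls_relNorm_congr {𝔄 𝔅 : Ideal (𝓞 M)} (h𝔄 : 𝔄 ≠ ⊥) (h𝔅 : 𝔅 ≠ ⊥)
    (h : cls 𝔄 = cls 𝔅) :
    cls (Ideal.relNorm (𝓞 K) 𝔄) = cls (Ideal.relNorm (𝓞 K) 𝔅) := by
  obtain ⟨x, y, hx, hy, hxy⟩ := (cls_eq_cls_iff h𝔄 h𝔅).mp h
  rw [cls_eq_cls_iff (relNorm_ne_bot h𝔄) (relNorm_ne_bot h𝔅)]
  refine ⟨Algebra.intNorm (𝓞 K) (𝓞 M) x, Algebra.intNorm (𝓞 K) (𝓞 M) y, intNorm_ne_zero hx,
    intNorm_ne_zero hy, ?_⟩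
  have := congrArg (Ideal.relNorm (𝓞 K)) hxy
  rwa [map_mul, map_mul, Ideal.relNorm_singleton, Ideal.relNorm_singleton] at this

/-- the norm map on ideal class groups. -/
noncomputable def clNorm : ClassGroup (𝓞 M) →* ClassGroup (𝓞 K) where
  toFun c := cls (Ideal.relNorm (𝓞 K) (Classical.choose (exists_cls_eq c)))
  map_one' := by
    have h := Classical.choose_spec (exists_cls_eq (1 : ClassGroup (𝓞 M)))
    have h1 : cls (Classical.choose (exists_cls_eq (1 : ClassGroup (𝓞 M)))) =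
        cls (⊤ : Ideal (𝓞 M)) := by
      rw [h.2, ← Ideal.span_singleton_one, cls_span_singleton one_ne_zero]
    rw [cls_relNorm_congr h.1 top_ne_bot h1, Ideal.relNorm_top, ← Ideal.span_singleton_one,
      cls_span_singleton one_ne_zero]
  map_mul' c c' := by
    have h := Classical.choose_spec (exists_cls_eq (c * c'))
    have hc := Classical.choose_spec (exists_cls_eq c)
    have hc' := Classical.choose_spec (exists_cls_eq c')
    have h1 : cls (Classical.choose (exists_cls_eq (c * c'))) =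
        cls (Classical.choose (exists_cls_eq c) * Classical.choose (exists_cls_eq c')) := by
      rw [h.2, cls_mul hc.1 hc'.1, hc.2, hc'.2]
    rw [cls_relNorm_congr h.1 (mul_ne_zero hc.1 hc'.1) h1, map_mul,
      cls_mul (relNorm_ne_bot hc.1) (relNorm_ne_bot hc'.1)]

theorem clNorm_cls {𝔄 : Ideal (𝓞 M)} (h : 𝔄 ≠ ⊥) :
    clNorm (K := K) (cls 𝔄) = cls (Ideal.relNorm (𝓞 K) 𝔄) := by
  have hc := Classical.choose_spec (exists_cls_eq (cls 𝔄))
  exact cls_relNorm_congr hc.1 h hc.2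

theorem clNorm_clAut [IsGalois K M] (σ : M ≃ₐ[K] M) (c : ClassGroup (𝓞 M)) :
    clNorm (K := K) (clAut σ c) = clNorm c := by
  obtain ⟨𝔄, h𝔄, rfl⟩ := exists_cls_eq c
  rw [clAut_cls σ h𝔄, clNorm_cls (smul_ideal_ne_bot σ h𝔄), clNorm_cls h𝔄, Ideal.relNorm_smul]

end ClassGroups


section FixedClasses

variable {K M : Type*} [Field K] [NumberField K] [Field M] [NumberField M] [Algebra K M]

/-- `c ↦ σ(c)/c` on the class group. -/
noncomputable def clD (σ : M ≃ₐ[K] M) : ClassGroup (𝓞 M) →* ClassGroup (𝓞 M) :=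
  (clAut σ).toMonoidHom / MonoidHom.id _

theorem clD_apply (σ : M ≃ₐ[K] M) (c : ClassGroup (𝓞 M)) : clD σ c = clAut σ c / c := rfl

theorem mem_ker_clD (σ : M ≃ₐ[K] M) (c : ClassGroup (𝓞 M)) :
    c ∈ (clD σ).ker ↔ clAut σ c = c := by
  rw [MonoidHom.mem_ker, clD_apply, div_eq_one]

/-- (I) if the norm is surjective on class groups then `#Cl_K ≤ #Cl_M^G`. -/
theorem card_le_card_ker_clD [IsGalois K M] (σ : M ≃ₐ[K] M)
    (hsurj : Function.Surjective (clNorm (K := K) (M := M))) :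
    Nat.card (ClassGroup (𝓞 K)) ≤ Nat.card (clD σ).ker := by
  have h1 : (clD σ).range ≤ (clNorm (K := K) (M := M)).ker := by
    rintro _ ⟨c, rfl⟩
    rw [MonoidHom.mem_ker, clD_apply, map_div, clNorm_clAut, div_self']
  have h2 := Subgroup.index_dvd_of_le h1
  rw [Subgroup.index_ker, Subgroup.index_range] at h2
  have h3 : Nat.card (clNorm (K := K) (M := M)).range = Nat.card (ClassGroup (𝓞 K)) := by
    rw [MonoidHom.range_eq_top.mpr hsurj]
    exact Subgroup.card_top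
  rw [h3] at h2
  exact Nat.le_of_dvd Nat.card_pos h2

/-- the extended classes are fixed. -/
theorem range_extendedHom_le_ker_clD (σ : M ≃ₐ[K] M) :
    (ClassGroup.extendedHom (𝓞 K) (𝓞 M)).range ≤ (clD σ).ker := by
  rintro _ ⟨c, rfl⟩
  obtain ⟨𝔞, h𝔞, rfl⟩ := exists_cls_eq c
  rw [mem_ker_clD, extendedHom_cls h𝔞, clAut_cls σ (map_algebraMap_ne_bot h𝔞), smul_map_algebraMap]

end FixedClasses

section Invariance

variable {K M : Type*} [Field K] [NumberField K] [Field M] [NumberField M] [Algebra K M]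

/-- invariance under a generator implies invariance under the whole group. -/
theorem forall_smul_ideal_eq (σ : M ≃ₐ[K] M) (hσ : ∀ τ : M ≃ₐ[K] M, τ ∈ Subgroup.zpowers σ)
    {𝔄 : Ideal (𝓞 M)} (h : σ • 𝔄 = 𝔄) : ∀ τ : M ≃ₐ[K] M, τ • 𝔄 = 𝔄 := by
  intro τ
  obtain ⟨k, rfl⟩ := Subgroup.mem_zpowers_iff.mp (hσ τ)
  have h2 : σ ∈ MulAction.stabilizer (M ≃ₐ[K] M) 𝔄 := h
  exact Subgroup.zpow_mem _ h2 k

theorem smul_span_singleton (σ : M ≃ₐ[K] M) (β : 𝓞 M) :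
    σ • (Ideal.span {β} : Ideal (𝓞 M)) = Ideal.span {σ • β} := by
  rw [Ideal.pointwise_smul_def, Ideal.map_span, Set.image_singleton]
  rfl

theorem span_unit_mul (u : (𝓞 M)ˣ) (β : 𝓞 M) :
    (Ideal.span {(u : 𝓞 M) * β} : Ideal (𝓞 M)) = Ideal.span {β} := by
  rw [Ideal.span_singleton_eq_span_singleton]
  exact ⟨u⁻¹, by rw [mul_comm, ← mul_assoc, Units.inv_mul, one_mul]⟩

theorem map_span_singleton (x : 𝓞 K) :
    (Ideal.span {x}).map (algebraMap (𝓞 K) (𝓞 M)) = Ideal.span {algebraMap (𝓞 K) (𝓞 M) x} := by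
  rw [Ideal.map_span, Set.image_singleton]

theorem algebraMap_int_ne_zero {x : 𝓞 K} (hx : x ≠ 0) : algebraMap (𝓞 K) (𝓞 M) x ≠ 0 := by
  rw [Ne, map_eq_zero_iff _ (FaithfulSMul.algebraMap_injective (𝓞 K) (𝓞 M))]
  exact hx

end Invariance

section F1

variable {K M : Type*} [Field K] [NumberField K] [Field M] [NumberField M] [Algebra K M]
  [IsGalois K M]

/-- units in the kernel of the norm operator have relative norm one. -/
theorem norm_eq_one_of_mem_ker_nrm {p : ℕ} (hpM : finrank K M = p) (σ : M ≃ₐ[K] M)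
    (hσ : ∀ τ : M ≃ₐ[K] M, τ ∈ Subgroup.zpowers σ) {e : Additive (𝓞 M)ˣ}
    (he : e ∈ LinearMap.ker (nrm p (unitsLin σ))) :
    Algebra.norm K (((e.toMul : (𝓞 M)ˣ) : 𝓞 M) : M) = 1 := by
  rw [LinearMap.mem_ker] at he
  have h0 : (∑ i ∈ Finset.range p, unitsLin σ ^ i) e = 0 := he
  rw [sum_unitsLin_pow_apply hpM σ hσ e] at h0
  have h2 : Additive.ofMul (Units.map (RingOfIntegers.norm K : 𝓞 M →* 𝓞 K) e.toMul) = 0 :=
    unitsIncl_injective (K := K) (L := M) (by rw [h0, map_zero])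
  have h3 : Units.map (RingOfIntegers.norm K : 𝓞 M →* 𝓞 K) e.toMul = 1 := h2
  have h4 : RingOfIntegers.norm K ((e.toMul : (𝓞 M)ˣ) : 𝓞 M) = 1 := congrArg Units.val h3
  have h5 := congrArg (fun a : 𝓞 K => (a : K)) h4
  simp only [RingOfIntegers.coe_norm] at h5
  exact h5

/-- (F1), existence: a unit of norm one gives an ideal of `K` that becomes principal in `M`. -/
theorem exists_ideal_of_norm_eq_one (hunr : UnramifiedEverywhere K M) (σ : M ≃ₐ[K] M)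
    (hσ : ∀ τ : M ≃ₐ[K] M, τ ∈ Subgroup.zpowers σ) (u : (𝓞 M)ˣ)
    (hu : Algebra.norm K (((u : (𝓞 M)ˣ) : 𝓞 M) : M) = 1) :
    ∃ (β : 𝓞 M) (𝔞 : Ideal (𝓞 K)), β ≠ 0 ∧ (u : 𝓞 M) * σ • β = β ∧ 𝔞 ≠ ⊥ ∧
      𝔞.map (algebraMap (𝓞 K) (𝓞 M)) = Ideal.span {β} := by
  obtain ⟨β, hβ0, hβ⟩ := Hilbert94.hilbert90_int σ hσ hu
  have hinv : σ • (Ideal.span {β} : Ideal (𝓞 M)) = Ideal.span {β} := by
    rw [smul_span_singleton, ← span_unit_mul u (σ • β), hβ]
  obtain ⟨𝔞, h𝔞⟩ := exists_map_eq_of_forall_smul_eq hunr _ (Ideal.span {β}) rfl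
    (span_singleton_ne_bot hβ0) (forall_smul_ideal_eq σ hσ hinv)
  refine ⟨β, 𝔞, hβ0, hβ, ?_, h𝔞⟩
  rintro rfl
  rw [Ideal.map_bot] at h𝔞
  exact span_singleton_ne_bot hβ0 h𝔞.symm

/-- (F1), separation. -/
theorem sub_mem_range_of_cls_eq (σ : M ≃ₐ[K] M) {u u' : (𝓞 M)ˣ} {β β' : 𝓞 M}
    {𝔞 𝔞' : Ideal (𝓞 K)} (hβ0 : β ≠ 0) (hβ : (u : 𝓞 M) * σ • β = β) (h𝔞0 : 𝔞 ≠ ⊥)
    (h𝔞 : 𝔞.map (algebraMap (𝓞 K) (𝓞 M)) = Ideal.span {β})
    (hβ' : (u' : 𝓞 M) * σ • β' = β') (h𝔞0' : 𝔞' ≠ ⊥)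
    (h𝔞' : 𝔞'.map (algebraMap (𝓞 K) (𝓞 M)) = Ideal.span {β'}) (hcls : cls 𝔞 = cls 𝔞') :
    Additive.ofMul u' - Additive.ofMul u ∈ LinearMap.range (unitsLin σ - 1) := by
  obtain ⟨x, y, hx, hy, hxy⟩ := (cls_eq_cls_iff h𝔞0 h𝔞0').mp hcls
  have h1 := congrArg (Ideal.map (algebraMap (𝓞 K) (𝓞 M))) hxy
  rw [Ideal.map_mul, Ideal.map_mul, h𝔞, h𝔞', map_span_singleton, map_span_singleton,
    Ideal.span_singleton_mul_span_singleton, Ideal.span_singleton_mul_span_singleton,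
    Ideal.span_singleton_eq_span_singleton] at h1
  obtain ⟨v, hv⟩ := h1
  set X := algebraMap (𝓞 K) (𝓞 M) x with hX
  set Y := algebraMap (𝓞 K) (𝓞 M) y with hY
  have hX0 : X ≠ 0 := algebraMap_int_ne_zero hx
  -- apply σ
  have h2 : X * σ • β * σ • (v : 𝓞 M) = Y * σ • β' := by
    have := congrArg (fun z => σ • z) hv
    simp only [smul_mul'] at this
    rwa [hX, hY, Hilbert94.smul_algebraMap_eq, Hilbert94.smul_algebraMap_eq] at this
  -- combine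
  have h3 : (X * β) * ((u' : 𝓞 M) * σ • (v : 𝓞 M)) = (X * β) * ((u : 𝓞 M) * (v : 𝓞 M)) := by
    calc (X * β) * ((u' : 𝓞 M) * σ • (v : 𝓞 M))
        = (X * ((u : 𝓞 M) * σ • β)) * ((u' : 𝓞 M) * σ • (v : 𝓞 M)) := by rw [hβ]
      _ = (u : 𝓞 M) * (u' : 𝓞 M) * (X * σ • β * σ • (v : 𝓞 M)) := by ring
      _ = (u : 𝓞 M) * (u' : 𝓞 M) * (Y * σ • β') := by rw [h2]
      _ = (u : 𝓞 M) * (Y * ((u' : 𝓞 M) * σ • β')) := by ring
      _ = (u : 𝓞 M) * (Y * β') := by rw [hβ']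
      _ = (u : 𝓞 M) * (X * β * v) := by rw [hv]
      _ = (X * β) * ((u : 𝓞 M) * (v : 𝓞 M)) := by ring
  have h4 : (u' : 𝓞 M) * σ • (v : 𝓞 M) = (u : 𝓞 M) * (v : 𝓞 M) :=
    mul_left_cancel₀ (mul_ne_zero hX0 hβ0) h3
  have h5 : u' * unitsAut σ v = u * v := Units.ext h4
  refine ⟨- Additive.ofMul v, ?_⟩
  rw [map_neg, LinearMap.sub_apply, Module.End.one_apply, neg_sub, unitsLin_apply]
  change Additive.ofMul v - Additive.ofMul (unitsAut σ v) = _
  rw [← ofMul_div, ← ofMul_div]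
  apply congrArg Additive.ofMul
  rw [div_eq_div_iff_mul_eq_mul, mul_comm v u, ← h5, mul_comm]

/-- (F1): `#H¹(G, E_M) ≤ #ker(Cl_K → Cl_M)`. -/
theorem relIndex_le_card_ker_extendedHom {p : ℕ} (hpM : finrank K M = p)
    (hunr : UnramifiedEverywhere K M) (σ : M ≃ₐ[K] M)
    (hσ : ∀ τ : M ≃ₐ[K] M, τ ∈ Subgroup.zpowers σ) :
    (LinearMap.range (unitsLin σ - 1)).toAddSubgroup.relIndex
        (LinearMap.ker (nrm p (unitsLin σ))).toAddSubgroup ≤
      Nat.card (ClassGroup.extendedHom (𝓞 K) (𝓞 M)).ker := by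
  classical
  have hex : ∀ a : (LinearMap.ker (nrm p (unitsLin σ))).toAddSubgroup,
      ∃ (β : 𝓞 M) (𝔞 : Ideal (𝓞 K)), β ≠ 0 ∧
        (((a : Additive (𝓞 M)ˣ).toMul : (𝓞 M)ˣ) : 𝓞 M) * σ • β = β ∧ 𝔞 ≠ ⊥ ∧
        𝔞.map (algebraMap (𝓞 K) (𝓞 M)) = Ideal.span {β} := fun a =>
    exists_ideal_of_norm_eq_one hunr σ hσ _ (norm_eq_one_of_mem_ker_nrm hpM σ hσ a.2)
  choose β 𝔞 hβ0 hβ h𝔞0 h𝔞 using hex
  have hmem : ∀ a, cls (𝔞 a) ∈ (ClassGroup.extendedHom (𝓞 K) (𝓞 M)).ker := by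
    intro a
    rw [MonoidHom.mem_ker, extendedHom_cls (h𝔞0 a), h𝔞 a, cls_span_singleton (hβ0 a)]
  refine relIndex_le_card_of_separating _ _ (fun a => (⟨cls (𝔞 a), hmem a⟩ :
    (ClassGroup.extendedHom (𝓞 K) (𝓞 M)).ker)) ?_
  intro a a' h
  have h' : cls (𝔞 a) = cls (𝔞 a') := congrArg Subtype.val h
  exact sub_mem_range_of_cls_eq σ (hβ0 a) (hβ a) (h𝔞0 a) (h𝔞 a) (hβ a') (h𝔞0 a') (h𝔞 a') h'

end F1

section F2

variable {K M : Type*} [Field K] [NumberField K] [Field M] [NumberField M] [Algebra K M]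
  [IsGalois K M]

/-- a datum for the class `c`: an ideal `𝔄` in `c` with `(x) σ𝔄 = (y) 𝔄` and `N x = η N y`. -/
def HasDatum (σ : M ≃ₐ[K] M) (c : ClassGroup (𝓞 M)) (η : (𝓞 K)ˣ) : Prop :=
  ∃ (𝔄 : Ideal (𝓞 M)) (x y : 𝓞 M), 𝔄 ≠ ⊥ ∧ x ≠ 0 ∧ y ≠ 0 ∧ cls 𝔄 = c ∧
    Ideal.span {x} * σ • 𝔄 = Ideal.span {y} * 𝔄 ∧
    Algebra.norm K (x : M) = (((η : (𝓞 K)ˣ) : 𝓞 K) : K) * Algebra.norm K (y : M)

theorem coe_intNorm (x : 𝓞 M) :
    ((Algebra.intNorm (𝓞 K) (𝓞 M) x : 𝓞 K) : K) = Algebra.norm K (x : M) :=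
  Algebra.algebraMap_intNorm (A := 𝓞 K) (K := K) (L := M) (B := 𝓞 M) x

theorem norm_coe_ne_zero {x : 𝓞 M} (hx : x ≠ 0) : Algebra.norm K (x : M) ≠ 0 := by
  rw [Algebra.norm_ne_zero_iff]
  exact RingOfIntegers.coe_ne_zero_iff.mpr hx

/-- (a) fixed classes have a datum. -/
theorem exists_hasDatum (σ : M ≃ₐ[K] M) {c : ClassGroup (𝓞 M)} (hc : clAut σ c = c) :
    ∃ η : (𝓞 K)ˣ, HasDatum σ c η := by
  obtain ⟨𝔄, h𝔄, rfl⟩ := exists_cls_eq c
  rw [clAut_cls σ h𝔄] at hc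
  obtain ⟨x, y, hx, hy, hxy⟩ := (cls_eq_cls_iff (smul_ideal_ne_bot σ h𝔄) h𝔄).mp hc
  have h1 := congrArg (Ideal.relNorm (𝓞 K)) hxy
  rw [map_mul, map_mul, Ideal.relNorm_smul, Ideal.relNorm_singleton,
    Ideal.relNorm_singleton] at h1
  have h2 := mul_right_cancel₀ (relNorm_ne_bot h𝔄) h1
  rw [Ideal.span_singleton_eq_span_singleton] at h2
  obtain ⟨η', hη'⟩ := h2
  refine ⟨η'⁻¹, 𝔄, x, y, h𝔄, hx, hy, rfl, hxy, ?_⟩
  rw [← coe_intNorm, ← coe_intNorm, ← hη', ← map_mul]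
  congr 1
  rw [mul_comm (Algebra.intNorm (𝓞 K) (𝓞 M) x), ← mul_assoc, Units.inv_mul, one_mul]

/-- (b) data multiply. -/
theorem HasDatum.mul {σ : M ≃ₐ[K] M} {c c' : ClassGroup (𝓞 M)} {η η' : (𝓞 K)ˣ}
    (h : HasDatum σ c η) (h' : HasDatum σ c' η') : HasDatum σ (c * c') (η * η') := by
  obtain ⟨𝔄, x, y, h𝔄, hx, hy, rfl, hxy, hN⟩ := h
  obtain ⟨𝔄', x', y', h𝔄', hx', hy', rfl, hxy', hN'⟩ := h'
  refine ⟨𝔄 * 𝔄', x * x', y * y', mul_ne_zero h𝔄 h𝔄', mul_ne_zero hx hx', mul_ne_zero hy hy',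
    cls_mul h𝔄 h𝔄', ?_, ?_⟩
  · rw [smul_mul', ← Ideal.span_singleton_mul_span_singleton,
      ← Ideal.span_singleton_mul_span_singleton]
    calc Ideal.span {x} * Ideal.span {x'} * (σ • 𝔄 * σ • 𝔄')
        = (Ideal.span {x} * σ • 𝔄) * (Ideal.span {x'} * σ • 𝔄') := by ring
      _ = (Ideal.span {y} * 𝔄) * (Ideal.span {y'} * 𝔄') := by rw [hxy, hxy']
      _ = Ideal.span {y} * Ideal.span {y'} * (𝔄 * 𝔄') := by ring
  · have e1 : ((x * x' : 𝓞 M) : M) = (x : M) * (x' : M) := map_mul _ _ _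
    have e2 : ((y * y' : 𝓞 M) : M) = (y : M) * (y' : M) := map_mul _ _ _
    have e3 : ((((η * η' : (𝓞 K)ˣ) : 𝓞 K)) : K) =
        (((η : (𝓞 K)ˣ) : 𝓞 K) : K) * (((η' : (𝓞 K)ˣ) : 𝓞 K) : K) := by
      rw [Units.val_mul]; exact map_mul _ _ _
    rw [e1, e2, e3, map_mul, map_mul, hN, hN']
    ring

/-- (c) data invert. -/
theorem HasDatum.inv {σ : M ≃ₐ[K] M} {c : ClassGroup (𝓞 M)} {η : (𝓞 K)ˣ}
    (h : HasDatum σ c η) : HasDatum σ c⁻¹ η⁻¹ := by
  obtain ⟨𝔄, x, y, h𝔄, hx, hy, rfl, hxy, hN⟩ := h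
  obtain ⟨a, ha𝔄, ha0⟩ := Submodule.exists_mem_ne_zero_of_ne_bot h𝔄
  obtain ⟨𝔅, h𝔅⟩ : 𝔄 ∣ Ideal.span {a} :=
    Ideal.dvd_iff_le.mpr ((Ideal.span_singleton_le_iff_mem 𝔄).mpr ha𝔄)
  have h𝔅0 : 𝔅 ≠ ⊥ := by
    rintro rfl
    rw [Ideal.mul_bot] at h𝔅
    exact span_singleton_ne_bot ha0 h𝔅
  have hcls : cls 𝔅 = (cls 𝔄)⁻¹ := by
    rw [eq_inv_iff_mul_eq_one, mul_comm, ← cls_mul h𝔄 h𝔅0, ← h𝔅, cls_span_singleton ha0]
  have hσ𝔅 : Ideal.span {σ • a} = σ • 𝔄 * σ • 𝔅 := by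
    rw [← smul_span_singleton, h𝔅, smul_mul']
  have hσa0 : σ • a ≠ 0 := by
    intro h0
    apply ha0
    have := congrArg (fun z => σ⁻¹ • z) h0
    simpa using this
  refine ⟨𝔅, y * a, x * σ • a, h𝔅0, mul_ne_zero hy ha0, mul_ne_zero hx hσa0, hcls, ?_, ?_⟩
  · -- cancel `σ𝔄 * 𝔄`... multiply `hxy` by `σ𝔅 * 𝔅`
    have h1 : (σ • 𝔄 * 𝔄) * (Ideal.span {y * a} * σ • 𝔅) =
        (σ • 𝔄 * 𝔄) * (Ideal.span {x * σ • a} * 𝔅) := by
      rw [← Ideal.span_singleton_mul_span_singleton, ← Ideal.span_singleton_mul_span_singleton,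
        h𝔅, hσ𝔅]
      calc σ • 𝔄 * 𝔄 * (Ideal.span {y} * (𝔄 * 𝔅) * σ • 𝔅)
          = (Ideal.span {y} * 𝔄) * (σ • 𝔄 * σ • 𝔅) * (𝔄 * 𝔅) := by ring
        _ = (Ideal.span {x} * σ • 𝔄) * (σ • 𝔄 * σ • 𝔅) * (𝔄 * 𝔅) := by rw [hxy]
        _ = σ • 𝔄 * 𝔄 * (Ideal.span {x} * (σ • 𝔄 * σ • 𝔅) * 𝔅) := by ring
    exact mul_left_cancel₀ (mul_ne_zero (smul_ideal_ne_bot σ h𝔄) h𝔄) h1
  · have e1 : ((y * a : 𝓞 M) : M) = (y : M) * (a : M) := map_mul _ _ _
    have e2 : ((x * σ • a : 𝓞 M) : M) = (x : M) * σ (a : M) := map_mul _ _ _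
    have e3 : ((((η⁻¹ : (𝓞 K)ˣ) : 𝓞 K)) : K) * (((η : (𝓞 K)ˣ) : 𝓞 K) : K) = 1 := by
      rw [← map_mul, Units.inv_mul, map_one]
    rw [e1, e2, map_mul, map_mul, Algebra.norm_eq_of_algEquiv, hN]
    calc Algebra.norm K (y : M) * Algebra.norm K (a : M)
        = 1 * (Algebra.norm K (y : M) * Algebra.norm K (a : M)) := by ring
      _ = _ := by rw [← e3]; ring

end F2

section F2d

variable {K M : Type*} [Field K] [NumberField K] [Field M] [NumberField M] [Algebra K M]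
  [IsGalois K M]

/-- (d) a datum whose unit is the norm of a unit comes from an extended class. -/
theorem HasDatum.mem_range (hunr : UnramifiedEverywhere K M) {σ : M ≃ₐ[K] M}
    (hσ : ∀ τ : M ≃ₐ[K] M, τ ∈ Subgroup.zpowers σ) {c : ClassGroup (𝓞 M)} {ε : (𝓞 M)ˣ}
    (h : HasDatum σ c (Units.map (RingOfIntegers.norm K : 𝓞 M →* 𝓞 K) ε)) :
    c ∈ (ClassGroup.extendedHom (𝓞 K) (𝓞 M)).range := by
  obtain ⟨𝔄, x, y, h𝔄, hx, hy, rfl, hxy, hN⟩ := h
  have hNx : Algebra.norm K (x : M) ≠ 0 := norm_coe_ne_zero hx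
  have hx' : (x : M) ≠ 0 := RingOfIntegers.coe_ne_zero_iff.mpr hx
  have hη : ((((Units.map (RingOfIntegers.norm K : 𝓞 M →* 𝓞 K) ε : (𝓞 K)ˣ) : 𝓞 K)) : K) =
      Algebra.norm K ((ε : 𝓞 M) : M) := RingOfIntegers.coe_norm K _
  rw [hη] at hN
  have hz : Algebra.norm K (((ε : 𝓞 M) : M) * (y : M) / (x : M)) = 1 := by
    have hzx : ((ε : 𝓞 M) : M) * (y : M) / (x : M) * (x : M) = ((ε : 𝓞 M) : M) * (y : M) :=
      div_mul_cancel₀ _ hx'
    have h2 := congrArg (Algebra.norm K) hzx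
    rw [map_mul, map_mul, ← hN] at h2
    exact mul_right_cancel₀ hNx (h2.trans (one_mul _).symm)
  obtain ⟨t, ht0, ht⟩ := Hilbert94.hilbert90 σ hσ hz
  rw [div_mul_eq_mul_div, div_eq_iff hx'] at ht
  have halg : IsAlgebraic ℤ t :=
    (IsFractionRing.isAlgebraic_iff ℤ ℚ M).mpr (Algebra.IsAlgebraic.isAlgebraic t)
  obtain ⟨m, hm0, hm⟩ := halg.exists_integral_multiple
  set t' : 𝓞 M := ⟨m • t, hm⟩ with ht'def
  have ht'0 : t' ≠ 0 := by
    intro h0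
    have h1 : m • t = 0 := congrArg (fun z : 𝓞 M => (z : M)) h0
    rcases smul_eq_zero.mp h1 with h | h
    · exact hm0 h
    · exact ht0 h
  have ht' : (ε : 𝓞 M) * y * σ • t' = x * t' := by
    apply RingOfIntegers.ext
    show ((ε : 𝓞 M) : M) * (y : M) * σ (m • t) = (x : M) * (m • t)
    rw [map_zsmul, mul_smul_comm, mul_smul_comm, ht, mul_comm]
  set 𝔗 : Ideal (𝓞 M) := Ideal.span {t'} * 𝔄 with h𝔗
  have h𝔗0 : 𝔗 ≠ ⊥ := mul_ne_zero (span_singleton_ne_bot ht'0) h𝔄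
  have h1 : Ideal.span {x} * σ • 𝔗 = Ideal.span {x} * 𝔗 := by
    calc Ideal.span {x} * σ • 𝔗
        = Ideal.span {x} * (Ideal.span {σ • t'} * σ • 𝔄) := by
          rw [h𝔗, smul_mul', smul_span_singleton]
      _ = Ideal.span {σ • t'} * (Ideal.span {x} * σ • 𝔄) := by ring
      _ = Ideal.span {σ • t'} * (Ideal.span {y} * 𝔄) := by rw [hxy]
      _ = Ideal.span {(ε : 𝓞 M) * (y * σ • t')} * 𝔄 := by
          rw [span_unit_mul, ← Ideal.span_singleton_mul_span_singleton]; ring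
      _ = Ideal.span {x * t'} * 𝔄 := by rw [← mul_assoc, ht']
      _ = Ideal.span {x} * 𝔗 := by
          rw [h𝔗, ← Ideal.span_singleton_mul_span_singleton]; ring
  have hinv : σ • 𝔗 = 𝔗 := mul_left_cancel₀ (span_singleton_ne_bot hx) h1
  obtain ⟨𝔞, h𝔞⟩ := exists_map_eq_of_forall_smul_eq hunr _ 𝔗 rfl h𝔗0
    (forall_smul_ideal_eq σ hσ hinv)
  have h𝔞0 : 𝔞 ≠ ⊥ := by
    rintro rfl
    rw [Ideal.map_bot] at h𝔞
    exact h𝔗0 h𝔞.symm
  exact ⟨cls 𝔞, by rw [extendedHom_cls h𝔞0, h𝔞, h𝔗, cls_span_singleton_mul ht'0 h𝔄]⟩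

/-- (F2): `[Cl_M^G : j(Cl_K)] ≤ #Ĥ⁰(G, E_M)`. -/
theorem relIndex_range_extendedHom_le {p : ℕ} (hpM : finrank K M = p)
    (hunr : UnramifiedEverywhere K M) (σ : M ≃ₐ[K] M)
    (hσ : ∀ τ : M ≃ₐ[K] M, τ ∈ Subgroup.zpowers σ)
    (h0 : (LinearMap.range (nrm p (unitsLin σ))).toAddSubgroup.relIndex
        (LinearMap.ker (unitsLin σ - 1)).toAddSubgroup ≠ 0) :
    (ClassGroup.extendedHom (𝓞 K) (𝓞 M)).range.relIndex (clD σ).ker ≤
      (LinearMap.range (nrm p (unitsLin σ))).toAddSubgroup.relIndex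
        (LinearMap.ker (unitsLin σ - 1)).toAddSubgroup := by
  classical
  have hex : ∀ c : (clD σ).ker, ∃ η : (𝓞 K)ˣ, HasDatum σ (c : ClassGroup (𝓞 M)) η :=
    fun c => exists_hasDatum σ ((mem_ker_clD σ _).mp c.2)
  choose η hη using hex
  have hmem : ∀ c : (clD σ).ker, unitsIncl (K := K) (L := M) (Additive.ofMul (η c)) ∈
      (LinearMap.ker (unitsLin σ - 1)).toAddSubgroup := by
    intro c
    change _ ∈ LinearMap.ker (unitsLin σ - 1)
    rw [LinearMap.mem_ker, LinearMap.sub_apply, Module.End.one_apply, sub_eq_zero]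
    exact unitsLin_unitsIncl σ _
  refine relIndex_le_relIndex_of_separating _ _ _ _ h0
    (fun c => ⟨unitsIncl (K := K) (L := M) (Additive.ofMul (η c)), hmem c⟩) ?_
  intro c c' hcc'
  obtain ⟨e, he⟩ := hcc'
  have he' : (∑ i ∈ Finset.range p, unitsLin σ ^ i) e =
      unitsIncl (K := K) (L := M) (Additive.ofMul (η c')) -
        unitsIncl (K := K) (L := M) (Additive.ofMul (η c)) := he
  rw [sum_unitsLin_pow_apply hpM σ hσ e, ← map_sub] at he'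
  have h1 := unitsIncl_injective (K := K) (L := M) he'
  have h2 : Units.map (RingOfIntegers.norm K : 𝓞 M →* 𝓞 K) e.toMul = (η c)⁻¹ * η c' := by
    have := congrArg Additive.toMul h1
    rw [toMul_sub, toMul_ofMul, toMul_ofMul, toMul_ofMul] at this
    rw [this, div_eq_mul_inv, mul_comm]
  have h3 : HasDatum σ ((c : ClassGroup (𝓞 M))⁻¹ * c') ((η c)⁻¹ * η c') :=
    (hη c).inv.mul (hη c')
  rw [← h2] at h3
  exact h3.mem_range hunr hσ

end F2d

section Main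

variable {K M : Type*} [Field K] [NumberField K] [Field M] [NumberField M] [Algebra K M]
  [IsGalois K M] [IsTotallyComplex K] {p : ℕ} [hp : Fact p.Prime]

/-- **First inequality** (unramified cyclic case): for an everywhere unramified Galois extension
`M / K` of prime degree of a totally complex number field, the norm map `Cl_M → Cl_K` is not
surjective. -/
theorem not_surjective_clNorm (hpM : finrank K M = p) (hunr : UnramifiedEverywhere K M) :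
    ¬ Function.Surjective (clNorm (K := K) (M := M)) := by
  intro hsurj
  haveI : FiniteDimensional K M :=
    FiniteDimensional.of_finrank_pos (by rw [hpM]; exact hp.out.pos)
  have hcard : Nat.card (M ≃ₐ[K] M) = p := by rw [IsGalois.card_aut_eq_finrank, hpM]
  haveI : IsCyclic (M ≃ₐ[K] M) := isCyclic_of_prime_card hcard
  obtain ⟨σ, hσ⟩ := IsCyclic.exists_generator (α := M ≃ₐ[K] M)
  obtain ⟨hH, hH0⟩ := herbrand_units hpM σ hσ
  have hF1 := relIndex_le_card_ker_extendedHom hpM hunr σ hσ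
  have hF2 := relIndex_range_extendedHom_le hpM hunr σ hσ hH0
  have hI := card_le_card_ker_clD σ hsurj
  have hle := range_extendedHom_le_ker_clD (K := K) σ
  set j := ClassGroup.extendedHom (𝓞 K) (𝓞 M) with hj
  have hJ : Nat.card j.ker * Nat.card j.range = Nat.card (ClassGroup (𝓞 K)) := by
    rw [← Subgroup.index_ker, Subgroup.card_mul_index]
  have hCG : Nat.card j.range * j.range.relIndex (clD σ).ker = Nat.card (clD σ).ker := by
    rw [Subgroup.relIndex, ← Subgroup.card_mul_index (j.range.subgroupOf (clD σ).ker),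
      Nat.card_congr (Subgroup.subgroupOfEquivOfLe hle).toEquiv]
  have hJpos : 0 < Nat.card j.range := Nat.card_pos
  set H0 := (LinearMap.range (nrm p (unitsLin σ))).toAddSubgroup.relIndex
        (LinearMap.ker (unitsLin σ - 1)).toAddSubgroup with hH0def
  set H1 := (LinearMap.range (unitsLin σ - 1)).toAddSubgroup.relIndex
        (LinearMap.ker (nrm p (unitsLin σ))).toAddSubgroup with hH1def
  have h1 : Nat.card j.ker * Nat.card j.range ≤
      Nat.card j.range * j.range.relIndex (clD σ).ker := by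
    rw [hJ, hCG]; exact hI
  have h2 : Nat.card j.ker ≤ j.range.relIndex (clD σ).ker := by
    rw [mul_comm] at h1
    exact Nat.le_of_mul_le_mul_left h1 hJpos
  have h3 : p * H0 ≤ H0 := by
    rw [← hH]
    exact hF1.trans (h2.trans hF2)
  have hp2 : 2 ≤ p := hp.out.two_le
  have hH0pos : 0 < H0 := Nat.pos_of_ne_zero hH0
  nlinarith

/-- ideal-theoretic form: there is a nonzero ideal of `K` whose class is not a norm class. -/
theorem exists_class_not_norm (hpM : finrank K M = p) (hunr : UnramifiedEverywhere K M) :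
    ∃ 𝔞 : Ideal (𝓞 K), 𝔞 ≠ ⊥ ∧ ∀ (𝔄 : Ideal (𝓞 M)) (x y : 𝓞 K), 𝔄 ≠ ⊥ → x ≠ 0 → y ≠ 0 →
      Ideal.span {x} * 𝔞 ≠ Ideal.span {y} * Ideal.relNorm (𝓞 K) 𝔄 := by
  by_contra hcon
  push Not at hcon
  apply not_surjective_clNorm hpM hunr
  intro c
  obtain ⟨𝔞, h𝔞, rfl⟩ := exists_cls_eq c
  obtain ⟨𝔄, x, y, h𝔄, hx, hy, hxy⟩ := hcon 𝔞 h𝔞
  refine ⟨cls 𝔄, ?_⟩
  rw [clNorm_cls h𝔄, eq_comm, cls_eq_cls_iff h𝔞 (relNorm_ne_bot h𝔄)]
  exact ⟨x, y, hx, hy, hxy⟩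

/-- prime form: there is a nonzero prime of `K` whose class is not a norm class; in particular it
is not the relative norm of any ideal of `M`, i.e. it does not split completely. -/
theorem exists_prime_not_norm_class (hpM : finrank K M = p) (hunr : UnramifiedEverywhere K M) :
    ∃ q : Ideal (𝓞 K), q.IsPrime ∧ q ≠ ⊥ ∧ ∀ (𝔄 : Ideal (𝓞 M)) (x y : 𝓞 K), 𝔄 ≠ ⊥ → x ≠ 0 →
      y ≠ 0 → Ideal.span {x} * q ≠ Ideal.span {y} * Ideal.relNorm (𝓞 K) 𝔄 := by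
  by_contra hcon
  push Not at hcon
  apply not_surjective_clNorm hpM hunr
  -- every prime class is in the range, hence every class
  have hprime : ∀ q : Ideal (𝓞 K), q.IsPrime → q ≠ ⊥ →
      cls q ∈ (clNorm (K := K) (M := M)).range := by
    intro q hq hq0
    obtain ⟨𝔄, x, y, h𝔄, hx, hy, hxy⟩ := hcon q hq hq0
    refine ⟨cls 𝔄, ?_⟩
    rw [clNorm_cls h𝔄, eq_comm, cls_eq_cls_iff hq0 (relNorm_ne_bot h𝔄)]
    exact ⟨x, y, hx, hy, hxy⟩
  intro c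
  obtain ⟨𝔞, h𝔞, rfl⟩ := exists_cls_eq c
  change cls 𝔞 ∈ (clNorm (K := K) (M := M)).range
  induction 𝔞 using UniqueFactorizationMonoid.induction_on_prime with
  | h₁ => exact absurd rfl h𝔞
  | h₂ x hx =>
    rw [Ideal.isUnit_iff] at hx
    rw [hx, ← Ideal.span_singleton_one, cls_span_singleton one_ne_zero]
    exact one_mem _
  | h₃ a q ha0 hq ih =>
    have hq0 : q ≠ ⊥ := hq.ne_zero
    rw [mul_comm, cls_mul ha0 hq0]
    exact mul_mem (ih ha0) (hprime q (Ideal.isPrime_of_prime hq) hq0)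

end Main

end Fermat.Agent.ExtVan
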