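/-
S14 long shot, bridge between the first inequality (`FirstIneq.lean`) and the Artin API
(`Artin*.lean`): an everywhere unramified Galois extension `M / K` of prime degree of a totally
complex number field has a prime with non-trivial Frobenius.
-/
import Fermat.Agent.ExtVan.FirstIneq
import Fermat.Agent.ExtVan.ArtinEquiv

set_option autoImplicit false
set_option linter.style.haveILetI false
set_option linter.unusedSectionVars false

namespace Fermat.Agent.ExtVan

open NumberField IsDedekindDomain Module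
open scoped Pointwise nonZeroDivisors

variable {K M : Type*} [Field K] [NumberField K] [Field M] [NumberField M] [Algebra K M]

/-- `Algebra.IsUnramifiedAt` at all nonzero primes implies `UnramifiedEverywhere`
(`q 𝓞_M` radical for all nonzero primes `q` of `K`). -/
theorem unramifiedEverywhere_of_forall_isUnramifiedAt
    (h : ∀ (Q : Ideal (𝓞 M)) [Q.IsPrime], Q ≠ ⊥ → Algebra.IsUnramifiedAt (𝓞 K) Q) :
    UnramifiedEverywhere K M := by
  intro q hq hq0
  haveI : q.IsMaximal := hq.isMaximal hq0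
  have hI0 : q.map (algebraMap (𝓞 K) (𝓞 M)) ≠ 0 := map_algebraMap_ne_bot hq0
  have hsq : Squarefree (q.map (algebraMap (𝓞 K) (𝓞 M))) := by
    rw [squarefree_iff_irreducible_sq_not_dvd_of_ne_zero hI0]
    intro P hP hPP
    haveI hPprime : P.IsPrime := Ideal.isPrime_of_prime hP.prime
    have hP0 : P ≠ ⊥ := hP.ne_zero
    have h1 : P ^ (2 - 1) ∣ differentIdeal (𝓞 K) (𝓞 M) := by
      apply pow_sub_one_dvd_differentIdeal (𝓞 K) P 2 hq0
      rw [sq]; exact hPP
    simp only [Nat.add_one_sub_one, pow_one] at h1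
    exact (not_dvd_differentIdeal_iff.mpr (h P hP0)) h1
  intro x hx
  obtain ⟨n, hn⟩ := hx
  rcases Nat.eq_zero_or_pos n with rfl | hnpos
  · rw [pow_zero] at hn
    rw [(Ideal.eq_top_iff_one _).mpr hn]
    exact Submodule.mem_top
  have h2 : q.map (algebraMap (𝓞 K) (𝓞 M)) ∣ (Ideal.span {x}) ^ n := by
    rw [Ideal.span_singleton_pow, Ideal.dvd_span_singleton]
    exact hn
  rw [hsq.dvd_pow_iff_dvd (Nat.pos_iff_ne_zero.mp hnpos), Ideal.dvd_span_singleton] at h2
  exact h2

variable [IsAbelianGalois K M] [IsTotallyComplex K] {p : ℕ} [hp : Fact p.Prime]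

/-- (C5) in the Artin API: some prime has non-trivial Frobenius. -/
theorem exists_frob_ne_one (hpM : finrank K M = p)
    (h : ∀ (Q : Ideal (𝓞 M)) [Q.IsPrime], Q ≠ ⊥ → Algebra.IsUnramifiedAt (𝓞 K) Q) :
    ∃ q : HeightOneSpectrum (𝓞 K), frob K M q ≠ 1 := by
  obtain ⟨q, hq, hq0, hnot⟩ :=
    exists_prime_not_norm_class hpM (unramifiedEverywhere_of_forall_isUnramifiedAt h)
  refine ⟨⟨q, hq, hq0⟩, ?_⟩
  intro hfrob
  set qh : HeightOneSpectrum (𝓞 K) := ⟨q, hq, hq0⟩ with hqh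
  have hunrAt : UnramAt K M qh := unramAt_of_forall_isUnramifiedAt h qh
  set Q : Ideal (𝓞 M) := (primeAbove K M qh).1 with hQ
  haveI : Q.IsPrime := inferInstanceAs ((primeAbove K M qh).1.IsPrime)
  haveI hlies : Q.LiesOver qh.asIdeal := inferInstanceAs ((primeAbove K M qh).1.LiesOver qh.asIdeal)
  have hQ0 : Q ≠ ⊥ := ne_bot_of_liesOver K M qh Q
  have hf : Q.inertiaDeg (𝓞 K) = 1 := (frob_eq_one_iff hunrAt Q).mp hfrob
  haveI : Q.IsMaximal := Ideal.IsPrime.isMaximal inferInstance hQ0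
  haveI : q.IsMaximal := hq.isMaximal hq0
  haveI : Q.LiesOver q := hlies
  have hrel : Ideal.relNorm (𝓞 K) Q = q := by
    rw [Ideal.relNorm_eq_pow_of_isMaximal Q q, hf, pow_one]
  exact hnot Q 1 1 hQ0 one_ne_zero one_ne_zero (by rw [hrel])

/-- the same, for `frobIdeal`. -/
theorem exists_prime_frobIdeal_ne_one (hpM : finrank K M = p)
    (h : ∀ (Q : Ideal (𝓞 M)) [Q.IsPrime], Q ≠ ⊥ → Algebra.IsUnramifiedAt (𝓞 K) Q) :
    ∃ q : Ideal (𝓞 K), q.IsPrime ∧ q ≠ ⊥ ∧ frobIdeal K M q ≠ 1 := by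
  obtain ⟨q, hq⟩ := exists_frob_ne_one hpM h
  exact ⟨q.asIdeal, q.isPrime, q.ne_bot, by rwa [frobIdeal_asIdeal]⟩

end Fermat.Agent.ExtVan
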