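/-
S14 long shot (helper3), brick [S]: Stickelberger for DEGREE ONE primes of `K = ℚ(ζ_p)` via the
Jacobi sum `J(χ,χ)` of the `p`-th power residue character `χ` modulo `𝔮`:

  `exists_span_eq_prod` : for `p` odd, `𝔮` a prime of `𝓞 K` with `absNorm 𝔮 = ℓ` prime, `ℓ ≠ p`,
     `∃ J, span {J} = ∏ c ∈ Stickelberger.exponentSet p, (cycloAut K (expUnit p c))⁻¹ • 𝔮`
  (`cycloAut K u` = the automorphism `ζ ↦ ζ^u`, `cycloAut_zeta`).

Ingredients: `exists_powerResidueChar` (the character), `map_jacobiSum_pow_eq_zero`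
(`J(χ^c,χ^c) ∈ 𝔮` for `0 < 2c < p`), `exists_jacobi` (`J·J' = ℓ` + Galois action),
`span_natCast_eq_prod_smul` (`ℓ` splits completely: `(ℓ) = ∏_σ σ𝔮`, `σ ↦ σ𝔮` injective).
-/
import Mathlib
import Fermat.Prelude.Def_Stickelberger_Basic

set_option autoImplicit false
set_option linter.style.haveILetI false
set_option linter.unusedSectionVars false

open Finset NumberField Ideal
open scoped Pointwise

namespace Fermat.Agent.ExtVan

/-- In a finite field, `∑ x, x^N (1-x)^N = 0` as soon as `2N < #F - 1`. -/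
lemma sum_pow_mul_one_sub_pow_eq_zero (F : Type*) [Field F] [Fintype F] {N : ℕ}
    (h : 2 * N < Fintype.card F - 1) : ∑ x : F, x ^ N * (1 - x) ^ N = 0 := by
  have h1 : ∀ x : F, x ^ N * (1 - x) ^ N =
      ∑ k ∈ range (N + 1), ((-1 : F) ^ k * (N.choose k : F)) * x ^ (N + k) := by
    intro x
    have : (1 - x) = (-x + 1) := by ring
    rw [this, add_pow, Finset.mul_sum]
    refine Finset.sum_congr rfl fun k _ => ?_
    rw [one_pow, mul_one, neg_pow, pow_add]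
    ring
  simp_rw [h1]
  rw [Finset.sum_comm]
  refine Finset.sum_eq_zero fun k hk => ?_
  rw [← Finset.mul_sum, FiniteField.sum_pow_lt_card_sub_one F (N + k), mul_zero]
  have := Finset.mem_range.mp hk
  omega

section Generic

variable {R : Type*} [CommRing R] [IsDomain R] {F : Type*} [Field F] [Fintype F] (π : R →+* F)
  {p : ℕ} [hp : Fact p.Prime] {ζ : R}

/-- The power residue character attached to a ring hom `π : R → F` onto a finite field and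
a primitive `p`-th root of unity `ζ` whose reduction is still primitive:
`χ(x)` is the power of `ζ` congruent to `x^((#F-1)/p)`. -/
theorem exists_powerResidueChar (hζ : IsPrimitiveRoot ζ p) (hζ' : IsPrimitiveRoot (π ζ) p) :
    ∃ χ : MulChar F R,
      (∀ x : F, π (χ x) = x ^ ((Fintype.card F - 1) / p)) ∧
      (∀ x : Fˣ, ∃ k : ℕ, χ x = ζ ^ k) := by
  classical
  set m := (Fintype.card F - 1) / p with hm
  have hp0 : p ≠ 0 := hp.out.ne_zero
  haveI : NeZero p := ⟨hp0⟩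
  -- p ∣ #F - 1
  have hdvd : p ∣ Fintype.card F - 1 := by
    have h1 : orderOf (π ζ) = p := hζ'.eq_orderOf.symm
    have hne : π ζ ≠ 0 := hζ'.ne_zero hp0
    have h2 := FiniteField.pow_card_sub_one_eq_one (π ζ) hne
    rw [← h1]
    exact orderOf_dvd_of_pow_eq_one h2
  have hmp : m * p = Fintype.card F - 1 := Nat.div_mul_cancel hdvd
  -- for every unit x, x^m is a p-th root of unity
  have hpow : ∀ x : Fˣ, ((x : F) ^ m) ^ p = 1 := by
    intro x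
    rw [← pow_mul, hmp]
    exact FiniteField.pow_card_sub_one_eq_one _ x.ne_zero
  -- choose exponents
  have hex : ∀ x : Fˣ, ∃ k : ℕ, k < p ∧ (π ζ) ^ k = (x : F) ^ m := fun x =>
    hζ'.eq_pow_of_pow_eq_one (hpow x)
  choose k hk hkx using hex
  -- the unit version of ζ
  have hζu : IsUnit ζ := hζ.isUnit hp0
  set u : Rˣ := hζu.unit with hu
  have hucoe : (u : R) = ζ := IsUnit.unit_spec hζu
  have hordu : orderOf u = p := by
    rw [← orderOf_units, hucoe]; exact hζ.eq_orderOf.symm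
  have hmul : ∀ x y : Fˣ, u ^ k (x * y) = u ^ k x * u ^ k y := by
    intro x y
    rw [← pow_add, pow_eq_pow_iff_modEq, hordu]
    have h1 : (π ζ) ^ k (x * y) = (π ζ) ^ (k x + k y) := by
      rw [hkx, pow_add, hkx, hkx, Units.val_mul, mul_pow]
    have h3 : (π ζ) ^ (k x + k y) = (π ζ) ^ ((k x + k y) % p) := by
      conv_rhs => rw [hζ'.eq_orderOf, pow_mod_orderOf]
    have h4 := hζ'.pow_inj (hk (x * y)) (Nat.mod_lt _ hp.out.pos) (h1.trans h3)
    rw [h4]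
    exact Nat.mod_modEq _ _
  let g : Fˣ →* Rˣ := MonoidHom.mk' (fun x => u ^ k x) hmul
  refine ⟨MulChar.ofUnitHom g, ?_, ?_⟩
  · intro x
    by_cases hx : IsUnit x
    · obtain ⟨x, rfl⟩ := hx
      rw [MulChar.ofUnitHom_coe]
      show π ((u ^ k x : Rˣ) : R) = _
      rw [Units.val_pow_eq_pow_val, hucoe, map_pow, hkx]
    · rw [MulChar.map_nonunit _ hx, map_zero]
      have hx0 : x = 0 := by
        by_contra h
        exact hx (isUnit_iff_ne_zero.mpr h)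
      have hm0 : m ≠ 0 := by
        intro h0
        rw [h0, zero_mul] at hmp
        have : 1 < Fintype.card F := Fintype.one_lt_card
        omega
      rw [hx0, zero_pow hm0]
  · intro x
    refine ⟨k x, ?_⟩
    rw [MulChar.ofUnitHom_coe]
    show ((u ^ k x : Rˣ) : R) = _
    rw [Units.val_pow_eq_pow_val, hucoe]

/-- reduction of the Jacobi sums `J(χ^c, χ^c)`, `0 < c`, `2c < p`, vanishes. -/
theorem map_jacobiSum_pow_eq_zero (hζ' : IsPrimitiveRoot (π ζ) p) {χ : MulChar F R}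
    (hχπ : ∀ x : F, π (χ x) = x ^ ((Fintype.card F - 1) / p)) {c : ℕ} (hc : 0 < c)
    (hcp : 2 * c < p) : π (jacobiSum (χ ^ c) (χ ^ c)) = 0 := by
  classical
  set m := (Fintype.card F - 1) / p with hm
  have hp0 : p ≠ 0 := hp.out.ne_zero
  have hdvd : p ∣ Fintype.card F - 1 := by
    have h1 : orderOf (π ζ) = p := hζ'.eq_orderOf.symm
    have hne : π ζ ≠ 0 := hζ'.ne_zero hp0
    have h2 := FiniteField.pow_card_sub_one_eq_one (π ζ) hne
    rw [← h1]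
    exact orderOf_dvd_of_pow_eq_one h2
  have hmp : m * p = Fintype.card F - 1 := Nat.div_mul_cancel hdvd
  have hm0 : 0 < m := by
    rcases Nat.eq_zero_or_pos m with h0 | h0
    · rw [h0, zero_mul] at hmp
      have : 1 < Fintype.card F := Fintype.one_lt_card
      omega
    · exact h0
  rw [jacobiSum, map_sum]
  have hterm : ∀ x : F, π ((χ ^ c) x * (χ ^ c) (1 - x)) = x ^ (m * c) * (1 - x) ^ (m * c) := by
    intro x
    rw [map_mul, MulChar.pow_apply' _ hc.ne', MulChar.pow_apply' _ hc.ne', map_pow, map_pow,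
      hχπ, hχπ, ← pow_mul, ← pow_mul]
  simp_rw [hterm]
  apply sum_pow_mul_one_sub_pow_eq_zero
  calc 2 * (m * c) = m * (2 * c) := by ring
    _ < m * p := Nat.mul_lt_mul_of_pos_left hcp hm0
    _ = Fintype.card F - 1 := hmp

/-- a ring endomorphism raising `ζ` to the `c`-th power raises `χ` to the `c`-th power. -/
theorem ringHomComp_eq_pow {χ : MulChar F R} (hχζ : ∀ x : Fˣ, ∃ k : ℕ, χ x = ζ ^ k)
    (f : R →+* R) {c : ℕ} (hc : 0 < c) (hf : f ζ = ζ ^ c) : χ.ringHomComp f = χ ^ c := by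
  ext x
  rw [MulChar.ringHomComp_apply, MulChar.pow_apply' _ hc.ne']
  obtain ⟨k, hk⟩ := hχζ x
  rw [hk, map_pow, hf, ← pow_mul, ← pow_mul, mul_comm]

/-- `χ ^ p = 1`. -/
theorem pow_prime_eq_one (hζ : IsPrimitiveRoot ζ p) {χ : MulChar F R}
    (hχζ : ∀ x : Fˣ, ∃ k : ℕ, χ x = ζ ^ k) : χ ^ p = 1 := by
  ext x
  rw [MulChar.pow_apply' _ hp.out.ne_zero, MulChar.one_apply_coe]
  obtain ⟨k, hk⟩ := hχζ x
  rw [hk, ← pow_mul, mul_comm, pow_mul, hζ.pow_eq_one, one_pow]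

/-- `χ ^ c ≠ 1` for `0 < c < p`. -/
theorem pow_ne_one_of_lt (hζ' : IsPrimitiveRoot (π ζ) p) {χ : MulChar F R}
    (hχπ : ∀ x : F, π (χ x) = x ^ ((Fintype.card F - 1) / p)) {c : ℕ} (hc : 0 < c)
    (hcp : c < p) : χ ^ c ≠ 1 := by
  classical
  set m := (Fintype.card F - 1) / p with hm
  have hp0 : p ≠ 0 := hp.out.ne_zero
  have hdvd : p ∣ Fintype.card F - 1 := by
    have h1 : orderOf (π ζ) = p := hζ'.eq_orderOf.symm
    have hne : π ζ ≠ 0 := hζ'.ne_zero hp0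
    have h2 := FiniteField.pow_card_sub_one_eq_one (π ζ) hne
    rw [← h1]
    exact orderOf_dvd_of_pow_eq_one h2
  have hmp : m * p = Fintype.card F - 1 := Nat.div_mul_cancel hdvd
  intro h1
  -- then x^(m c) = 1 for all units x, but m c < #F - 1
  have hall : ∀ x : Fˣ, (x : F) ^ (m * c) = 1 := by
    intro x
    have := congrArg (fun ψ : MulChar F R => π (ψ x)) h1
    simp only [MulChar.pow_apply' _ hc.ne', map_pow, hχπ, MulChar.one_apply_coe, map_one] at this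
    rw [pow_mul]; exact this
  obtain ⟨g, hg⟩ := IsCyclic.exists_generator (α := Fˣ)
  have hord : orderOf g = Fintype.card F - 1 := by
    rw [orderOf_eq_card_of_forall_mem_zpowers hg, Nat.card_eq_fintype_card, Fintype.card_units]
  have h2 : g ^ (m * c) = 1 := Units.ext (by rw [Units.val_pow_eq_pow_val]; exact hall g)
  have h3 := orderOf_dvd_of_pow_eq_one h2
  rw [hord, ← hmp] at h3
  have hm0 : 0 < m := by
    rcases Nat.eq_zero_or_pos m with h0 | h0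
    · rw [h0, zero_mul] at hmp
      have : 1 < Fintype.card F := Fintype.one_lt_card
      omega
    · exact h0
  have h4 : p ∣ c := (Nat.mul_dvd_mul_iff_left hm0).mp h3
  exact absurd (Nat.le_of_dvd hc h4) (not_le.mpr hcp)

end Generic

variable {p : ℕ} [hp : Fact p.Prime] {K : Type*} [Field K] [NumberField K]
  [hK : IsCyclotomicExtension {p} ℚ K]

/-- The reduction of `ζ_p` modulo a prime `𝔮` of residue characteristic `ℓ ≠ p` is still a
primitive `p`-th root of unity. -/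
theorem isPrimitiveRoot_mk_zeta (𝔮 : Ideal (𝓞 K)) [h𝔮p : 𝔮.IsPrime] {ℓ : ℕ} (hℓ : ℓ.Prime)
    (hℓp : ℓ ≠ p) (h𝔮 : absNorm 𝔮 = ℓ) :
    IsPrimitiveRoot (Ideal.Quotient.mk 𝔮 (IsCyclotomicExtension.zeta_spec p ℚ K).toInteger) p := by
  set hζ := IsCyclotomicExtension.zeta_spec p ℚ K with hζdef
  set ζ := hζ.toInteger with hζi
  have hζp : IsPrimitiveRoot ζ p := hζ.toInteger_isPrimitiveRoot
  have hpow : (Ideal.Quotient.mk 𝔮 ζ) ^ p = 1 := by
    rw [← map_pow, hζp.pow_eq_one, map_one]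
  have hne : Ideal.Quotient.mk 𝔮 ζ ≠ 1 := by
    intro h1
    have hmem : ζ - 1 ∈ 𝔮 := by
      rw [← Ideal.Quotient.eq_zero_iff_mem, map_sub, h1, map_one, sub_self]
    have hdvd : ζ - 1 ∣ ((p : ℤ) : 𝓞 K) :=
      (IsCyclotomicExtension.Rat.zeta_sub_one_dvd_intCast_iff' p hζ).mpr dvd_rfl
    have hpmem : ((p : ℤ) : 𝓞 K) ∈ 𝔮 := Ideal.mem_of_dvd 𝔮 hdvd hmem
    have hℓmem : ((ℓ : ℤ) : 𝓞 K) ∈ 𝔮 := by
      have := Ideal.absNorm_mem 𝔮
      rw [h𝔮] at this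
      simpa using this
    have hcop : IsCoprime (p : ℤ) (ℓ : ℤ) := by
      rw [Int.isCoprime_iff_gcd_eq_one, Int.gcd_natCast_natCast]
      exact (Nat.coprime_primes hp.out hℓ).mpr (Ne.symm hℓp)
    obtain ⟨a, b, hab⟩ := hcop
    have h1mem : (1 : 𝓞 K) ∈ 𝔮 := by
      have : ((a * p + b * ℓ : ℤ) : 𝓞 K) ∈ 𝔮 := by
        push_cast
        exact 𝔮.add_mem (𝔮.mul_mem_left _ (by simpa using hpmem)) (𝔮.mul_mem_left _ (by simpa using hℓmem))
      rw [hab] at this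
      simpa using this
    exact h𝔮p.ne_top ((Ideal.eq_top_iff_one 𝔮).mpr h1mem)
  have hord : orderOf (Ideal.Quotient.mk 𝔮 ζ) = p := orderOf_eq_prime hpow hne
  rw [← hord]
  exact IsPrimitiveRoot.orderOf _

/-- The Jacobi sums. -/
theorem exists_jacobi (hp2 : p ≠ 2) (𝔮 : Ideal (𝓞 K)) [h𝔮p : 𝔮.IsPrime] {ℓ : ℕ} (hℓ : ℓ.Prime)
    (hℓp : ℓ ≠ p) (h𝔮 : absNorm 𝔮 = ℓ) :
    ∃ J J' : 𝓞 K, J * J' = (ℓ : 𝓞 K) ∧
      ∀ (σ : Gal(K/ℚ)) (c : ℕ), 0 < c → c < p →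
        σ (IsCyclotomicExtension.zeta p ℚ K) = (IsCyclotomicExtension.zeta p ℚ K) ^ c →
        (2 * c < p → σ • J ∈ 𝔮) ∧ (p < 2 * c → σ • J' ∈ 𝔮) := by
  classical
  have h𝔮0 : 𝔮 ≠ ⊥ := by
    rintro rfl
    rw [Ideal.absNorm_bot] at h𝔮
    exact hℓ.ne_zero h𝔮.symm
  haveI h𝔮max : 𝔮.IsMaximal := h𝔮p.isMaximal h𝔮0
  letI : Field (𝓞 K ⧸ 𝔮) := Ideal.Quotient.field 𝔮
  haveI : Finite (𝓞 K ⧸ 𝔮) := Ideal.finiteQuotientOfFreeOfNeBot 𝔮 h𝔮0
  letI : Fintype (𝓞 K ⧸ 𝔮) := Fintype.ofFinite _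
  have hcard : Fintype.card (𝓞 K ⧸ 𝔮) = ℓ := by
    rw [← h𝔮, Ideal.absNorm_apply, Submodule.cardQuot_apply, Nat.card_eq_fintype_card]
  set hζK := IsCyclotomicExtension.zeta_spec p ℚ K with hζKdef
  set ζ : 𝓞 K := hζK.toInteger with hζdef
  have hζ : IsPrimitiveRoot ζ p := hζK.toInteger_isPrimitiveRoot
  have hζ' : IsPrimitiveRoot (Ideal.Quotient.mk 𝔮 ζ) p := isPrimitiveRoot_mk_zeta 𝔮 hℓ hℓp h𝔮
  obtain ⟨χ, hχπ, hχζ⟩ := exists_powerResidueChar (Ideal.Quotient.mk 𝔮) hζ hζ'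
  have hχp : χ ^ p = 1 := pow_prime_eq_one hζ hχζ
  have hp3 : 2 < p := lt_of_le_of_ne hp.out.two_le (Ne.symm hp2)
  have hχ1 : χ ≠ 1 := by
    have := pow_ne_one_of_lt (Ideal.Quotient.mk 𝔮) hζ' hχπ (c := 1) one_pos hp.out.one_lt
    rwa [pow_one] at this
  have hχ2 : χ ^ 2 ≠ 1 := pow_ne_one_of_lt (Ideal.Quotient.mk 𝔮) hζ' hχπ (c := 2) two_pos hp3
  refine ⟨jacobiSum χ χ, jacobiSum χ⁻¹ χ⁻¹, ?_, ?_⟩
  · -- product formula, through K
    have hinj : Function.Injective (algebraMap (𝓞 K) K) := RingOfIntegers.coe_injective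
    apply hinj
    rw [map_mul, map_natCast, ← jacobiSum_ringHomComp, ← jacobiSum_ringHomComp,
      ← MulChar.ringHomComp_inv]
    have hchar : ringChar K ≠ ringChar (𝓞 K ⧸ 𝔮) := by
      rw [ringChar.eq_zero]
      exact (CharP.ringChar_ne_zero_of_finite (𝓞 K ⧸ 𝔮)).symm
    have h1 : χ.ringHomComp (algebraMap (𝓞 K) K) ≠ 1 :=
      (MulChar.ringHomComp_ne_one_iff hinj).mpr hχ1
    have h2 : χ.ringHomComp (algebraMap (𝓞 K) K) * χ.ringHomComp (algebraMap (𝓞 K) K) ≠ 1 := by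
      rw [← MulChar.ringHomComp_mul, ← pow_two]
      exact (MulChar.ringHomComp_ne_one_iff hinj).mpr hχ2
    rw [jacobiSum_mul_jacobiSum_inv hchar h1 h1 h2, hcard]
  · intro σ c hc hcp hσ
    set f : 𝓞 K →+* 𝓞 K := MulSemiringAction.toRingHom Gal(K/ℚ) (𝓞 K) σ with hf
    have hfζ : f ζ = ζ ^ c := by
      apply RingOfIntegers.ext
      show σ (ζ : K) = ((ζ ^ c : 𝓞 K) : K)
      have h1 : ((hζK.toInteger : 𝓞 K) : K) = IsCyclotomicExtension.zeta p ℚ K :=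
        IsPrimitiveRoot.coe_toInteger hζK
      have h2 : ((ζ ^ c : 𝓞 K) : K) = ((ζ : 𝓞 K) : K) ^ c := map_pow (algebraMap (𝓞 K) K) ζ c
      rw [h2, hζdef, h1]
      exact hσ
    have hcomp : χ.ringHomComp f = χ ^ c := ringHomComp_eq_pow hχζ f hc hfζ
    have hsmulJ : ∀ ψ : MulChar (𝓞 K ⧸ 𝔮) (𝓞 K), σ • jacobiSum ψ ψ =
        jacobiSum (ψ.ringHomComp f) (ψ.ringHomComp f) := by
      intro ψ
      rw [jacobiSum_ringHomComp]
      rfl
    constructor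
    · intro h2c
      rw [hsmulJ, hcomp, ← Ideal.Quotient.eq_zero_iff_mem]
      exact map_jacobiSum_pow_eq_zero (Ideal.Quotient.mk 𝔮) hζ' hχπ hc h2c
    · intro h2c
      have hinv : χ⁻¹.ringHomComp f = χ ^ (p - c) := by
        rw [← MulChar.ringHomComp_inv, hcomp]
        apply inv_eq_of_mul_eq_one_left
        rw [← pow_add, Nat.sub_add_cancel hcp.le, hχp]
      rw [hsmulJ, hinv, ← Ideal.Quotient.eq_zero_iff_mem]
      exact map_jacobiSum_pow_eq_zero (Ideal.Quotient.mk 𝔮) hζ' hχπ (by omega) (by omega)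

/-- a degree one prime of `ℚ(ζ_p)` of residue characteristic `ℓ ≠ p` has `ℓ ≡ 1 mod p`. -/
theorem prime_dvd_sub_one (𝔮 : Ideal (𝓞 K)) [h𝔮p : 𝔮.IsPrime] {ℓ : ℕ} (hℓ : ℓ.Prime)
    (hℓp : ℓ ≠ p) (h𝔮 : absNorm 𝔮 = ℓ) : p ∣ ℓ - 1 := by
  classical
  have h𝔮0 : 𝔮 ≠ ⊥ := by
    rintro rfl
    rw [Ideal.absNorm_bot] at h𝔮
    exact hℓ.ne_zero h𝔮.symm
  haveI h𝔮max : 𝔮.IsMaximal := h𝔮p.isMaximal h𝔮0
  letI : Field (𝓞 K ⧸ 𝔮) := Ideal.Quotient.field 𝔮
  haveI : Finite (𝓞 K ⧸ 𝔮) := Ideal.finiteQuotientOfFreeOfNeBot 𝔮 h𝔮0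
  letI : Fintype (𝓞 K ⧸ 𝔮) := Fintype.ofFinite _
  have hcard : Fintype.card (𝓞 K ⧸ 𝔮) = ℓ := by
    rw [← h𝔮, Ideal.absNorm_apply, Submodule.cardQuot_apply, Nat.card_eq_fintype_card]
  have hζ' := isPrimitiveRoot_mk_zeta 𝔮 hℓ hℓp h𝔮
  have h1 := hζ'.eq_orderOf
  have hne := hζ'.ne_zero hp.out.ne_zero
  have h2 := FiniteField.pow_card_sub_one_eq_one _ hne
  rw [hcard] at h2
  rw [h1]
  exact orderOf_dvd_of_pow_eq_one h2

theorem liesOver_span_of_absNorm (𝔮 : Ideal (𝓞 K)) [h𝔮p : 𝔮.IsPrime] {ℓ : ℕ} (hℓ : ℓ.Prime)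
    (h𝔮 : absNorm 𝔮 = ℓ) : 𝔮.LiesOver (span {(ℓ : ℤ)}) := by
  have h1 : absNorm (under ℤ 𝔮) ∣ ℓ := h𝔮 ▸ Int.absNorm_under_dvd_absNorm 𝔮
  have h𝔮0 : 𝔮 ≠ ⊥ := by
    rintro rfl
    rw [Ideal.absNorm_bot] at h𝔮
    exact hℓ.ne_zero h𝔮.symm
  haveI : NeZero 𝔮 := ⟨h𝔮0⟩
  have h2 : (absNorm (under ℤ 𝔮)).Prime := Nat.absNorm_under_prime 𝔮
  have h3 : absNorm (under ℤ 𝔮) = ℓ := (Nat.prime_dvd_prime_iff_eq h2 hℓ).mp h1
  have := Int.liesOver_span_absNorm 𝔮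
  rwa [h3] at this

theorem span_natCast_eq_prod_smul (𝔮 : Ideal (𝓞 K)) [h𝔮p : 𝔮.IsPrime] {ℓ : ℕ} (hℓ : ℓ.Prime)
    (hℓp : ℓ ≠ p) (h𝔮 : absNorm 𝔮 = ℓ) :
    Function.Injective (fun σ : Gal(K/ℚ) => σ • 𝔮) ∧
      Ideal.span {(ℓ : 𝓞 K)} = ∏ σ : Gal(K/ℚ), σ • 𝔮 := by
  classical
  haveI : Fact ℓ.Prime := ⟨hℓ⟩
  haveI : NeZero p := ⟨hp.out.ne_zero⟩
  haveI : IsGalois ℚ K := IsCyclotomicExtension.isGalois {p} ℚ K
  haveI hlies : 𝔮.LiesOver (span {(ℓ : ℤ)}) := liesOver_span_of_absNorm 𝔮 hℓ h𝔮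
  have hnd : ¬ ℓ ∣ p := fun h => hℓp ((Nat.prime_dvd_prime_iff_eq hℓ hp.out).mp h)
  have he : (span {(ℓ : ℤ)}).ramificationIdxIn (𝓞 K) = 1 :=
    IsCyclotomicExtension.Rat.ramificationIdxIn_eq_of_not_dvd ℓ K hnd
  have hf : (span {(ℓ : ℤ)}).inertiaDegIn (𝓞 K) = 1 := by
    rw [IsCyclotomicExtension.Rat.inertiaDegIn_eq_of_not_dvd ℓ K hnd, orderOf_eq_one_iff]
    have hd := prime_dvd_sub_one 𝔮 hℓ hℓp h𝔮
    have h1 : ((ℓ - 1 : ℕ) : ZMod p) = 0 := (ZMod.natCast_eq_zero_iff _ _).mpr hd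
    rw [Nat.cast_sub hℓ.one_lt.le, Nat.cast_one, sub_eq_zero] at h1
    exact h1
  have hcount := Ideal.ncard_primesOver_mul_ramificationIdxIn_mul_inertiaDegIn
    (span {(ℓ : ℤ)}) (𝓞 K) Gal(K/ℚ)
  rw [he, hf, mul_one, mul_one] at hcount
  -- the primes over ℓ are exactly the σ • 𝔮
  have hmem : ∀ σ : Gal(K/ℚ), σ • 𝔮 ∈ primesOver (span {(ℓ : ℤ)}) (𝓞 K) := fun σ =>
    ⟨inferInstance, inferInstance⟩
  have hsurj : ∀ Q ∈ primesOver (span {(ℓ : ℤ)}) (𝓞 K), ∃ σ : Gal(K/ℚ), σ • 𝔮 = Q := by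
    intro Q hQ
    haveI := hQ.1
    haveI := hQ.2
    exact exists_smul_eq_of_isGaloisGroup (span {(ℓ : ℤ)}) 𝔮 Q Gal(K/ℚ)
  have hfin : (primesOver (span {(ℓ : ℤ)}) (𝓞 K)).Finite := IsDedekindDomain.primesOver_finite _ _
  have himage : Finset.univ.image (fun σ : Gal(K/ℚ) => σ • 𝔮) = hfin.toFinset := by
    ext Q
    simp only [Finset.mem_image, Finset.mem_univ, true_and, Set.Finite.mem_toFinset]
    constructor
    · rintro ⟨σ, rfl⟩; exact hmem σ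
    · intro hQ; exact hsurj Q hQ
  have hinj : Function.Injective (fun σ : Gal(K/ℚ) => σ • 𝔮) := by
    have hc : (Finset.univ.image (fun σ : Gal(K/ℚ) => σ • 𝔮)).card =
        (Finset.univ : Finset Gal(K/ℚ)).card := by
      rw [himage, ← Set.ncard_eq_toFinset_card _ hfin, hcount, Finset.card_univ,
        Nat.card_eq_fintype_card]
    have := Finset.card_image_iff.mp hc
    exact fun a b hab => this (Finset.mem_coe.mpr (Finset.mem_univ a))
      (Finset.mem_coe.mpr (Finset.mem_univ b)) hab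
  refine ⟨hinj, ?_⟩
  have hne : (span {(ℓ : ℤ)} : Ideal ℤ) ≠ 0 := by
    rw [Ne, Ideal.zero_eq_bot, Ideal.span_singleton_eq_bot]
    exact_mod_cast hℓ.ne_zero
  have hfac := Ideal.map_algebraMap_eq_finsetProd_pow (R := 𝓞 K) (p := span {(ℓ : ℤ)}) hne
  rw [Ideal.map_span, Set.image_singleton] at hfac
  have hcast : (algebraMap ℤ (𝓞 K)) (ℓ : ℤ) = (ℓ : 𝓞 K) := by simp
  rw [hcast] at hfac
  rw [hfac, ← Finset.prod_image (f := fun P : Ideal (𝓞 K) => P) (g := fun σ : Gal(K/ℚ) => σ • 𝔮)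
    (fun a _ b _ hab => hinj hab), himage]
  refine Finset.prod_congr ?_ ?_
  · ext Q; simp
  · intro Q hQ
    rw [Set.Finite.mem_toFinset] at hQ
    haveI := hQ.1
    haveI := hQ.2
    rw [IsCyclotomicExtension.Rat.ramificationIdx_eq_of_not_dvd ℓ K Q hnd, pow_one]

variable (K)

/-- the automorphism of `K = ℚ(ζ_p)` raising `p`-th roots of unity to the power `u`. -/
noncomputable def cycloAut (u : (ZMod p)ˣ) : Gal(K/ℚ) :=
  haveI : NeZero p := ⟨hp.out.ne_zero⟩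
  (IsCyclotomicExtension.autEquivPow K (Polynomial.cyclotomic.irreducible_rat hp.out.pos)).symm u

theorem cycloAut_zeta (u : (ZMod p)ˣ) :
    haveI : NeZero p := ⟨hp.out.ne_zero⟩
    cycloAut K u (IsCyclotomicExtension.zeta p ℚ K) =
      (IsCyclotomicExtension.zeta p ℚ K) ^ (u : ZMod p).val := by
  haveI : NeZero p := ⟨hp.out.ne_zero⟩
  have h := (IsCyclotomicExtension.zeta_spec p ℚ K).autToPow_spec ℚ (cycloAut K u)
  rw [← h]
  congr 3
  have := (IsCyclotomicExtension.autEquivPow K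
    (Polynomial.cyclotomic.irreducible_rat hp.out.pos)).apply_symm_apply u
  rw [IsCyclotomicExtension.autEquivPow_apply] at this
  exact this

theorem cycloAut_surjective : Function.Surjective (cycloAut (p := p) K) := by
  haveI : NeZero p := ⟨hp.out.ne_zero⟩
  exact (IsCyclotomicExtension.autEquivPow K
    (Polynomial.cyclotomic.irreducible_rat hp.out.pos)).symm.surjective

theorem cycloAut_injective : Function.Injective (cycloAut (p := p) K) := by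
  haveI : NeZero p := ⟨hp.out.ne_zero⟩
  exact (IsCyclotomicExtension.autEquivPow K
    (Polynomial.cyclotomic.irreducible_rat hp.out.pos)).symm.injective

variable {K}

lemma eq_of_mul_eq_mul_of_dvd {M : Type*} [CommMonoidWithZero M] [IsCancelMulZero M] [Subsingleton Mˣ]
    {a b x y : M} (h : x * y = a * b) (hx : x ∣ a) (hy : y ∣ b) (h0 : a * b ≠ 0) : a = x := by
  obtain ⟨x', rfl⟩ := hx
  obtain ⟨y', rfl⟩ := hy
  have h1 : (x * y) * (x' * y') = (x * y) * 1 := by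
    rw [mul_one, mul_mul_mul_comm, ← h]
  have hxy : x * y ≠ 0 := by rw [h]; exact h0
  have h2 : x' * y' = 1 := mul_left_cancel₀ hxy h1
  have h3 : IsUnit x' := IsUnit.of_mul_eq_one _ h2
  obtain ⟨u, rfl⟩ := h3
  rw [Subsingleton.elim u 1, Units.val_one, mul_one]

/-- **Stickelberger for degree one primes** (via the Jacobi sum `J(χ,χ)`): for a prime `𝔮` of
`ℚ(ζ_p)` (p odd) of prime norm `ℓ ≠ p`, the ideal `∏_{0 < c < p/2} σ_c⁻¹ 𝔮` is principal. -/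
theorem exists_span_eq_prod (hp2 : p ≠ 2) (𝔮 : Ideal (𝓞 K)) [h𝔮p : 𝔮.IsPrime] {ℓ : ℕ}
    (hℓ : ℓ.Prime) (hℓp : ℓ ≠ p) (h𝔮 : absNorm 𝔮 = ℓ) :
    ∃ J : 𝓞 K, Ideal.span {J} =
      ∏ c ∈ Stickelberger.exponentSet p, (cycloAut K (Stickelberger.expUnit p c))⁻¹ • 𝔮 := by
  classical
  haveI : NeZero p := ⟨hp.out.ne_zero⟩
  obtain ⟨J, J', hJJ', hJ⟩ := exists_jacobi hp2 𝔮 hℓ hℓp h𝔮
  obtain ⟨hinj, hfac⟩ := span_natCast_eq_prod_smul 𝔮 hℓ hℓp h𝔮
  refine ⟨J, ?_⟩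
  set E := Stickelberger.exponentSet p with hE
  set s : ℕ → Gal(K/ℚ) := fun c => (cycloAut K (Stickelberger.expUnit p c))⁻¹ with hs
  -- facts about `c ∈ E`
  have hEfacts : ∀ c ∈ E, 0 < c ∧ 2 * c < p ∧
      ((Stickelberger.expUnit p c : (ZMod p)ˣ) : ZMod p).val = c := by
    intro c hc
    rw [hE, Stickelberger.mem_exponentSet] at hc
    obtain ⟨hc0, hc2⟩ := hc
    have hcp : c < p := by omega
    have hcop : Nat.Coprime c p :=
      ((Nat.Prime.coprime_iff_not_dvd hp.out).mpr (Nat.not_dvd_of_pos_of_lt hc0 hcp)).symm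
    refine ⟨hc0, hc2, ?_⟩
    rw [Stickelberger.expUnit, dif_pos hcop, ZMod.coe_unitOfCoprime, ZMod.val_natCast_of_lt hcp]
  have hsζ : ∀ c ∈ E, (s c)⁻¹ (IsCyclotomicExtension.zeta p ℚ K) =
      (IsCyclotomicExtension.zeta p ℚ K) ^ c := by
    intro c hc
    rw [hs, inv_inv, cycloAut_zeta, (hEfacts c hc).2.2]
  set A : Finset Gal(K/ℚ) := E.image s with hA
  -- `J` lies in the primes indexed by `A`
  have hJA : ∀ σ ∈ A, J ∈ σ • 𝔮 := by
    intro σ hσ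
    obtain ⟨c, hc, rfl⟩ := Finset.mem_image.mp hσ
    obtain ⟨hc0, hc2, -⟩ := hEfacts c hc
    rw [Ideal.mem_pointwise_smul_iff_inv_smul_mem]
    exact (hJ (s c)⁻¹ c hc0 (by omega) (hsζ c hc)).1 hc2
  -- `J'` lies in the other ones
  have hJB : ∀ σ ∈ Aᶜ, J' ∈ σ • 𝔮 := by
    intro σ hσ
    rw [Finset.mem_compl] at hσ
    obtain ⟨u, hu⟩ := cycloAut_surjective (p := p) K σ⁻¹
    set c := (u : ZMod p).val with hc
    have hcp : c < p := ZMod.val_lt _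
    have hc0 : 0 < c := by
      rw [hc, ZMod.val_pos]
      exact u.ne_zero
    have hσζ : σ⁻¹ (IsCyclotomicExtension.zeta p ℚ K) =
        (IsCyclotomicExtension.zeta p ℚ K) ^ c := by
      rw [← hu, cycloAut_zeta]
    have hnot : ¬ 2 * c < p := by
      intro h2
      apply hσ
      have hcE : c ∈ E := by
        rw [hE, Stickelberger.mem_exponentSet]; exact ⟨hc0, h2⟩
      refine Finset.mem_image.mpr ⟨c, hcE, ?_⟩
      have hu' : Stickelberger.expUnit p c = u := by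
        apply Units.ext
        have := (hEfacts c hcE).2.2
        apply ZMod.val_injective
        rw [this]
      rw [hs]
      simp only
      rw [hu', hu, inv_inv]
    have hne : 2 * c ≠ p := by
      intro h
      have h2 : 2 ∣ p := ⟨c, h.symm⟩
      exact hp2 ((Nat.prime_dvd_prime_iff_eq Nat.prime_two hp.out).mp h2).symm
    rw [Ideal.mem_pointwise_smul_iff_inv_smul_mem]
    exact (hJ σ⁻¹ c hc0 hcp hσζ).2 (by omega)
  -- primes
  have hℓmem : ∀ σ : Gal(K/ℚ), (ℓ : 𝓞 K) ∈ σ • 𝔮 := by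
    intro σ
    have h1 : (ℓ : 𝓞 K) ∈ 𝔮 := by
      have := Ideal.absNorm_mem 𝔮
      rwa [h𝔮] at this
    have h2 : σ • (ℓ : 𝓞 K) = (ℓ : 𝓞 K) :=
      map_natCast (MulSemiringAction.toRingHom Gal(K/ℚ) (𝓞 K) σ) ℓ
    rw [← h2]
    exact (Ideal.smul_mem_pointwise_smul_iff).mpr h1
  have hℓ0 : (ℓ : 𝓞 K) ≠ 0 := by
    exact_mod_cast hℓ.ne_zero
  have hprime : ∀ σ : Gal(K/ℚ), Prime (σ • 𝔮) := by
    intro σ
    refine Ideal.prime_of_isPrime ?_ inferInstance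
    intro h
    have := hℓmem σ
    rw [h, Ideal.mem_bot] at this
    exact hℓ0 this
  have hdvdA : ∏ σ ∈ A, σ • 𝔮 ∣ Ideal.span {J} := by
    rw [← Finset.prod_image (s := A) (g := fun σ : Gal(K/ℚ) => σ • 𝔮)
      (f := fun P : Ideal (𝓞 K) => P) (fun a _ b _ hab => hinj hab)]
    apply Finset.prod_primes_dvd
    · intro P hP
      obtain ⟨σ, -, rfl⟩ := Finset.mem_image.mp hP
      exact hprime σ
    · intro P hP
      obtain ⟨σ, hσ, rfl⟩ := Finset.mem_image.mp hP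
      rw [Ideal.dvd_span_singleton]
      exact hJA σ hσ
  have hdvdB : ∏ σ ∈ Aᶜ, σ • 𝔮 ∣ Ideal.span {J'} := by
    rw [← Finset.prod_image (s := Aᶜ) (g := fun σ : Gal(K/ℚ) => σ • 𝔮)
      (f := fun P : Ideal (𝓞 K) => P) (fun a _ b _ hab => hinj hab)]
    apply Finset.prod_primes_dvd
    · intro P hP
      obtain ⟨σ, -, rfl⟩ := Finset.mem_image.mp hP
      exact hprime σ
    · intro P hP
      obtain ⟨σ, hσ, rfl⟩ := Finset.mem_image.mp hP
      rw [Ideal.dvd_span_singleton]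
      exact hJB σ hσ
  have hprod : (∏ σ ∈ A, σ • 𝔮) * (∏ σ ∈ Aᶜ, σ • 𝔮) = Ideal.span {J} * Ideal.span {J'} := by
    rw [Finset.prod_mul_prod_compl, ← hfac, Ideal.span_singleton_mul_span_singleton, hJJ']
  have hne0 : Ideal.span {J} * Ideal.span {J'} ≠ 0 := by
    rw [Ideal.span_singleton_mul_span_singleton, hJJ', Ne, Ideal.zero_eq_bot,
      Ideal.span_singleton_eq_bot]
    exact hℓ0
  rw [eq_of_mul_eq_mul_of_dvd hprod hdvdA hdvdB hne0, hA, Finset.prod_image]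
  intro c hc c' hc' hcc'
  rw [hs] at hcc'
  simp only [inv_inj] at hcc'
  have h1 := cycloAut_injective K hcc'
  rw [← (hEfacts c hc).2.2, ← (hEfacts c' hc').2.2, h1]

end Fermat.Agent.ExtVan
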