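/-
S14 long shot (helper7): the statement `NoExt p` (the number-theoretic core of S14) and its proof
from Artin reciprocity on principal ideals.

`NoExt p`: there is no everywhere unramified Galois extension `M / K` of degree `p` of
`K = ℚ(ζ_p)`, Galois over `ℚ`, on whose Galois group `Gal(K/ℚ)` acts through `ω⁻¹`.

`false_of_reciprocity` assembles the endgame `[D]` (`Endgame.lean`) with
* the Artin map of `Artin.lean` and its equivariance (`ArtinEquiv.lean`),
* the first inequality in the form "some Frobenius is nontrivial" (`FirstIneqFrob.lean`),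
* the Jacobi-sum factorisation (`JacobiFactor.lean`),
leaving reciprocity (`artin K M` kills principal ideals) as the only hypothesis.
-/
import Fermat.Agent.ExtVan.Endgame
import Fermat.Agent.ExtVan.ArtinEquiv
import Fermat.Agent.ExtVan.FirstIneqFrob
import Fermat.Agent.ExtVan.JacobiFactor

set_option autoImplicit false
set_option linter.style.haveILetI false
set_option linter.unusedSectionVars false

noncomputable section

namespace Fermat.Agent.ExtVan

open NumberField Module IsDedekindDomain
open scoped Pointwise nonZeroDivisors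

/-- `M / K` is unramified at every finite prime. -/
def IsUnramifiedEverywhere (K M : Type*) [Field K] [NumberField K] [Field M] [NumberField M]
    [Algebra K M] : Prop :=
  ∀ (Q : Ideal (𝓞 M)) [Q.IsPrime], Q ≠ ⊥ → Algebra.IsUnramifiedAt (𝓞 K) Q

/-- **NoExt**: the number-theoretic core of S14. -/
def NoExt (p : ℕ) : Prop :=
  ∀ (K M : Type) [Field K] [NumberField K] [IsCyclotomicExtension {p} ℚ K] [Field M]
    [NumberField M] [Algebra K M] [IsGalois K M] [IsGalois ℚ M],
    finrank K M = p → IsUnramifiedEverywhere K M → IsOmegaInv p K M → False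

section

variable {p : ℕ} [hp : Fact p.Prime]
  {K M : Type*} [Field K] [NumberField K] [hK : IsCyclotomicExtension {p} ℚ K]
  [Field M] [NumberField M] [Algebra K M] [IsGalois K M] [IsGalois ℚ M]

/-- A Galois extension of prime degree is abelian. -/
theorem isAbelianGalois_of_finrank_eq_prime (hdeg : finrank K M = p) : IsAbelianGalois K M := by
  haveI : FiniteDimensional K M :=
    FiniteDimensional.of_finrank_pos (by rw [hdeg]; exact hp.out.pos)
  have hcard : Nat.card Gal(M/K) = p := by rw [IsGalois.card_aut_eq_finrank, hdeg]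
  haveI : IsCyclic Gal(M/K) := isCyclic_of_prime_card hcard
  exact { }

theorem val_expUnit {c : ℕ} (hc : c ∈ Stickelberger.exponentSet p) :
    ((Stickelberger.expUnit p c : (ZMod p)ˣ) : ZMod p).val = c := by
  rw [Stickelberger.mem_exponentSet] at hc
  have hcp : c < p := by omega
  have hcop : Nat.Coprime c p :=
    (Nat.coprime_of_lt_prime (by omega) hcp hp.out).symm
  rw [Stickelberger.expUnit, dif_pos hcop, ZMod.coe_unitOfCoprime, ZMod.val_natCast,
    Nat.mod_eq_of_lt hcp]

/-- `cycloAut K u` raises every primitive `p`-th root of unity to the power `u`. -/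
theorem cycloAut_apply_of_isPrimitiveRoot (u : (ZMod p)ˣ) {ζ : K} (hζ : IsPrimitiveRoot ζ p) :
    cycloAut K u ζ = ζ ^ (u : ZMod p).val := by
  haveI : NeZero p := ⟨hp.out.ne_zero⟩
  obtain ⟨j, -, rfl⟩ := (IsCyclotomicExtension.zeta_spec p ℚ K).eq_pow_of_pow_eq_one hζ.pow_eq_one
  rw [map_pow, cycloAut_zeta, ← pow_mul, ← pow_mul, mul_comm]

end

section

variable {p : ℕ} [hp : Fact p.Prime]
  {K M : Type*} [Field K] [NumberField K] [hK : IsCyclotomicExtension {p} ℚ K]
  [Field M] [NumberField M] [Algebra K M] [IsAbelianGalois K M] [IsGalois ℚ M]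

/-- **NoExt from reciprocity.**  If the Artin map of `M / K` kills principal ideals, the extension
`M / K` cannot exist. -/
theorem false_of_reciprocity (hp2 : p ≠ 2) (hdeg : finrank K M = p)
    (hunr : IsUnramifiedEverywhere K M) (homega : IsOmegaInv p K M)
    (hrec : ∀ (I : (Ideal (𝓞 K))⁰), (I : Ideal (𝓞 K)).IsPrincipal → artin K M I = 1) :
    False := by
  haveI : NeZero p := ⟨hp.out.ne_zero⟩
  haveI : IsGalois ℚ K := IsCyclotomicExtension.isGalois {p} ℚ K
  have hp3 : 2 < p := lt_of_le_of_ne hp.out.two_le (Ne.symm hp2)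
  haveI : IsTotallyComplex K := IsCyclotomicExtension.Rat.isTotallyComplex K hp3
  have hunr' : ∀ q : HeightOneSpectrum (𝓞 K), UnramAt K M q :=
    fun q => unramAt_of_forall_isUnramifiedAt hunr q
  refine endgame hp2 homega hdeg (artin K M) (frobIdeal K M) ?_ ?_ hrec ?_ ?_
  · intro q hq hq0
    have h1 := artinFun_asIdeal K M ⟨q, hq, hq0⟩
    have h2 := frobIdeal_asIdeal K M ⟨q, hq, hq0⟩
    rw [artin_apply]
    exact h1.trans h2.symm
  · intro τ q _ _
    exact restrictScalars_frobIdeal_smul hunr' τ q
  · exact exists_prime_frobIdeal_ne_one hdeg hunr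
  · intro ζ hζ sig hsig q hq ℓ hℓ hℓp hN
    obtain ⟨J, hJ⟩ := exists_span_eq_prod hp2 q hℓ hℓp hN
    refine ⟨J, hJ.trans (Finset.prod_congr rfl fun c hc => ?_)⟩
    have hsc : sig c = cycloAut K (Stickelberger.expUnit p c) := by
      apply AlgEquiv.coe_toAlgHom_injective
      apply (hζ.powerBasis ℚ).algHom_ext
      rw [IsPrimitiveRoot.powerBasis_gen]
      show sig c ζ = cycloAut K (Stickelberger.expUnit p c) ζ
      rw [hsig c hc, cycloAut_apply_of_isPrimitiveRoot _ hζ, val_expUnit hc]
    rw [hsc]

end

/-- **NoExt from reciprocity**, packaged: if for every everywhere unramified abelian extension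
`M / K` of degree `p` of `K = ℚ(ζ_p)` the Artin map kills principal ideals, then `NoExt p`. -/
theorem noExt_of_reciprocity {p : ℕ} [hp : Fact p.Prime] (hp2 : p ≠ 2)
    (hrec : ∀ (K M : Type) [Field K] [NumberField K] [IsCyclotomicExtension {p} ℚ K] [Field M]
      [NumberField M] [Algebra K M] [IsAbelianGalois K M] [IsGalois ℚ M],
      finrank K M = p → (∀ q : HeightOneSpectrum (𝓞 K), UnramAt K M q) →
      ∀ (I : (Ideal (𝓞 K))⁰), (I : Ideal (𝓞 K)).IsPrincipal → artin K M I = 1) :
    NoExt p := by
  intro K M _ _ _ _ _ _ _ _ hdeg hunr homega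
  haveI : IsAbelianGalois K M := isAbelianGalois_of_finrank_eq_prime hdeg
  exact false_of_reciprocity hp2 hdeg hunr homega
    (hrec K M hdeg (fun q => unramAt_of_forall_isUnramifiedAt hunr q))

end Fermat.Agent.ExtVan
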