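/-
S14 long shot, brick [A2] assembled (helper7): an obstruction cocycle `b` produces an extension
`M / K` as forbidden by `NoExt p`:
* `K = ℚ(ζ_p)`, `M` = fixed field of `{χ = 1, b = 0}` (helper5's `BridgeGalois.lean`: degree `p`,
  Galois over `ℚ`, `ω⁻¹`-action);
* `M / K` is everywhere unramified (`BridgeUnram.lean`).
-/
import Fermat.Agent.ExtVan.NoExt
import Fermat.Agent.ExtVan.BridgeGalois
import Fermat.Agent.ExtVan.BridgeUnram

set_option autoImplicit false
set_option linter.style.haveILetI false
set_option linter.unusedSectionVars false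

noncomputable section

namespace Fermat.Agent.ExtVan

open NumberField Module ExtCitation

variable {p : ℕ} [Fact p.Prime]

/-- **[A2]** (bridge): `NoExt p` excludes obstruction cocycles. -/
theorem not_isObstruction_of_noExt (h : NoExt p) (b : GQ → ZMod p) : ¬ IsObstruction p b := by
  intro hb
  obtain ⟨K, M, hKM, hfin, hgal, hcyc, hM, hK, hrest⟩ := bridgeGalois hb
  letI := (IntermediateField.inclusion hKM).toAlgebra
  obtain ⟨hdeg, hgalK, homega⟩ := hrest
  haveI : NumberField M := ⟨⟩
  haveI : FiniteDimensional ℚ K := FiniteDimensional.left ℚ K M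
  haveI : NumberField K := ⟨⟩
  have hunr : IsUnramifiedEverywhere K M :=
    isUnramifiedAt_of_isObstruction hb K M hKM hM (fun σ hσ => (hK σ).mp hσ)
  exact h K M hdeg hunr homega

end Fermat.Agent.ExtVan
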