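import Mathlib

/-!
# Covering bounds

`HasCoverBound S d C`: for every `0 < ε ≤ 1` the set `S` is covered by at most `C * ε⁻¹ ^ d`
closed balls of radius `ε`.  Lipschitz images of `d`-dimensional boxes have such a bound.
This is the quantitative input for lattice point counting with a power-saving error term.
-/

set_option autoImplicit false

namespace Fermat.Agent.ExtVan.IdealCount

open Metric Set

/-- `S` is covered, for every `0 < ε ≤ 1`, by at most `C * ε⁻¹ ^ d` closed balls of radius `ε`. -/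
def HasCoverBound {E : Type*} [PseudoMetricSpace E] (S : Set E) (d : ℕ) (C : ℝ) : Prop :=
  ∀ ε : ℝ, 0 < ε → ε ≤ 1 →
    ∃ T : Finset E, (T.card : ℝ) ≤ C * ε⁻¹ ^ d ∧ S ⊆ ⋃ c ∈ T, closedBall c ε

section basic

variable {E : Type*} [PseudoMetricSpace E]

theorem HasCoverBound.mono {S S' : Set E} {d : ℕ} {C : ℝ} (h : HasCoverBound S' d C)
    (hS : S ⊆ S') : HasCoverBound S d C := fun ε h0 h1 => by
  obtain ⟨T, hT, hcov⟩ := h ε h0 h1
  exact ⟨T, hT, hS.trans hcov⟩

theorem HasCoverBound.mono_const {S : Set E} {d : ℕ} {C C' : ℝ} (h : HasCoverBound S d C)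
    (hC : C ≤ C') : HasCoverBound S d C' := fun ε h0 h1 => by
  obtain ⟨T, hT, hcov⟩ := h ε h0 h1
  refine ⟨T, hT.trans ?_, hcov⟩
  have : (0:ℝ) ≤ ε⁻¹ ^ d := by positivity
  exact mul_le_mul_of_nonneg_right hC this

theorem hasCoverBound_empty (d : ℕ) : HasCoverBound (∅ : Set E) d 0 := fun ε _ _ =>
  ⟨∅, by simp, by simp⟩

theorem HasCoverBound.const_nonneg {S : Set E} {d : ℕ} {C : ℝ} (h : HasCoverBound S d C) :
    0 ≤ C := by
  obtain ⟨T, hT, -⟩ := h 1 one_pos le_rfl
  have : (0:ℝ) ≤ T.card := by positivity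
  simpa using this.trans hT

theorem HasCoverBound.union {S S' : Set E} {d : ℕ} {C C' : ℝ} (h : HasCoverBound S d C)
    (h' : HasCoverBound S' d C') : HasCoverBound (S ∪ S') d (C + C') := fun ε h0 h1 => by
  classical
  obtain ⟨T, hT, hcov⟩ := h ε h0 h1
  obtain ⟨T', hT', hcov'⟩ := h' ε h0 h1
  refine ⟨T ∪ T', ?_, ?_⟩
  · have h1 : ((T ∪ T').card : ℝ) ≤ T.card + T'.card := by
      exact_mod_cast Finset.card_union_le T T'
    rw [add_mul]
    linarith
  · rintro x (hx | hx)
    · obtain ⟨c, hc, hxc⟩ := mem_iUnion₂.mp (hcov hx)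
      exact mem_iUnion₂.mpr ⟨c, Finset.mem_union_left _ hc, hxc⟩
    · obtain ⟨c, hc, hxc⟩ := mem_iUnion₂.mp (hcov' hx)
      exact mem_iUnion₂.mpr ⟨c, Finset.mem_union_right _ hc, hxc⟩

theorem hasCoverBound_biUnion {ι : Type*} (s : Finset ι) (S : ι → Set E) (d : ℕ) (C : ι → ℝ)
    (h : ∀ i ∈ s, HasCoverBound (S i) d (C i)) :
    HasCoverBound (⋃ i ∈ s, S i) d (∑ i ∈ s, C i) := by
  classical
  induction s using Finset.induction_on with
  | empty => simpa using hasCoverBound_empty (E := E) d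
  | insert a s ha ih =>
    rw [Finset.set_biUnion_insert, Finset.sum_insert ha]
    exact (h a (Finset.mem_insert_self a s)).union
      (ih fun i hi => h i (Finset.mem_insert_of_mem hi))

end basic

section lipschitz

variable {E F : Type*} [PseudoMetricSpace E] [PseudoMetricSpace F]

/-- Lipschitz images preserve cover bounds (the constant changes). -/
theorem HasCoverBound.image {S : Set E} {d : ℕ} {C : ℝ} (h : HasCoverBound S d C)
    {f : E → F} {K : NNReal} (hf : LipschitzOnWith K f S) :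
    HasCoverBound (f '' S) d (C * (2 * (K + 1)) ^ d) := fun ε h0 h1 => by
  classical
  have hK : (0:ℝ) < 2 * (K + 1) := by positivity
  set ε' : ℝ := ε / (2 * (K + 1)) with hε'
  have hε'0 : 0 < ε' := div_pos h0 hK
  have hε'1 : ε' ≤ 1 := by
    rw [hε', div_le_one hK]
    have : (0:ℝ) ≤ K := K.2
    linarith
  obtain ⟨T, hT, hcov⟩ := h ε' hε'0 hε'1
  -- choose a point of `S` in each ball meeting `S`
  let g : E → F := fun c =>
    if hc : (S ∩ closedBall c ε').Nonempty then f hc.choose else f c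
  refine ⟨T.image g, ?_, ?_⟩
  · have h1 : ((T.image g).card : ℝ) ≤ T.card := by exact_mod_cast Finset.card_image_le
    refine h1.trans (hT.trans (le_of_eq ?_))
    rw [hε', inv_div, div_pow, mul_pow, mul_assoc]
    congr 1
    rw [div_eq_mul_inv, ← inv_pow, mul_comm]
  · rintro _ ⟨x, hx, rfl⟩
    obtain ⟨c, hc, hxc⟩ := mem_iUnion₂.mp (hcov hx)
    refine mem_iUnion₂.mpr ⟨g c, Finset.mem_image_of_mem g hc, ?_⟩
    have hne : (S ∩ closedBall c ε').Nonempty := ⟨x, hx, hxc⟩
    have hg : g c = f hne.choose := dif_pos hne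
    obtain ⟨hyS, hyc⟩ := hne.choose_spec
    rw [hg, mem_closedBall]
    have hd : dist x hne.choose ≤ 2 * ε' := by
      calc dist x hne.choose ≤ dist x c + dist c hne.choose := dist_triangle _ _ _
        _ ≤ ε' + ε' := add_le_add (mem_closedBall.mp hxc) (mem_closedBall'.mp hyc)
        _ = 2 * ε' := by ring
    calc dist (f x) (f hne.choose) ≤ K * dist x hne.choose := hf.dist_le_mul x hx _ hyS
      _ ≤ K * (2 * ε') := mul_le_mul_of_nonneg_left hd K.2
      _ ≤ ε := by
        rw [hε']
        have : (K:ℝ) * (2 * (ε / (2 * (K + 1)))) = ε * (K / (K + 1)) := by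
          field_simp
        rw [this]
        have hK1 : (K:ℝ) / (K + 1) ≤ 1 := by
          rw [div_le_one (by positivity)]
          linarith
        calc ε * (K / (K + 1)) ≤ ε * 1 := mul_le_mul_of_nonneg_left hK1 h0.le
          _ = ε := mul_one ε

end lipschitz

end Fermat.Agent.ExtVan.IdealCount
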