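import Fermat.Agent.ExtVan.CoverBound

/-!
# Boxes with degenerate sides have small covering numbers
-/

set_option autoImplicit false

namespace Fermat.Agent.ExtVan.IdealCount

open Metric Set

variable {ι : Type*} [Fintype ι]

/-- A box in `ι → ℝ` with sides of length at most one, degenerate in the directions of `Z`,
is covered by at most `(2/ε) ^ (card ι - card Z)` closed balls of radius `ε`. -/
theorem hasCoverBound_box [DecidableEq ι] (a b : ι → ℝ) (Z : Finset ι)
    (hab1 : ∀ k, b k - a k ≤ 1) (hZ : ∀ k ∈ Z, a k = b k) :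
    HasCoverBound (Set.Icc a b) (Fintype.card ι - Z.card) (2 ^ (Fintype.card ι - Z.card)) := by
  intro ε h0 h1
  set M : ℕ := ⌊ε⁻¹⌋₊ with hM
  have hinv1 : (1:ℝ) ≤ ε⁻¹ := by
    rw [one_le_inv₀ h0]; exact h1
  have hMle : ((M + 1 : ℕ) : ℝ) ≤ 2 * ε⁻¹ := by
    have : (M : ℝ) ≤ ε⁻¹ := Nat.floor_le (by positivity)
    push_cast
    linarith
  let grid : ι → Finset ℝ := fun k =>
    if k ∈ Z then {a k} else (Finset.range (M + 1)).image fun m : ℕ => a k + m * ε
  have hgridZ : ∀ k ∈ Z, (grid k).card = 1 := fun k hk => by simp [grid, hk]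
  have hgridnZ : ∀ k, k ∉ Z → (grid k).card ≤ M + 1 := fun k hk => by
    simp only [grid, hk, if_false]
    exact Finset.card_image_le.trans (by simp)
  refine ⟨Fintype.piFinset grid, ?_, ?_⟩
  · rw [Fintype.card_piFinset]
    have hsplit : ∏ k, (grid k).card = (∏ k ∈ Z, (grid k).card) * ∏ k ∈ Zᶜ, (grid k).card := by
      rw [← Finset.prod_union (disjoint_compl_right), Finset.union_compl]
    have h1' : ∏ k ∈ Z, (grid k).card = 1 := Finset.prod_eq_one hgridZ
    have h2' : ∏ k ∈ Zᶜ, (grid k).card ≤ (M + 1) ^ (Zᶜ).card :=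
      Finset.prod_le_pow_card _ _ _ fun k hk => hgridnZ k (Finset.mem_compl.mp hk)
    have hcard : (Zᶜ).card = Fintype.card ι - Z.card := Finset.card_compl Z
    rw [hsplit, h1', one_mul]
    calc ((∏ k ∈ Zᶜ, (grid k).card : ℕ) : ℝ) ≤ ((M + 1) ^ (Zᶜ).card : ℕ) := by
            exact_mod_cast h2'
      _ = ((M + 1 : ℕ) : ℝ) ^ (Fintype.card ι - Z.card) := by rw [hcard]; push_cast; rfl
      _ ≤ (2 * ε⁻¹) ^ (Fintype.card ι - Z.card) :=
            pow_le_pow_left₀ (by positivity) hMle _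
      _ = 2 ^ (Fintype.card ι - Z.card) * ε⁻¹ ^ (Fintype.card ι - Z.card) := mul_pow _ _ _
  · intro u hu
    have hu1 : ∀ k, a k ≤ u k := fun k => hu.1 k
    have hu2 : ∀ k, u k ≤ b k := fun k => hu.2 k
    let g : ι → ℝ := fun k => if k ∈ Z then a k else a k + (⌊(u k - a k) / ε⌋₊ : ℝ) * ε
    have hg : g ∈ Fintype.piFinset grid := by
      rw [Fintype.mem_piFinset]
      intro k
      by_cases hk : k ∈ Z
      · simp [g, grid, hk]
      · simp only [g, grid, hk, if_false, Finset.mem_image, Finset.mem_range]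
        refine ⟨⌊(u k - a k) / ε⌋₊, ?_, rfl⟩
        rw [Nat.lt_succ_iff]
        apply Nat.floor_le_floor
        rw [div_eq_mul_inv]
        calc (u k - a k) * ε⁻¹ ≤ 1 * ε⁻¹ := by
              apply mul_le_mul_of_nonneg_right _ (by positivity)
              linarith [hu2 k, hab1 k]
          _ = ε⁻¹ := one_mul _
    refine mem_iUnion₂.mpr ⟨g, hg, ?_⟩
    rw [mem_closedBall, dist_pi_le_iff h0.le]
    intro k
    by_cases hk : k ∈ Z
    · have : u k = a k := le_antisymm ((hu2 k).trans (hZ k hk).ge) (hu1 k)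
      simp [g, hk, this, h0.le]
    · simp only [g, hk, if_false]
      have hnn : 0 ≤ (u k - a k) / ε := div_nonneg (by linarith [hu1 k]) h0.le
      have hfl1 : (⌊(u k - a k) / ε⌋₊ : ℝ) ≤ (u k - a k) / ε := Nat.floor_le hnn
      have hfl2 : (u k - a k) / ε < ⌊(u k - a k) / ε⌋₊ + 1 := Nat.lt_floor_add_one _
      rw [Real.dist_eq, abs_le]
      have e1 : (⌊(u k - a k) / ε⌋₊ : ℝ) * ε ≤ u k - a k := by
        calc (⌊(u k - a k) / ε⌋₊ : ℝ) * ε ≤ (u k - a k) / ε * ε :=
              mul_le_mul_of_nonneg_right hfl1 h0.le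
          _ = u k - a k := div_mul_cancel₀ _ h0.ne'
      have e2 : u k - a k < (⌊(u k - a k) / ε⌋₊ + 1 : ℝ) * ε := by
        calc u k - a k = (u k - a k) / ε * ε := (div_mul_cancel₀ _ h0.ne').symm
          _ < (⌊(u k - a k) / ε⌋₊ + 1 : ℝ) * ε := mul_lt_mul_of_pos_right hfl2 h0
      constructor <;> nlinarith

/-- The Lipschitz image of a box with one degenerate side in an `n`-dimensional space has
a cover bound of exponent `n - 1`. -/
theorem hasCoverBound_image_box [DecidableEq ι] {F : Type*} [PseudoMetricSpace F]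
    (a b : ι → ℝ) (Z : Finset ι)
    (hab1 : ∀ k, b k - a k ≤ 1) (hZ : ∀ k ∈ Z, a k = b k)
    {f : (ι → ℝ) → F} {K : NNReal} (hf : LipschitzOnWith K f (Set.Icc a b)) :
    HasCoverBound (f '' Set.Icc a b) (Fintype.card ι - Z.card)
      (2 ^ (Fintype.card ι - Z.card) * (2 * (K + 1)) ^ (Fintype.card ι - Z.card)) :=
  (hasCoverBound_box a b Z hab1 hZ).image hf

end Fermat.Agent.ExtVan.IdealCount
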