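/-
S14 long shot, brick (C5-deg1) (helper3): in a Galois extension `L/F` of number fields of degree
`≥ 2` there is a prime of `F` of ABSOLUTE degree one (prime absolute norm), outside any given
finite set `S` containing the ramified primes, with NO prime of `L` of relative degree one above
it.  Analytic input: only `∑_q N q ^ (-s) = log (1/(s-1)) + O(1)` for `F` (lower bound) and `L`
(upper bound), `s → 1⁺`.
-/
import Mathlib

set_option autoImplicit false
set_option linter.style.haveILetI false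
set_option linter.unusedSectionVars false

open NumberField IsDedekindDomain Ideal

namespace Fermat.Agent.ExtVan

namespace DegOne

section Absolute


variable {F : Type*} [Field F] [NumberField F]

/-- the rational prime below a prime of `𝓞 F`. -/
noncomputable def primeBelow (q : HeightOneSpectrum (𝓞 F)) : ℕ := absNorm (under ℤ q.asIdeal)

lemma primeBelow_prime (q : HeightOneSpectrum (𝓞 F)) : (primeBelow q).Prime := by
  haveI : NeZero q.asIdeal := ⟨q.ne_bot⟩
  exact Nat.absNorm_under_prime q.asIdeal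

lemma liesOver_primeBelow (q : HeightOneSpectrum (𝓞 F)) :
    q.asIdeal.LiesOver (span {(primeBelow q : ℤ)}) :=
  Int.liesOver_span_absNorm q.asIdeal

lemma primeBelow_pow_inertiaDeg (q : HeightOneSpectrum (𝓞 F)) :
    primeBelow q ^ q.asIdeal.inertiaDeg ℤ = absNorm q.asIdeal := by
  haveI := liesOver_primeBelow q
  exact Ideal.pow_inertiaDeg (primeBelow q) q.asIdeal

lemma primeBelow_sq_le_of_not_prime (q : HeightOneSpectrum (𝓞 F))
    (hq : ¬ (absNorm q.asIdeal).Prime) : primeBelow q ^ 2 ≤ absNorm q.asIdeal := by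
  rw [← primeBelow_pow_inertiaDeg q]
  have hpos : 0 < q.asIdeal.inertiaDeg ℤ := Ideal.inertiaDeg_pos q.asIdeal ℤ
  have h2 : 2 ≤ q.asIdeal.inertiaDeg ℤ := by
    by_contra h
    have h1 : q.asIdeal.inertiaDeg ℤ = 1 := by omega
    apply hq
    rw [← primeBelow_pow_inertiaDeg q, h1, pow_one]
    exact primeBelow_prime q
  exact Nat.pow_le_pow_right (primeBelow_prime q).pos h2

/-- at most `[F:ℚ]` primes of `F` lie over a given rational prime. -/
lemma card_filter_primeBelow_le (A : Finset (HeightOneSpectrum (𝓞 F))) (m : ℕ) :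
    (A.filter fun q => primeBelow q = m).card ≤ Module.finrank ℚ F := by
  classical
  by_cases hm : m.Prime
  swap
  · have : A.filter (fun q => primeBelow q = m) = ∅ := by
      ext q
      simp only [Finset.mem_filter, Finset.notMem_empty, iff_false, not_and]
      intro _ h
      exact hm (h ▸ primeBelow_prime q)
    rw [this, Finset.card_empty]; exact Nat.zero_le _
  haveI : Fact m.Prime := ⟨hm⟩
  set P : Ideal ℤ := span {(m : ℤ)} with hP
  have hfin : (P.primesOver (𝓞 F)).Finite := IsDedekindDomain.primesOver_finite _ _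
  letI : Fintype (P.primesOver (𝓞 F)) := hfin.fintype
  have hsum := Ideal.sum_ramification_inertia_eq_finrank P (𝓞 F)
  rw [RingOfIntegers.rank] at hsum
  -- each term is ≥ 1
  have hcard : Fintype.card (P.primesOver (𝓞 F)) ≤ Module.finrank ℚ F := by
    rw [← hsum, Fintype.card_eq_sum_ones]
    refine Finset.sum_le_sum fun Q _ => ?_
    haveI := Q.2.1
    haveI := Q.2.2
    have he : Q.1.ramificationIdx ℤ ≠ 0 := (Ideal.ramificationIdx_pos Q.1 ℤ).ne'
    have hf : 0 < Q.1.inertiaDeg ℤ := Ideal.inertiaDeg_pos Q.1 ℤ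
    exact Nat.one_le_iff_ne_zero.mpr (Nat.mul_ne_zero he hf.ne')
  refine le_trans ?_ hcard
  -- injection
  have hmem : ∀ q ∈ A.filter (fun q => primeBelow q = m), q.asIdeal ∈ P.primesOver (𝓞 F) := by
    intro q hq
    rw [Finset.mem_filter] at hq
    refine ⟨q.isPrime, ?_⟩
    rw [hP, ← hq.2]
    exact liesOver_primeBelow q
  have h1 : (A.filter fun q => primeBelow q = m).card ≤ hfin.toFinset.card := by
    refine Finset.card_le_card_of_injOn (fun q => q.asIdeal) ?_ ?_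
    · intro q hq
      simp only [Set.Finite.coe_toFinset]
      exact hmem q hq
    · intro q _ q' _ h
      exact HeightOneSpectrum.ext h
  refine le_trans h1 (le_of_eq ?_)
  exact Set.Finite.card_toFinset hfin

/-- primes of absolute degree `≥ 2` contribute `O(1)`. -/
lemma sum_not_prime_le (A : Finset (HeightOneSpectrum (𝓞 F)))
    (hA : ∀ q ∈ A, ¬ (absNorm q.asIdeal).Prime) {s : ℝ} (hs : 1 ≤ s) :
    ∑ q ∈ A, (absNorm q.asIdeal : ℝ) ^ (-s) ≤
      (Module.finrank ℚ F : ℝ) * ∑' m : ℕ, 1 / (m : ℝ) ^ 2 := by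
  classical
  have hsum : Summable fun m : ℕ => 1 / (m : ℝ) ^ 2 :=
    Real.summable_one_div_nat_pow.mpr one_lt_two
  have h1 : ∀ q ∈ A, (absNorm q.asIdeal : ℝ) ^ (-s) ≤ 1 / ((primeBelow q : ℕ) : ℝ) ^ 2 := by
    intro q hq
    have hle := primeBelow_sq_le_of_not_prime q (hA q hq)
    have hpos : (0 : ℝ) < (primeBelow q : ℝ) ^ 2 := by
      have := (primeBelow_prime q).pos
      positivity
    have hle' : ((primeBelow q : ℝ)) ^ 2 ≤ (absNorm q.asIdeal : ℝ) := by exact_mod_cast hle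
    have h1le : (1 : ℝ) ≤ (absNorm q.asIdeal : ℝ) := by
      have : (1 : ℝ) ≤ (primeBelow q : ℝ) ^ 2 := by
        have := (primeBelow_prime q).one_lt.le
        have h' : (1 : ℝ) ≤ (primeBelow q : ℝ) := by exact_mod_cast this
        nlinarith
      linarith
    calc (absNorm q.asIdeal : ℝ) ^ (-s) ≤ (absNorm q.asIdeal : ℝ) ^ (-(1 : ℝ)) :=
          Real.rpow_le_rpow_of_exponent_le h1le (by linarith)
      _ = ((absNorm q.asIdeal : ℝ))⁻¹ := Real.rpow_neg_one _
      _ ≤ ((primeBelow q : ℝ) ^ 2)⁻¹ := inv_anti₀ hpos hle'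
      _ = 1 / ((primeBelow q : ℕ) : ℝ) ^ 2 := (one_div _).symm
  calc ∑ q ∈ A, (absNorm q.asIdeal : ℝ) ^ (-s)
      ≤ ∑ q ∈ A, 1 / ((primeBelow q : ℕ) : ℝ) ^ 2 := Finset.sum_le_sum h1
    _ = ∑ m ∈ A.image primeBelow, ((A.filter fun q => primeBelow q = m).card : ℝ) *
          (1 / (m : ℝ) ^ 2) := by
        rw [Finset.sum_comp (fun m : ℕ => 1 / (m : ℝ) ^ 2) primeBelow]
        refine Finset.sum_congr rfl fun m _ => ?_
        rw [nsmul_eq_mul]
    _ ≤ ∑ m ∈ A.image primeBelow, (Module.finrank ℚ F : ℝ) * (1 / (m : ℝ) ^ 2) := by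
        refine Finset.sum_le_sum fun m _ => ?_
        refine mul_le_mul_of_nonneg_right ?_ (by positivity)
        exact_mod_cast card_filter_primeBelow_le A m
    _ = (Module.finrank ℚ F : ℝ) * ∑ m ∈ A.image primeBelow, 1 / (m : ℝ) ^ 2 := by
        rw [Finset.mul_sum]
    _ ≤ (Module.finrank ℚ F : ℝ) * ∑' m : ℕ, 1 / (m : ℝ) ^ 2 := by
        refine mul_le_mul_of_nonneg_left ?_ (by positivity)
        exact hsum.sum_le_tsum _ (fun m _ => by positivity)

end Absolute

section Relative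


variable {F L : Type*} [Field F] [NumberField F] [Field L] [NumberField L] [Algebra F L]

/-- the primes of `L` above a prime `q` of `F`. -/
def aboveSet (L : Type*) [Field L] [NumberField L] [Algebra F L] (q : HeightOneSpectrum (𝓞 F)) :
    Set (HeightOneSpectrum (𝓞 L)) := {Q | Q.asIdeal.LiesOver q.asIdeal}

lemma image_asIdeal_aboveSet (q : HeightOneSpectrum (𝓞 F)) :
    HeightOneSpectrum.asIdeal '' aboveSet L q = q.asIdeal.primesOver (𝓞 L) := by
  ext P
  constructor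
  · rintro ⟨Q, hQ, rfl⟩
    exact ⟨Q.isPrime, hQ⟩
  · rintro ⟨hP, hPq⟩
    haveI := hPq
    have hne : P ≠ ⊥ := Ideal.ne_bot_of_liesOver_of_ne_bot q.ne_bot P
    exact ⟨⟨P, hP, hne⟩, hPq, rfl⟩

lemma asIdeal_injective {R : Type*} [CommRing R] :
    Function.Injective (HeightOneSpectrum.asIdeal (R := R)) := fun _ _ h =>
  HeightOneSpectrum.ext h

lemma aboveSet_finite (q : HeightOneSpectrum (𝓞 F)) : (aboveSet L q).Finite := by
  have h : (HeightOneSpectrum.asIdeal '' aboveSet L q).Finite := by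
    rw [image_asIdeal_aboveSet]
    exact IsDedekindDomain.primesOver_finite _ _
  exact Set.Finite.of_finite_image h asIdeal_injective.injOn

lemma ncard_aboveSet (q : HeightOneSpectrum (𝓞 F)) :
    (aboveSet L q).ncard = (q.asIdeal.primesOver (𝓞 L)).ncard := by
  rw [← image_asIdeal_aboveSet, Set.ncard_image_of_injective _ asIdeal_injective]

lemma aboveSet_disjoint {q q' : HeightOneSpectrum (𝓞 F)} (h : q ≠ q') :
    Disjoint (aboveSet L q) (aboveSet L q') := by
  rw [Set.disjoint_left]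
  intro Q hQ hQ'
  apply h
  apply HeightOneSpectrum.ext
  have h1 : q.asIdeal = Q.asIdeal.under (𝓞 F) := hQ.over
  have h2 : q'.asIdeal = Q.asIdeal.under (𝓞 F) := hQ'.over
  rw [h1, h2]

end Relative

section Galois


variable {F L : Type*} [Field F] [NumberField F] [Field L] [NumberField L] [Algebra F L]
  [IsGalois F L]


/-- if a prime `q` of `F`, unramified in the Galois extension `L`, has a prime above of the same
absolute norm, then it has exactly `[L:F]` primes above, all of the same norm. -/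
theorem ncard_primesOver_of_absNorm_eq (q : HeightOneSpectrum (𝓞 F))
    (hunr : ∀ Q : Ideal (𝓞 L), Q.IsPrime → Q.LiesOver q.asIdeal → Q.ramificationIdx (𝓞 F) = 1)
    (Q₀ : Ideal (𝓞 L)) [hQ₀ : Q₀.IsPrime] [hQ₀q : Q₀.LiesOver q.asIdeal]
    (hN : absNorm Q₀ = absNorm q.asIdeal) :
    (q.asIdeal.primesOver (𝓞 L)).ncard = Module.finrank F L ∧
      ∀ Q : Ideal (𝓞 L), Q.IsPrime → Q.LiesOver q.asIdeal → absNorm Q = absNorm q.asIdeal := by
  haveI : q.asIdeal.IsPrime := q.isPrime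
  have hcount := Ideal.ncard_primesOver_mul_ramificationIdxIn_mul_inertiaDegIn
    q.asIdeal (𝓞 L) Gal(L/F)
  have he : q.asIdeal.ramificationIdxIn (𝓞 L) = 1 := by
    rw [Ideal.ramificationIdxIn_eq_ramificationIdx q.asIdeal Q₀ Gal(L/F)]
    exact hunr Q₀ hQ₀ hQ₀q
  have hNq : 1 < absNorm q.asIdeal := by
    have h1 : absNorm q.asIdeal ≠ 0 := by
      rw [Ne, Ideal.absNorm_eq_zero_iff]; exact q.ne_bot
    have h2 : absNorm q.asIdeal ≠ 1 := by
      rw [Ne, Ideal.absNorm_eq_one_iff]; exact q.isPrime.ne_top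
    omega
  have hf0 : Q₀.inertiaDeg (𝓞 F) = 1 := by
    have h := Ideal.absNorm_pow_inertiaDeg q.asIdeal Q₀
    rw [hN] at h
    conv_rhs at h => rw [← pow_one (absNorm q.asIdeal)]
    exact Nat.pow_right_injective hNq h
  have hf : q.asIdeal.inertiaDegIn (𝓞 L) = 1 := by
    rw [Ideal.inertiaDegIn_eq_inertiaDeg q.asIdeal Q₀ Gal(L/F)]
    exact hf0
  rw [he, hf, mul_one, mul_one, IsGalois.card_aut_eq_finrank] at hcount
  refine ⟨hcount, ?_⟩
  intro Q hQ hQq
  have h := Ideal.absNorm_pow_inertiaDeg q.asIdeal Q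
  rw [← Ideal.inertiaDegIn_eq_inertiaDeg q.asIdeal Q Gal(L/F), hf, pow_one] at h
  exact h.symm

/-- the split primes of `F` carry at most `1/[L:F]` of the prime-sum of `L`. -/
theorem mul_sum_le_tsum (A : Finset (HeightOneSpectrum (𝓞 F)))
    (hA : ∀ q ∈ A,
      (∀ Q : Ideal (𝓞 L), Q.IsPrime → Q.LiesOver q.asIdeal → Q.ramificationIdx (𝓞 F) = 1) ∧
      ∃ Q : HeightOneSpectrum (𝓞 L), Q.asIdeal.LiesOver q.asIdeal ∧
        absNorm Q.asIdeal = absNorm q.asIdeal)
    {s : ℝ} (hsum : Summable fun Q : HeightOneSpectrum (𝓞 L) => (absNorm Q.asIdeal : ℝ) ^ (-s)) :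
    (Module.finrank F L : ℝ) * ∑ q ∈ A, (absNorm q.asIdeal : ℝ) ^ (-s) ≤
      ∑' Q : HeightOneSpectrum (𝓞 L), (absNorm Q.asIdeal : ℝ) ^ (-s) := by
  classical
  set g : HeightOneSpectrum (𝓞 L) → ℝ := fun Q => (absNorm Q.asIdeal : ℝ) ^ (-s) with hg
  set ab : HeightOneSpectrum (𝓞 F) → Finset (HeightOneSpectrum (𝓞 L)) :=
    fun q => (aboveSet_finite (L := L) q).toFinset with hab
  have hdisj : (A : Set (HeightOneSpectrum (𝓞 F))).PairwiseDisjoint ab := by
    intro q _ q' _ hqq'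
    simp only [hab, Function.onFun]
    rw [Set.Finite.disjoint_toFinset]
    exact aboveSet_disjoint hqq'
  have h1 : ∑ Q ∈ A.biUnion ab, g Q = ∑ q ∈ A, ∑ Q ∈ ab q, g Q := Finset.sum_biUnion hdisj
  have h2 : ∀ q ∈ A, ∑ Q ∈ ab q, g Q =
      (Module.finrank F L : ℝ) * (absNorm q.asIdeal : ℝ) ^ (-s) := by
    intro q hq
    obtain ⟨hunr, Q₀, hQ₀q, hN⟩ := hA q hq
    haveI := Q₀.isPrime
    haveI := hQ₀q
    obtain ⟨hcard, hall⟩ := ncard_primesOver_of_absNorm_eq q hunr Q₀.asIdeal hN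
    have hconst : ∀ Q ∈ ab q, g Q = (absNorm q.asIdeal : ℝ) ^ (-s) := by
      intro Q hQ
      simp only [hab, Set.Finite.mem_toFinset] at hQ
      simp only [hg]
      rw [hall Q.asIdeal Q.isPrime hQ]
    rw [Finset.sum_congr rfl hconst, Finset.sum_const, nsmul_eq_mul]
    congr 1
    rw [← hcard, ← ncard_aboveSet, Set.ncard_eq_toFinset_card _ (aboveSet_finite q)]
  calc (Module.finrank F L : ℝ) * ∑ q ∈ A, (absNorm q.asIdeal : ℝ) ^ (-s)
      = ∑ q ∈ A, ∑ Q ∈ ab q, g Q := by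
        rw [Finset.mul_sum]
        exact (Finset.sum_congr rfl h2).symm
    _ = ∑ Q ∈ A.biUnion ab, g Q := h1.symm
    _ ≤ ∑' Q, g Q := hsum.sum_le_tsum _ (fun Q _ => by positivity)

lemma rpow_neg_le_one (q : HeightOneSpectrum (𝓞 F)) {s : ℝ} (hs : 0 ≤ s) :
    (absNorm q.asIdeal : ℝ) ^ (-s) ≤ 1 := by
  have h1 : absNorm q.asIdeal ≠ 0 := by
    rw [Ne, Ideal.absNorm_eq_zero_iff]; exact q.ne_bot
  have h1' : (1 : ℝ) ≤ (absNorm q.asIdeal : ℝ) := by
    exact_mod_cast Nat.one_le_iff_ne_zero.mpr h1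
  exact Real.rpow_le_one_of_one_le_of_nonpos h1' (by linarith)

end Galois

end DegOne

section Main

open DegOne

variable {F L : Type*} [Field F] [NumberField F] [Field L] [NumberField L] [Algebra F L]
  [IsGalois F L]

/-- **Degree-one primes that do not split completely.**  -/
theorem exists_degOne_prime_not_split (hn : 2 ≤ Module.finrank F L)
    (hsF : ∀ s : ℝ, 1 < s →
      Summable fun q : HeightOneSpectrum (𝓞 F) => (absNorm q.asIdeal : ℝ) ^ (-s))
    (hsL : ∀ s : ℝ, 1 < s →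
      Summable fun Q : HeightOneSpectrum (𝓞 L) => (absNorm Q.asIdeal : ℝ) ^ (-s))
    (hF : ∃ B : ℝ, ∀ s ∈ Set.Ioc (1 : ℝ) 2, Real.log (1 / (s - 1)) - B ≤
      ∑' q : HeightOneSpectrum (𝓞 F), (absNorm q.asIdeal : ℝ) ^ (-s))
    (hL : ∃ B : ℝ, ∀ s ∈ Set.Ioc (1 : ℝ) 2,
      ∑' Q : HeightOneSpectrum (𝓞 L), (absNorm Q.asIdeal : ℝ) ^ (-s) ≤
        Real.log (1 / (s - 1)) + B)
    (S : Finset (HeightOneSpectrum (𝓞 F)))
    (hS : ∀ q ∉ S, ∀ Q : Ideal (𝓞 L), Q.IsPrime → Q.LiesOver q.asIdeal →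
      Q.ramificationIdx (𝓞 F) = 1) :
    ∃ q ∉ S, (absNorm q.asIdeal).Prime ∧ ∀ Q : HeightOneSpectrum (𝓞 L),
      Q.asIdeal.LiesOver q.asIdeal → absNorm Q.asIdeal ≠ absNorm q.asIdeal := by
  classical
  by_contra hcon
  push Not at hcon
  obtain ⟨BF, hBF⟩ := hF
  obtain ⟨BL, hBL⟩ := hL
  set C₀ : ℝ := (Module.finrank ℚ F : ℝ) * ∑' m : ℕ, 1 / (m : ℝ) ^ 2 with hC₀
  set n : ℝ := (Module.finrank F L : ℝ) with hn'
  have hn2 : (2 : ℝ) ≤ n := by rw [hn']; exact_mod_cast hn
  -- the key upper bound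
  have hkey : ∀ s ∈ Set.Ioc (1 : ℝ) 2,
      ∑' q : HeightOneSpectrum (𝓞 F), (absNorm q.asIdeal : ℝ) ^ (-s) ≤
        (Real.log (1 / (s - 1)) + BL) / n + S.card + C₀ := by
    intro s hs
    refine (hsF s hs.1).tsum_le_of_sum_le fun A => ?_
    -- split `A`
    set A1 := A.filter fun q => q ∈ S with hA1
    set A2 := (A.filter fun q => q ∉ S).filter fun q => (absNorm q.asIdeal).Prime with hA2
    set A3 := (A.filter fun q => q ∉ S).filter fun q => ¬ (absNorm q.asIdeal).Prime with hA3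
    have hsplit : ∑ q ∈ A, (absNorm q.asIdeal : ℝ) ^ (-s) =
        ∑ q ∈ A1, (absNorm q.asIdeal : ℝ) ^ (-s) +
          (∑ q ∈ A2, (absNorm q.asIdeal : ℝ) ^ (-s) +
            ∑ q ∈ A3, (absNorm q.asIdeal : ℝ) ^ (-s)) := by
      rw [hA2, hA3, Finset.sum_filter_add_sum_filter_not, hA1,
        Finset.sum_filter_add_sum_filter_not]
    have h1 : ∑ q ∈ A1, (absNorm q.asIdeal : ℝ) ^ (-s) ≤ S.card := by
      calc ∑ q ∈ A1, (absNorm q.asIdeal : ℝ) ^ (-s) ≤ ∑ q ∈ A1, (1 : ℝ) :=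
            Finset.sum_le_sum fun q _ => rpow_neg_le_one q (by linarith [hs.1])
        _ = (A1.card : ℝ) := by simp
        _ ≤ S.card := by
            have : A1 ⊆ S := fun q hq => (Finset.mem_filter.mp hq).2
            exact_mod_cast Finset.card_le_card this
    have h2 : ∑ q ∈ A2, (absNorm q.asIdeal : ℝ) ^ (-s) ≤ (Real.log (1 / (s - 1)) + BL) / n := by
      have hA2' : ∀ q ∈ A2,
          (∀ Q : Ideal (𝓞 L), Q.IsPrime → Q.LiesOver q.asIdeal → Q.ramificationIdx (𝓞 F) = 1) ∧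
          ∃ Q : HeightOneSpectrum (𝓞 L), Q.asIdeal.LiesOver q.asIdeal ∧
            absNorm Q.asIdeal = absNorm q.asIdeal := by
        intro q hq
        rw [hA2, Finset.mem_filter, Finset.mem_filter] at hq
        exact ⟨hS q hq.1.2, hcon q hq.1.2 hq.2⟩
      have := mul_sum_le_tsum (L := L) A2 hA2' (hsL s hs.1)
      have h' := this.trans (hBL s hs)
      rw [le_div_iff₀ (by linarith), mul_comm]
      exact h'
    have h3 : ∑ q ∈ A3, (absNorm q.asIdeal : ℝ) ^ (-s) ≤ C₀ := by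
      refine sum_not_prime_le A3 (fun q hq => ?_) hs.1.le
      rw [hA3, Finset.mem_filter] at hq
      exact hq.2
    rw [hsplit]
    linarith
  -- choose `s`
  set T : ℝ := 2 * BF + BL + 2 * S.card + 2 * C₀ with hT
  set x₀ : ℝ := |T| + |BL| + 1 with hx₀
  have hx₀pos : 0 < x₀ := by positivity
  set s : ℝ := 1 + Real.exp (-x₀) with hs
  have hs_mem : s ∈ Set.Ioc (1 : ℝ) 2 := by
    refine ⟨by rw [hs]; linarith [Real.exp_pos (-x₀)], ?_⟩
    have : Real.exp (-x₀) ≤ 1 := Real.exp_le_one_iff.mpr (by linarith)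
    rw [hs]; linarith
  have hlog : Real.log (1 / (s - 1)) = x₀ := by
    rw [hs, add_sub_cancel_left, one_div, ← Real.exp_neg, neg_neg, Real.log_exp]
  have hlow := hBF s hs_mem
  have hup := hkey s hs_mem
  rw [hlog] at hlow hup
  have hnonneg : 0 ≤ x₀ + BL := by
    have := neg_abs_le BL
    have := abs_nonneg T
    rw [hx₀]; linarith
  have hdiv : (x₀ + BL) / n ≤ (x₀ + BL) / 2 :=
    div_le_div_of_nonneg_left hnonneg (by norm_num) hn2
  have hTle : T ≤ |T| := le_abs_self T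
  have hBLabs := abs_nonneg BL
  have : x₀ ≤ T := by
    rw [hT]; linarith
  rw [hx₀] at this
  linarith

end Main

end Fermat.Agent.ExtVan
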