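/-
S14 long shot, brick (C5-deg1), Frobenius form (helper3): in a Galois extension `L/F` of number
fields of degree `≥ 2` there is a prime `q` of `F` of absolute degree one, outside any given finite
set containing the ramified primes, with `frob F L q ≠ 1`.
-/
import Mathlib
import Fermat.Agent.ExtVan.Artin
import Fermat.Agent.ExtVan.SecondIneq.NormPrimes
import Fermat.Agent.ExtVan.DegOneInert

set_option autoImplicit false
set_option linter.style.haveILetI false
set_option linter.unusedSectionVars false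

open NumberField IsDedekindDomain Ideal

namespace Fermat.Agent.ExtVan

variable {F L : Type*} [Field F] [NumberField F] [Field L] [NumberField L] [Algebra F L]

/-- `exists_degOne_prime_not_split` with the summability hypotheses discharged. -/
theorem exists_degOne_prime_not_split' [IsGalois F L] (hn : 2 ≤ Module.finrank F L)
    (hF : ∃ B : ℝ, ∀ s ∈ Set.Ioc (1 : ℝ) 2, Real.log (1 / (s - 1)) - B ≤
      ∑' q : HeightOneSpectrum (𝓞 F), (absNorm q.asIdeal : ℝ) ^ (-s))
    (hL : ∃ B : ℝ, ∀ s ∈ Set.Ioc (1 : ℝ) 2,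
      ∑' Q : HeightOneSpectrum (𝓞 L), (absNorm Q.asIdeal : ℝ) ^ (-s) ≤
        Real.log (1 / (s - 1)) + B)
    (S : Finset (HeightOneSpectrum (𝓞 F)))
    (hS : ∀ q ∉ S, ∀ Q : Ideal (𝓞 L), Q.IsPrime → Q.LiesOver q.asIdeal →
      Q.ramificationIdx (𝓞 F) = 1) :
    ∃ q ∉ S, (absNorm q.asIdeal).Prime ∧ ∀ Q : HeightOneSpectrum (𝓞 L),
      Q.asIdeal.LiesOver q.asIdeal → absNorm Q.asIdeal ≠ absNorm q.asIdeal :=
  exists_degOne_prime_not_split hn (fun _ hs => SecondIneq.summable_primeNorm_rpow F hs)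
    (fun _ hs => SecondIneq.summable_primeNorm_rpow L hs) hF hL S hS

/-- **A degree-one prime with non-trivial Frobenius**, outside any finite set containing the
ramified primes. -/
theorem exists_degOne_prime_frob_ne_one [IsAbelianGalois F L] (hn : 2 ≤ Module.finrank F L)
    (hF : ∃ B : ℝ, ∀ s ∈ Set.Ioc (1 : ℝ) 2, Real.log (1 / (s - 1)) - B ≤
      ∑' q : HeightOneSpectrum (𝓞 F), (absNorm q.asIdeal : ℝ) ^ (-s))
    (hL : ∃ B : ℝ, ∀ s ∈ Set.Ioc (1 : ℝ) 2,
      ∑' Q : HeightOneSpectrum (𝓞 L), (absNorm Q.asIdeal : ℝ) ^ (-s) ≤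
        Real.log (1 / (s - 1)) + B)
    (S : Finset (HeightOneSpectrum (𝓞 F)))
    (hS : ∀ q ∉ S, ∀ Q : Ideal (𝓞 L), Q.IsPrime → Q.LiesOver q.asIdeal →
      Q.ramificationIdx (𝓞 F) = 1) :
    ∃ q ∉ S, (absNorm q.asIdeal).Prime ∧ frob F L q ≠ 1 := by
  obtain ⟨q, hqS, hqp, hq⟩ := exists_degOne_prime_not_split' hn hF hL S hS
  refine ⟨q, hqS, hqp, fun h1 => ?_⟩
  set Q : Ideal (𝓞 L) := (primeAbove F L q).1 with hQ
  have hf : Q.inertiaDeg (𝓞 F) = 1 := inertiaDeg_eq_one_of_frob_eq_one h1 Q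
  have hN := Ideal.absNorm_pow_inertiaDeg q.asIdeal Q
  rw [hf, pow_one] at hN
  exact hq ⟨Q, inferInstance, ne_bot_of_liesOver F L q Q⟩ inferInstance hN.symm

end Fermat.Agent.ExtVan
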