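import Fermat.Agent.ExtVan.CoverBox

/-!
# The frontier of `normLeOne K` has a cover bound of exponent `n - 1`

We parametrize a superset of the frontier of
`NumberField.mixedEmbedding.fundamentalCone.normLeOne K` by finitely many `C¹` images of
faces of a cube of dimension `n = [K : ℚ]`.
-/

set_option autoImplicit false

namespace Fermat.Agent.ExtVan.IdealCount

open NumberField NumberField.InfinitePlace NumberField.mixedEmbedding
  NumberField.mixedEmbedding.fundamentalCone NumberField.Units dirichletUnitTheorem
open Metric Set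
open scoped Classical

variable (K : Type*) [Field K] [NumberField K]

/-- Index type of the parameters: one radial/unit coordinate for each infinite place and one
angle for each complex place. -/
abbrev ParamIdx : Type _ := InfinitePlace K ⊕ {w : InfinitePlace K // IsComplex w}

/-- The radial part of the parametrization. -/
noncomputable def radParam (u : ParamIdx K → ℝ) : realSpace K :=
  u (Sum.inl w₀) • expMapBasis (fun w => if w = w₀ then 0 else u (Sum.inl w))

/-- The parametrization of (a superset of) the frontier of `normLeOne K`. -/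
noncomputable def frontierParam (σ : {w : InfinitePlace K // IsReal w} → ℝ)
    (u : ParamIdx K → ℝ) : mixedSpace K :=
  (fun w => σ w * radParam K u w.1,
   fun w => (radParam K u w.1 : ℂ) * Complex.exp ((2 * Real.pi * u (Sum.inr w) : ℝ) * Complex.I))

theorem expMapBasis_eq_fun :
    (expMapBasis : realSpace K → realSpace K) =
      fun x w => Real.exp ((w.mult : ℝ)⁻¹ * (completeBasis K).equivFun.symm x w) := by
  funext x w
  rw [expMapBasis_apply, expMap_apply]

theorem contDiff_expMapBasis : ContDiff ℝ 1 (expMapBasis : realSpace K → realSpace K) := by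
  rw [expMapBasis_eq_fun]
  refine contDiff_pi.mpr fun w => Real.contDiff_exp.comp (contDiff_const.mul ?_)
  have h1 : ContDiff ℝ 1 fun x : realSpace K => (completeBasis K).equivFunL.symm x :=
    (completeBasis K).equivFunL.symm.contDiff
  exact (contDiff_apply ℝ ℝ w).comp h1

theorem contDiff_radParam : ContDiff ℝ 1 (radParam K) := by
  unfold radParam
  refine ContDiff.smul (contDiff_apply ℝ ℝ _) ((contDiff_expMapBasis K).comp ?_)
  refine contDiff_pi.mpr fun w => ?_
  split_ifs
  · exact contDiff_const
  · exact contDiff_apply ℝ ℝ _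

theorem contDiff_frontierParam (σ : {w : InfinitePlace K // IsReal w} → ℝ) :
    ContDiff ℝ 1 (frontierParam K σ) := by
  unfold frontierParam
  refine ContDiff.prodMk (contDiff_pi.mpr fun w => ?_) (contDiff_pi.mpr fun w => ?_)
  · exact contDiff_const.mul ((contDiff_apply ℝ ℝ w.1).comp (contDiff_radParam K))
  · have h1 : ContDiff ℝ 1 fun u : ParamIdx K → ℝ => (radParam K u w.1 : ℂ) :=
      Complex.ofRealCLM.contDiff.comp ((contDiff_apply ℝ ℝ w.1).comp (contDiff_radParam K))
    have h2 : ContDiff ℝ 1 fun u : ParamIdx K → ℝ =>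
        (((2 * Real.pi * u (Sum.inr w) : ℝ)) : ℂ) * Complex.I := by
      refine ContDiff.mul (Complex.ofRealCLM.contDiff.comp ?_) contDiff_const
      exact contDiff_const.mul (contDiff_apply ℝ ℝ _)
    exact h1.mul (Complex.contDiff_exp.comp h2)


/-- Lower corner of the face `u j = e` of the unit cube. -/
noncomputable def faceLo (j : ParamIdx K) (e : ℝ) : ParamIdx K → ℝ := fun k => if k = j then e else 0

/-- Upper corner of the face `u j = e` of the unit cube. -/
noncomputable def faceHi (j : ParamIdx K) (e : ℝ) : ParamIdx K → ℝ := fun k => if k = j then e else 1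

theorem exists_hasCoverBound_frontierParam_face (σ : {w : InfinitePlace K // IsReal w} → ℝ)
    (j : ParamIdx K) (e : ℝ) :
    ∃ C, HasCoverBound (frontierParam K σ '' Set.Icc (faceLo K j e) (faceHi K j e))
      (Fintype.card (ParamIdx K) - 1) C := by
  obtain ⟨L, hL⟩ := LocallyLipschitzOn.exists_lipschitzOnWith_of_compact
    (isCompact_Icc (a := faceLo K j e) (b := faceHi K j e))
    ((contDiff_frontierParam K σ).locallyLipschitz.locallyLipschitzOn
      (s := Set.Icc (faceLo K j e) (faceHi K j e)))
  have := hasCoverBound_image_box (faceLo K j e) (faceHi K j e) {j}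
    (fun k => by unfold faceLo faceHi; split_ifs <;> norm_num)
    (fun k hk => by
      rw [Finset.mem_singleton] at hk
      simp [faceLo, faceHi, hk]) hL
  rw [Finset.card_singleton] at this
  exact ⟨_, this⟩

/-- The sign vectors. -/
noncomputable def signVectors : Finset ({w : InfinitePlace K // IsReal w} → ℝ) :=
  Fintype.piFinset fun _ => ({1, -1} : Finset ℝ)

/-- The faces used to cover the frontier. -/
noncomputable def faceIndices : Finset (ParamIdx K × ℝ) :=
  (Finset.univ.image (Sum.inl : InfinitePlace K → ParamIdx K)) ×ˢ ({0, 1} : Finset ℝ)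

theorem frontier_normLeOne_subset :
    frontier (normLeOne K) ⊆ ⋃ σ ∈ signVectors K, ⋃ f ∈ faceIndices K,
      frontierParam K σ '' Set.Icc (faceLo K f.1 f.2) (faceHi K f.1 f.2) := by
  intro x hx
  have h1 : normAtAllPlaces x ∈ compactSet K :=
    closure_normLeOne_subset K (frontier_subset_closure hx)
  have h2 : normAtAllPlaces x ∉ expMapBasis '' interior (paramSet K) := fun h =>
    hx.2 (subset_interior_normLeOne K h)
  obtain ⟨c, hc, _, ⟨y, hy, rfl⟩, hxe⟩ := h1
  have hxe' : c • expMapBasis y = normAtAllPlaces x := hxe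
  have hy0 : y w₀ = 0 := by
    have := hy w₀ (Set.mem_univ _)
    simpa using this
  have hy1 : ∀ w, w ≠ w₀ → y w ∈ Set.Icc (0:ℝ) 1 := fun w hw => by
    have := hy w (Set.mem_univ _)
    simpa [hw] using this
  -- the angles
  let θ : {w : InfinitePlace K // IsComplex w} → ℝ := fun w =>
    if 0 ≤ (x.2 w).arg then (x.2 w).arg / (2 * Real.pi) else (x.2 w).arg / (2 * Real.pi) + 1
  have hpi : (0:ℝ) < 2 * Real.pi := by positivity
  have hθ : ∀ w, θ w ∈ Set.Icc (0:ℝ) 1 := fun w => by
    have harg := Complex.arg_mem_Ioc (x.2 w)
    simp only [θ]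
    split_ifs with h
    · refine ⟨div_nonneg h hpi.le, ?_⟩
      rw [div_le_one hpi]
      linarith [harg.2, Real.pi_pos]
    · push Not at h
      refine ⟨?_, ?_⟩
      · have : -1 ≤ (x.2 w).arg / (2 * Real.pi) := by
          rw [le_div_iff₀ hpi]
          linarith [harg.1, Real.pi_pos]
        linarith
      · have : (x.2 w).arg / (2 * Real.pi) ≤ 0 :=
          div_nonpos_of_nonpos_of_nonneg h.le hpi.le
        linarith
  have hθexp : ∀ w, Complex.exp ((2 * Real.pi * θ w : ℝ) * Complex.I) =
      Complex.exp ((x.2 w).arg * Complex.I) := fun w => by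
    simp only [θ]
    split_ifs with h
    · congr 2
      field_simp
    · have : ((2 * Real.pi * ((x.2 w).arg / (2 * Real.pi) + 1) : ℝ) : ℂ) * Complex.I =
          (x.2 w).arg * Complex.I + 2 * Real.pi * Complex.I := by
        push_cast
        field_simp
      rw [this, Complex.exp_periodic]
  -- the signs
  let σ : {w : InfinitePlace K // IsReal w} → ℝ := fun w => if 0 ≤ x.1 w then 1 else -1
  have hσ : σ ∈ signVectors K := by
    rw [signVectors, Fintype.mem_piFinset]
    intro w
    simp only [σ]
    split_ifs <;> simp
  -- the parameter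
  let u : ParamIdx K → ℝ := Sum.elim (fun w => if w = w₀ then c else y w) θ
  have hrad : radParam K u = normAtAllPlaces x := by
    rw [← hxe']
    simp only [radParam, u, Sum.elim_inl, if_true]
    congr 1
    congr 1
    funext w
    split_ifs with hw
    · rw [hw, hy0]
    · rfl
  have hxu : frontierParam K σ u = x := by
    refine Prod.ext (funext fun w => ?_) (funext fun w => ?_)
    · simp only [frontierParam, hrad, normAtAllPlaces_apply,
        normAtPlace_apply_of_isReal w.2, σ]
      split_ifs with h
      · rw [one_mul, Real.norm_of_nonneg h]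
      · push Not at h
        rw [Real.norm_of_nonpos h.le]; ring
    · simp only [frontierParam, hrad, normAtAllPlaces_apply,
        normAtPlace_apply_of_isComplex w.2]
      have : u (Sum.inr w) = θ w := rfl
      rw [this, hθexp w]
      exact Complex.norm_mul_exp_arg_mul_I _
  have hu01 : ∀ k, u k ∈ Set.Icc (0:ℝ) 1 := by
    rintro (w | w)
    · simp only [u, Sum.elim_inl]
      split_ifs with hw
      · exact hc
      · exact hy1 w hw
    · exact hθ w
  -- on which face?
  have hface : ∃ f ∈ faceIndices K, u f.1 = f.2 := by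
    by_contra hno
    push Not at hno
    have hmem : ∀ (w : InfinitePlace K) (e : ℝ), e = 0 ∨ e = 1 →
        ((Sum.inl w : ParamIdx K), e) ∈ faceIndices K := fun w e he => by
      rw [faceIndices, Finset.mem_product]
      refine ⟨Finset.mem_image_of_mem _ (Finset.mem_univ w), ?_⟩
      rcases he with rfl | rfl <;> simp
    have hc0 : c ≠ 0 := fun h => by
      have := hno (Sum.inl w₀, 0) (hmem w₀ 0 (Or.inl rfl))
      simp [u, h] at this
    have hc1 : c ≠ 1 := fun h => by
      have := hno (Sum.inl w₀, 1) (hmem w₀ 1 (Or.inr rfl))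
      simp [u, h] at this
    have hy01 : ∀ w, w ≠ w₀ → y w ≠ 0 ∧ y w ≠ 1 := fun w hw => by
      constructor
      · intro h
        have := hno (Sum.inl w, 0) (hmem w 0 (Or.inl rfl))
        simp [u, hw, h] at this
      · intro h
        have := hno (Sum.inl w, 1) (hmem w 1 (Or.inr rfl))
        simp [u, hw, h] at this
    have hcpos : 0 < c := lt_of_le_of_ne hc.1 (Ne.symm hc0)
    have hclt : c < 1 := lt_of_le_of_ne hc.2 hc1
    apply h2
    refine ⟨fun w => if w = w₀ then Real.log c else y w, ?_, ?_⟩
    · rw [interior_paramSet, Set.mem_univ_pi]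
      intro w
      by_cases hw : w = w₀
      · simp only [hw, if_true]
        exact Real.log_neg hcpos hclt
      · simp only [hw, if_false]
        exact ⟨lt_of_le_of_ne (hy1 w hw).1 (Ne.symm (hy01 w hw).1),
          lt_of_le_of_ne (hy1 w hw).2 (hy01 w hw).2⟩
    · rw [expMapBasis_apply'', ← hxe']
      simp only [if_true, Real.exp_log hcpos]
      congr 1
      congr 1
      funext w
      split_ifs with hw
      · rw [hw, hy0]
      · rfl
  obtain ⟨f, hf, huf⟩ := hface
  refine mem_iUnion₂.mpr ⟨σ, hσ, mem_iUnion₂.mpr ⟨f, hf, u, ?_, hxu⟩⟩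
  constructor
  · intro k
    simp only [faceLo]
    split_ifs with hk
    · rw [hk, huf]
    · exact (hu01 k).1
  · intro k
    simp only [faceHi]
    split_ifs with hk
    · rw [hk, huf]
    · exact (hu01 k).2


theorem card_paramIdx : Fintype.card (ParamIdx K) = Module.finrank ℚ K := by
  rw [Fintype.card_sum, ← card_add_two_mul_card_eq_rank K, card_eq_nrRealPlaces_add_nrComplexPlaces]
  unfold nrComplexPlaces
  ring

/-- The frontier of `normLeOne K` has a cover bound of exponent `[K : ℚ] - 1`. -/
theorem exists_hasCoverBound_frontier_normLeOne :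
    ∃ C, HasCoverBound (frontier (normLeOne K)) (Module.finrank ℚ K - 1) C := by
  choose C hC using fun (σ : {w : InfinitePlace K // IsReal w} → ℝ) (f : ParamIdx K × ℝ) =>
    exists_hasCoverBound_frontierParam_face K σ f.1 f.2
  rw [card_paramIdx] at hC
  refine ⟨∑ σ ∈ signVectors K, ∑ f ∈ faceIndices K, C σ f, ?_⟩
  refine HasCoverBound.mono ?_ (frontier_normLeOne_subset K)
  refine hasCoverBound_biUnion _ _ _ _ fun σ _ => ?_
  exact hasCoverBound_biUnion _ _ _ _ fun f _ => hC σ f

/-- The same for the preimage in the euclidean mixed space. -/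
theorem exists_hasCoverBound_frontier_preimage_normLeOne :
    ∃ C, HasCoverBound (frontier ((euclidean.toMixed K) ⁻¹' (normLeOne K)))
      (Module.finrank ℚ K - 1) C := by
  obtain ⟨C, hC⟩ := exists_hasCoverBound_frontier_normLeOne K
  have h1 : frontier ((euclidean.toMixed K) ⁻¹' (normLeOne K)) =
      (euclidean.toMixed K).symm '' frontier (normLeOne K) := by
    rw [← (euclidean.toMixed K).coe_toHomeomorph, ← Homeomorph.preimage_frontier,
      (euclidean.toMixed K).coe_toHomeomorph, ContinuousLinearEquiv.image_symm_eq_preimage]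
  rw [h1]
  obtain ⟨L, hL⟩ : ∃ L, LipschitzWith L (euclidean.toMixed K).symm :=
    ⟨_, (euclidean.toMixed K).symm.lipschitz⟩
  exact ⟨_, hC.image (hL.lipschitzOnWith (s := frontier (normLeOne K)))⟩

end Fermat.Agent.ExtVan.IdealCount
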