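import Fermat.Agent.ExtVan.LatticeCountError
import Fermat.Agent.ExtVan.NormLeOneFrontier

/-!
# Counting ideals in an ideal class with a power saving error term

For a number field `K` of degree `n` and a class `C` of its class group,
`#{I ≠ 0 : N I ≤ s, [I] = C} = κ s + O(s ^ (1 - 1/n))` where `κ` is the constant of
Mathlib's `NumberField.Ideal.tendsto_norm_le_and_mk_eq_div_atTop` (independent of `C`).

The two bijections `card_eq_aux₁`, `equivAux₂` are adapted from the (private) auxiliary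
statements of `Mathlib/NumberTheory/NumberField/Ideal/Asymptotics.lean` (Apache 2.0,
author Xavier Roblot).
-/

set_option autoImplicit false

namespace Fermat.Agent.ExtVan.IdealCount

open Ideal NumberField NumberField.InfinitePlace NumberField.mixedEmbedding
  NumberField.mixedEmbedding.euclidean NumberField.mixedEmbedding.fundamentalCone
  NumberField.Units Submodule Filter Topology MeasureTheory
open scoped nonZeroDivisors Real

variable (K : Type*) [Field K] [NumberField K]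

/-- The constant of the ideal counting asymptotics. -/
noncomputable def idealDensity : ℝ :=
  (2 ^ nrRealPlaces K * (2 * π) ^ nrComplexPlaces K * regulator K) /
    (torsionOrder K * Real.sqrt |discr K|)

variable {K}
variable {C : ClassGroup (𝓞 K)} {J : (Ideal (𝓞 K))⁰} {s : ℝ}

theorem card_eq_aux₁ (hJ : ClassGroup.mk0 J = C⁻¹) :
    Nat.card {I : (Ideal (𝓞 K))⁰ // absNorm (I : Ideal (𝓞 K)) ≤ s ∧ ClassGroup.mk0 I = C}
      = Nat.card {I : (Ideal (𝓞 K))⁰ // (J : Ideal (𝓞 K)) ∣ I ∧ IsPrincipal (I : Ideal (𝓞 K)) ∧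
        absNorm (I : Ideal (𝓞 K)) ≤ s * absNorm (J : Ideal (𝓞 K))} := by
  simp_rw [← nonZeroDivisors_dvd_iff_dvd_coe]
  refine Nat.card_congr ?_
  refine ((Equiv.dvd J).subtypeEquiv fun I ↦ ?_).trans
    (Equiv.subtypeSubtypeEquivSubtypeInter (fun I : (Ideal (𝓞 K))⁰ ↦ J ∣ I) _)
  rw [← ClassGroup.mk0_eq_one_iff (SetLike.coe_mem _)]
  simp_rw [Equiv.dvd_apply, Submonoid.coe_mul, ← Submonoid.mul_def, _root_.map_mul, hJ,
    inv_mul_eq_one, Nat.cast_mul, mul_comm s, eq_comm, and_comm, and_congr_left_iff]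
  exact fun _ ↦
    (mul_le_mul_iff_of_pos_left (Nat.cast_pos.mpr (absNorm_pos_of_nonZeroDivisors J))).symm

open scoped Classical in
/-- Lattice points of the cone versus elements of `idealSet`. -/
noncomputable def equivAux₂ :
    ↑({x | x ∈ (toMixed K) ⁻¹' fundamentalCone K ∧ mixedEmbedding.norm ((toMixed K) x) ≤ s} ∩
      (ZLattice.comap ℝ (idealLattice K ((FractionalIdeal.mk0 K) J)) (toMixed K).toLinearMap))
        ≃ {a : idealSet K J // mixedEmbedding.norm (a : mixedSpace K) ≤ s} := by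
  rw [ZLattice.coe_comap]
  refine (((toMixed K).toEquiv.image _).trans (Equiv.subtypeEquivProp ?_)).trans
    (Equiv.subtypeSubtypeEquivSubtypeInter _ (mixedEmbedding.norm · ≤ s)).symm
  ext
  simp_rw [mem_idealSet, Set.mem_image, Set.mem_inter_iff, Set.mem_preimage, SetLike.mem_coe,
    mem_idealLattice, FractionalIdeal.coe_mk0]
  constructor
  · rintro ⟨_, ⟨⟨hx₁, hx₂⟩, _, ⟨x, hx₃, rfl⟩, h⟩, rfl⟩
    exact ⟨⟨hx₁, x, hx₃, h⟩, hx₂⟩
  · rintro ⟨⟨hx₁, ⟨x, hx₂, rfl⟩⟩, hx₃⟩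
    exact ⟨(toMixed K).symm (mixedEmbedding K x), ⟨⟨hx₁, hx₃⟩, ⟨(x : K), by simp [hx₂], rfl⟩⟩, rfl⟩


open scoped Classical in
/-- Core estimate with an unspecified main term constant. -/
theorem exists_bound_card_aux (C : ClassGroup (𝓞 K)) :
    ∃ κ B : ℝ, ∀ s : ℝ, 1 ≤ s →
      |(Nat.card {I : (Ideal (𝓞 K))⁰ // absNorm (I : Ideal (𝓞 K)) ≤ s ∧ ClassGroup.mk0 I = C} : ℝ)
        - κ * s| ≤ B * s ^ (1 - (Module.finrank ℚ K : ℝ)⁻¹) := by
  obtain ⟨J, hJ⟩ := ClassGroup.mk0_surjective C⁻¹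
  set L := ZLattice.comap ℝ (mixedEmbedding.idealLattice K (FractionalIdeal.mk0 K J))
    (toMixed K).toLinearMap with hL
  set X : Set (euclidean.mixedSpace K) := (toMixed K) ⁻¹' (fundamentalCone K) with hX
  set F : euclidean.mixedSpace K → ℝ := fun x ↦ mixedEmbedding.norm (toMixed K x) with hF
  have hD : {x | x ∈ X ∧ F x ≤ 1} = (toMixed K) ⁻¹' (normLeOne K) := by
    ext x; simp [hX, hF]
  obtain ⟨C₀, hC₀⟩ := exists_hasCoverBound_frontier_preimage_normLeOne K
  have hcone : ∀ ⦃x⦄ ⦃r : ℝ⦄, x ∈ X → 0 < r → r • x ∈ X := fun x r hx hr => by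
    rwa [hX, Set.mem_preimage, map_smul, smul_mem_iff_mem hr.ne']
  have hhom : ∀ x ⦃r : ℝ⦄, 0 ≤ r →
      F (r • x) = r ^ Module.finrank ℝ (euclidean.mixedSpace K) * F x := fun x r hr => by
    simp only [hF]
    rw [map_smul, mixedEmbedding.norm_smul, euclidean.finrank, abs_of_nonneg hr]
  have hbdd : Bornology.IsBounded {x | x ∈ X ∧ F x ≤ 1} := by
    rw [hD]
    exact (toMixed K).antilipschitz.isBounded_preimage (isBounded_normLeOne K)
  have hcov : HasCoverBound (frontier {x | x ∈ X ∧ F x ≤ 1})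
      (Module.finrank ℝ (euclidean.mixedSpace K) - 1) C₀ := by
    rw [hD, euclidean.finrank]; exact hC₀
  obtain ⟨B, hB0, hB⟩ := exists_bound_card_le_inter L hcone hhom hbdd hcov
  rw [euclidean.finrank] at hB
  set NJ : ℝ := (absNorm (J : Ideal (𝓞 K)) : ℝ) with hNJ
  have hNJ1 : 1 ≤ NJ := by
    rw [hNJ]; exact_mod_cast absNorm_pos_of_nonZeroDivisors J
  have hNJ0 : 0 < NJ := lt_of_lt_of_le one_pos hNJ1
  set w : ℝ := (torsionOrder K : ℝ) with hw
  have hw0 : 0 < w := by rw [hw]; exact_mod_cast (torsionOrder_pos K)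
  set cv : ℝ := ZLattice.covolume L with hcv
  have hcv0 : 0 < cv := ZLattice.covolume_pos L volume
  set V : ℝ := volume.real {x | x ∈ X ∧ F x ≤ 1} with hV
  set e : ℝ := 1 - (Module.finrank ℚ K : ℝ)⁻¹ with he
  have he0 : 0 ≤ e := by
    rw [he, sub_nonneg]
    apply inv_le_one_of_one_le₀
    exact_mod_cast (Module.finrank_pos : 0 < Module.finrank ℚ K)
  refine ⟨NJ * V / (w * cv), B * NJ ^ e / (w * cv), fun s hs => ?_⟩
  have hs0 : 0 < s := lt_of_lt_of_le one_pos hs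
  have hc1 : 1 ≤ s * NJ := one_le_mul_of_one_le_of_one_le hs hNJ1
  have hcard : (Nat.card {I : (Ideal (𝓞 K))⁰ //
        absNorm (I : Ideal (𝓞 K)) ≤ s ∧ ClassGroup.mk0 I = C} : ℝ) * w =
      (Nat.card ↥({x | x ∈ X ∧ F x ≤ s * NJ} ∩ (L : Set (euclidean.mixedSpace K))) : ℝ) := by
    rw [card_eq_aux₁ hJ, hw, ← Nat.cast_mul, card_isPrincipal_dvd_norm_le,
      ← Nat.card_congr (equivAux₂ (K := K) (J := J) (s := s * NJ))]
  have hmain := hB (s * NJ) hc1
  rw [← hcard] at hmain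
  set N : ℝ := (Nat.card {I : (Ideal (𝓞 K))⁰ //
        absNorm (I : Ideal (𝓞 K)) ≤ s ∧ ClassGroup.mk0 I = C} : ℝ) with hN
  have hwc : 0 < w * cv := mul_pos hw0 hcv0
  have key : N - NJ * V / (w * cv) * s = (N * w * cv - s * NJ * V) / (w * cv) := by
    field_simp
  rw [key, abs_div, abs_of_pos hwc, div_le_iff₀ hwc]
  refine hmain.trans (le_of_eq ?_)
  rw [Real.mul_rpow hs0.le hNJ0.le]
  field_simp


/-- **Ideal counting with a power saving error term**: the number of nonzero integral ideals of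
norm at most `s` in a fixed ideal class is `idealDensity K * s + O(s ^ (1 - 1/n))`. -/
theorem exists_bound_card_norm_le_and_mk_eq (C : ClassGroup (𝓞 K)) :
    ∃ B : ℝ, ∀ s : ℝ, 1 ≤ s →
      |(Nat.card {I : (Ideal (𝓞 K))⁰ // absNorm (I : Ideal (𝓞 K)) ≤ s ∧ ClassGroup.mk0 I = C} : ℝ)
        - idealDensity K * s| ≤ B * s ^ (1 - (Module.finrank ℚ K : ℝ)⁻¹) := by
  obtain ⟨κ, B, h⟩ := exists_bound_card_aux C
  suffices hκ : κ = idealDensity K by rw [← hκ]; exact ⟨B, h⟩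
  have hn : (0:ℝ) < (Module.finrank ℚ K : ℝ)⁻¹ :=
    inv_pos.mpr (by exact_mod_cast (Module.finrank_pos : 0 < Module.finrank ℚ K))
  have hlim : Tendsto (fun s : ℝ ↦
      (Nat.card {I : (Ideal (𝓞 K))⁰ //
        absNorm (I : Ideal (𝓞 K)) ≤ s ∧ ClassGroup.mk0 I = C} : ℝ) / s) atTop (𝓝 κ) := by
    rw [tendsto_iff_dist_tendsto_zero]
    have hz : Tendsto (fun s : ℝ => |B| * s ^ (-(Module.finrank ℚ K : ℝ)⁻¹)) atTop (𝓝 0) := by
      simpa using (tendsto_rpow_neg_atTop hn).const_mul |B|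
    refine squeeze_zero' (Eventually.of_forall fun _ => dist_nonneg) ?_ hz
    filter_upwards [eventually_ge_atTop 1] with s hs
    have hs0 : 0 < s := lt_of_lt_of_le one_pos hs
    rw [Real.dist_eq]
    have e1 : (Nat.card {I : (Ideal (𝓞 K))⁰ //
        absNorm (I : Ideal (𝓞 K)) ≤ s ∧ ClassGroup.mk0 I = C} : ℝ) / s - κ =
        ((Nat.card {I : (Ideal (𝓞 K))⁰ //
        absNorm (I : Ideal (𝓞 K)) ≤ s ∧ ClassGroup.mk0 I = C} : ℝ) - κ * s) / s := by
      field_simp
    rw [e1, abs_div, abs_of_pos hs0, div_le_iff₀ hs0]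
    refine (h s hs).trans ?_
    have e2 : s ^ (-(Module.finrank ℚ K : ℝ)⁻¹) * s = s ^ (1 - (Module.finrank ℚ K : ℝ)⁻¹) := by
      rw [sub_eq_add_neg, add_comm, Real.rpow_add hs0, Real.rpow_one]
    rw [mul_assoc, e2]
    exact mul_le_mul_of_nonneg_right (le_abs_self B) (Real.rpow_nonneg hs0.le _)
  exact tendsto_nhds_unique hlim (NumberField.Ideal.tendsto_norm_le_and_mk_eq_div_atTop K C)

end Fermat.Agent.ExtVan.IdealCount
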