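import Fermat.Agent.ExtVan.CoverBound

/-!
# Lattice point counting with an error term

If the frontier of a bounded measurable set `A` of a finite dimensional real inner product space
is covered by `N` closed balls of radius one, then the number of points of a lattice in `A` times
the covolume differs from the volume of `A` by at most `N` times a constant depending only on the
lattice.  With a cover bound of exponent `n - 1` for the frontier of `D` this gives
`#(L ∩ t • D) * covol = t ^ n * vol D + O(t ^ (n - 1))`.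
-/

set_option autoImplicit false

namespace Fermat.Agent.ExtVan.IdealCount

open MeasureTheory Metric Set Submodule Module ZSpan Bornology
open scoped Pointwise

section core

variable {E : Type*} [NormedAddCommGroup E] [InnerProductSpace ℝ E] [FiniteDimensional ℝ E]
  [MeasurableSpace E] [BorelSpace E]
variable {ι : Type*} [Fintype ι] (b : Basis ι ℝ E)

/-- A preconnected set meeting `A` and its complement meets the frontier of `A`. -/
theorem exists_mem_frontier_of_isPreconnected {X : Type*} [TopologicalSpace X] {S A : Set X}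
    (hS : IsPreconnected S) {x y : X} (hx : x ∈ S) (hxA : x ∈ A) (hy : y ∈ S) (hyA : y ∉ A) :
    ∃ z ∈ S, z ∈ frontier A := by
  by_contra hcon
  push Not at hcon
  have hsub : S ⊆ interior A ∪ (closure A)ᶜ := by
    intro z hz
    by_cases hzc : z ∈ closure A
    · left
      by_contra hzi
      exact hcon z hz ⟨hzc, hzi⟩
    · right; exact hzc
  have hdisj : Disjoint (interior A) (closure A)ᶜ :=
    Set.disjoint_left.mpr fun z hz hz' => hz' (subset_closure (interior_subset hz))
  have hxi : x ∈ interior A := by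
    by_contra hxi
    exact hcon x hx ⟨subset_closure hxA, hxi⟩
  have := hS.subset_left_of_subset_union isOpen_interior isClosed_closure.isOpen_compl hdisj hsub
    ⟨x, hx, hxi⟩
  exact hyA (interior_subset (this hy))

/-- The cell of the lattice point `ℓ`. -/
theorem floor_eq_iff_mem_vadd {ℓ : E} (hℓ : ℓ ∈ span ℤ (Set.range b)) (x : E) :
    (floor b x : E) = ℓ ↔ x ∈ ℓ +ᵥ fundamentalDomain b := by
  constructor
  · intro h
    refine ⟨fract b x, fract_mem_fundamentalDomain b x, ?_⟩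
    show ℓ + fract b x = x
    rw [← h, fract_apply]
    abel
  · rintro ⟨p, hp, rfl⟩
    show (floor b (ℓ + p) : E) = ℓ
    have h1 : fract b (ℓ + p) = p := by
      rw [fract_zSpan_add b p hℓ, fract_eq_self.mpr hp]
    have h2 : fract b (ℓ + p) = ℓ + p - floor b (ℓ + p) := fract_apply b _
    rw [h1] at h2
    calc (floor b (ℓ + p) : E) = (ℓ + p) - (ℓ + p - floor b (ℓ + p)) := by abel
      _ = (ℓ + p) - p := by rw [← h2]
      _ = ℓ := by abel

theorem dist_floor_le (x : E) : dist x (floor b x : E) ≤ ∑ i, ‖b i‖ := by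
  rw [dist_eq_norm, ← fract_apply]
  exact norm_fract_le b x

/-- If one of `x`, `floor x` is in `A` and the other is not, then `x` is close to the frontier. -/
theorem mem_closedBall_of_floor_mem_xor {A : Set E} {T : Finset E}
    (hT : frontier A ⊆ ⋃ c ∈ T, closedBall c 1) {x : E}
    (h : ((floor b x : E) ∈ A ∧ x ∉ A) ∨ (x ∈ A ∧ (floor b x : E) ∉ A)) :
    x ∈ ⋃ c ∈ T, closedBall c (1 + ∑ i, ‖b i‖) := by
  have hseg : IsPreconnected (segment ℝ x (floor b x : E)) := (convex_segment _ _).isPreconnected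
  obtain ⟨z, hzS, hzF⟩ : ∃ z ∈ segment ℝ x (floor b x : E), z ∈ frontier A := by
    rcases h with ⟨h1, h2⟩ | ⟨h1, h2⟩
    · exact exists_mem_frontier_of_isPreconnected hseg (right_mem_segment _ _ _) h1
        (left_mem_segment _ _ _) h2
    · exact exists_mem_frontier_of_isPreconnected hseg (left_mem_segment _ _ _) h1
        (right_mem_segment _ _ _) h2
  obtain ⟨c, hc, hzc⟩ := mem_iUnion₂.mp (hT hzF)
  refine mem_iUnion₂.mpr ⟨c, hc, ?_⟩
  have hzx : dist z x ≤ ∑ i, ‖b i‖ :=
    (mem_closedBall.mp (segment_subset_closedBall_left x _ hzS)).trans (dist_floor_le b x)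
  rw [mem_closedBall] at hzc ⊢
  calc dist x c ≤ dist x z + dist z c := dist_triangle _ _ _
    _ ≤ (∑ i, ‖b i‖) + 1 := add_le_add (by rwa [dist_comm]) hzc
    _ = 1 + ∑ i, ‖b i‖ := add_comm _ _

theorem abs_card_mul_sub_volume_le {A : Set E} (hA₁ : IsBounded A)
    (T : Finset E) (hT : frontier A ⊆ ⋃ c ∈ T, closedBall c 1) :
    |(Nat.card ↥(A ∩ (span ℤ (Set.range b) : Set E)) : ℝ) * volume.real (fundamentalDomain b)
        - volume.real A|
      ≤ T.card * volume.real (closedBall (0 : E) (1 + ∑ i, ‖b i‖)) := by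
  classical
  set δ : ℝ := ∑ i, ‖b i‖ with hδ
  have hfin : (A ∩ (span ℤ (Set.range b) : Set E)).Finite := setFinite_inter b hA₁
  set F : Finset E := hfin.toFinset with hF
  set P := fundamentalDomain b with hP
  set U : Set E := {x | (floor b x : E) ∈ A} with hU
  set W : Set E := ⋃ c ∈ T, closedBall c (1 + δ) with hW
  have hFmem : ∀ ℓ, ℓ ∈ F ↔ ℓ ∈ A ∧ ℓ ∈ span ℤ (Set.range b) := fun ℓ => by
    rw [hF, Set.Finite.mem_toFinset]; rfl
  have hUeq : U = ⋃ ℓ ∈ F, (ℓ +ᵥ P) := by
    ext x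
    simp only [hU, Set.mem_ofPred_eq, mem_iUnion, exists_prop]
    constructor
    · intro hx
      exact ⟨(floor b x : E), (hFmem _).mpr ⟨hx, (floor b x).2⟩,
        (floor_eq_iff_mem_vadd b (floor b x).2 x).mp rfl⟩
    · rintro ⟨ℓ, hℓ, hxℓ⟩
      rw [(floor_eq_iff_mem_vadd b ((hFmem ℓ).mp hℓ).2 x).mpr hxℓ]
      exact ((hFmem ℓ).mp hℓ).1
  have hPmeas : MeasurableSet P := fundamentalDomain_measurableSet b
  have hcell_meas : ∀ ℓ : E, MeasurableSet (ℓ +ᵥ P) := fun ℓ => hPmeas.const_vadd ℓ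
  have hdisj : (↑F : Set E).PairwiseDisjoint fun ℓ => ℓ +ᵥ P := by
    intro ℓ₁ h₁ ℓ₂ h₂ hne
    rw [Function.onFun, Set.disjoint_left]
    intro x hx₁ hx₂
    have e₁ := (floor_eq_iff_mem_vadd b ((hFmem ℓ₁).mp h₁).2 x).mpr hx₁
    have e₂ := (floor_eq_iff_mem_vadd b ((hFmem ℓ₂).mp h₂).2 x).mpr hx₂
    exact hne (e₁.symm.trans e₂)
  have hUvol : volume U = F.card * volume P := by
    rw [hUeq, measure_biUnion_finset hdisj fun ℓ _ => hcell_meas ℓ]
    simp only [measure_vadd, Finset.sum_const, nsmul_eq_mul]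
  have hPfin : volume P ≠ ⊤ := (fundamentalDomain_isBounded b).measure_lt_top.ne
  have hUfin : volume U ≠ ⊤ := by
    rw [hUvol]; exact ENNReal.mul_ne_top (ENNReal.natCast_ne_top _) hPfin
  have hAfin : volume A ≠ ⊤ := hA₁.measure_lt_top.ne
  have hWfin : volume W ≠ ⊤ := by
    refine ((measure_biUnion_finset_le T _).trans_lt ?_).ne
    exact ENNReal.sum_lt_top.mpr fun c _ => isBounded_closedBall.measure_lt_top
  have hUreal : volume.real U = F.card * volume.real P := by
    simp only [measureReal_def, hUvol, ENNReal.toReal_mul, ENNReal.toReal_natCast]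
  have hcard : Nat.card ↥(A ∩ (span ℤ (Set.range b) : Set E)) = F.card := by
    rw [Nat.card_coe_set_eq, Set.ncard_eq_toFinset_card _ hfin]
  have hUW : U ⊆ A ∪ W := by
    intro x hx
    by_cases hxA : x ∈ A
    · exact Or.inl hxA
    · exact Or.inr (mem_closedBall_of_floor_mem_xor b hT (Or.inl ⟨hx, hxA⟩))
  have hAW : A ⊆ U ∪ W := by
    intro x hx
    by_cases hxU : x ∈ U
    · exact Or.inl hxU
    · exact Or.inr (mem_closedBall_of_floor_mem_xor b hT (Or.inr ⟨hx, hxU⟩))
  have hWle : volume.real W ≤ T.card * volume.real (closedBall (0 : E) (1 + δ)) := by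
    refine (measureReal_biUnion_finset_le T _).trans (le_of_eq ?_)
    simp only [measureReal_def, Measure.addHaar_closedBall_center, Finset.sum_const,
      nsmul_eq_mul]
  have hAWfin : volume (A ∪ W) ≠ ⊤ :=
    ((measure_union_le A W).trans_lt (ENNReal.add_lt_top.mpr ⟨hAfin.lt_top, hWfin.lt_top⟩)).ne
  have hUWfin : volume (U ∪ W) ≠ ⊤ :=
    ((measure_union_le U W).trans_lt (ENNReal.add_lt_top.mpr ⟨hUfin.lt_top, hWfin.lt_top⟩)).ne
  have h1 : volume.real U ≤ volume.real A + volume.real W :=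
    (measureReal_mono hUW hAWfin).trans (measureReal_union_le A W)
  have h2 : volume.real A ≤ volume.real U + volume.real W :=
    (measureReal_mono hAW hUWfin).trans (measureReal_union_le U W)
  rw [hcard, ← hUreal, abs_le]
  constructor <;> linarith

end core

end Fermat.Agent.ExtVan.IdealCount

namespace Fermat.Agent.ExtVan.IdealCount

open MeasureTheory Metric Set Submodule Module ZSpan Bornology
open scoped Pointwise

section scaled

variable {E : Type*} [NormedAddCommGroup E] [InnerProductSpace ℝ E] [FiniteDimensional ℝ E]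
  [MeasurableSpace E] [BorelSpace E]
variable (L : Submodule ℤ E) [DiscreteTopology L] [IsZLattice ℝ L]

theorem frontier_smul_set {t : ℝ} (ht : t ≠ 0) (D : Set E) :
    frontier (t • D) = t • frontier D := by
  have := (Homeomorph.smulOfNeZero t ht : E ≃ₜ E).image_frontier D
  have e : ∀ S : Set E, (Homeomorph.smulOfNeZero t ht : E ≃ₜ E) '' S = t • S := fun S => by
    ext x
    simp only [Set.mem_image, Set.mem_smul_set]
    rfl
  rw [e, e] at this
  exact this.symm

/-- Lattice point count in a dilated set, with error term. -/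
theorem exists_bound_card_smul_inter {D : Set E} (hD : IsBounded D) {C : ℝ}
    (hC : HasCoverBound (frontier D) (finrank ℝ E - 1) C) :
    ∃ B : ℝ, 0 ≤ B ∧ ∀ t : ℝ, 1 ≤ t →
      |(Nat.card ↥((t • D) ∩ (L : Set E)) : ℝ) * ZLattice.covolume L
          - t ^ finrank ℝ E * volume.real D| ≤ B * t ^ (finrank ℝ E - 1) := by
  classical
  set b := (Module.Free.chooseBasis ℤ L).ofZLatticeBasis ℝ L with hb
  have hspan : (span ℤ (Set.range b) : Set E) = (L : Set E) := by
    rw [hb, Basis.ofZLatticeBasis_span ℝ L]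
  have hcov : ZLattice.covolume L = volume.real (fundamentalDomain b) :=
    ZLattice.covolume_eq_measure_fundamentalDomain L volume
      (ZLattice.isAddFundamentalDomain (Module.Free.chooseBasis ℤ L) volume)
  set V : ℝ := volume.real (closedBall (0 : E) (1 + ∑ i, ‖b i‖)) with hV
  have hV0 : 0 ≤ V := measureReal_nonneg
  refine ⟨C * V, mul_nonneg hC.const_nonneg hV0, fun t ht => ?_⟩
  have ht0 : 0 < t := lt_of_lt_of_le one_pos ht
  obtain ⟨T, hTcard, hTcov⟩ := hC t⁻¹ (inv_pos.mpr ht0) (inv_le_one_of_one_le₀ ht)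
  rw [inv_inv] at hTcard
  set T' : Finset E := T.image fun c => t • c with hT'
  have hT'cov : frontier (t • D) ⊆ ⋃ c ∈ T', closedBall c 1 := by
    rw [frontier_smul_set ht0.ne']
    rintro _ ⟨y, hy, rfl⟩
    obtain ⟨c, hc, hyc⟩ := mem_iUnion₂.mp (hTcov hy)
    refine mem_iUnion₂.mpr ⟨t • c, Finset.mem_image_of_mem _ hc, ?_⟩
    rw [mem_closedBall] at hyc ⊢
    show dist (t • y) (t • c) ≤ 1
    rw [dist_smul₀, Real.norm_of_nonneg ht0.le]
    calc t * dist y c ≤ t * t⁻¹ := mul_le_mul_of_nonneg_left hyc ht0.le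
      _ = 1 := mul_inv_cancel₀ ht0.ne'
  have hcore := abs_card_mul_sub_volume_le b (hD.smul₀ t) T' hT'cov
  rw [hspan, ← hcov] at hcore
  have hvol : volume.real (t • D) = t ^ finrank ℝ E * volume.real D := by
    rw [measureReal_def, Measure.addHaar_smul, ENNReal.toReal_mul, ENNReal.toReal_ofReal
      (abs_nonneg _), abs_of_pos (pow_pos ht0 _), measureReal_def]
  rw [hvol] at hcore
  refine hcore.trans ?_
  have h1 : (T'.card : ℝ) ≤ T.card := by exact_mod_cast Finset.card_image_le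
  calc (T'.card : ℝ) * V ≤ (C * t ^ (finrank ℝ E - 1)) * V :=
        mul_le_mul_of_nonneg_right (h1.trans hTcard) hV0
    _ = C * V * t ^ (finrank ℝ E - 1) := by ring

end scaled

end Fermat.Agent.ExtVan.IdealCount

namespace Fermat.Agent.ExtVan.IdealCount

open MeasureTheory Metric Set Submodule Module ZSpan Bornology
open scoped Pointwise

section cone

variable {E : Type*} [NormedAddCommGroup E] [InnerProductSpace ℝ E] [FiniteDimensional ℝ E]
  [MeasurableSpace E] [BorelSpace E]
variable (L : Submodule ℤ E) [DiscreteTopology L] [IsZLattice ℝ L]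

theorem smul_cone_le_one_eq {n : ℕ} {X : Set E} (hX : ∀ ⦃x⦄ ⦃r : ℝ⦄, x ∈ X → 0 < r → r • x ∈ X)
    {F : E → ℝ} (hF₁ : ∀ x ⦃r : ℝ⦄, 0 ≤ r → F (r • x) = r ^ n * (F x)) {c : ℝ} (hc : 0 < c) :
    c • {x ∈ X | F x ≤ 1} = {x ∈ X | F x ≤ c ^ n} := by
  ext x
  simp_rw [Set.mem_smul_set_iff_inv_smul_mem₀ hc.ne', Set.mem_ofPred_eq, hF₁ _
    (inv_pos_of_pos hc).le, inv_pow, inv_mul_le_iff₀ (pow_pos hc _), mul_one, and_congr_left_iff]
  exact fun _ ↦ ⟨fun h ↦ (smul_inv_smul₀ hc.ne' x) ▸ hX h hc, fun h ↦ hX h (inv_pos_of_pos hc)⟩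

/-- Lattice points of a cone with bounded norm: count with a power saving error term. -/
theorem exists_bound_card_le_inter [Nontrivial E] {X : Set E} {F : E → ℝ}
    (hX : ∀ ⦃x⦄ ⦃r : ℝ⦄, x ∈ X → 0 < r → r • x ∈ X)
    (h₁ : ∀ x ⦃r : ℝ⦄, 0 ≤ r → F (r • x) = r ^ finrank ℝ E * (F x))
    (h₂ : IsBounded {x ∈ X | F x ≤ 1}) {C : ℝ}
    (hC : HasCoverBound (frontier {x ∈ X | F x ≤ 1}) (finrank ℝ E - 1) C) :
    ∃ B : ℝ, 0 ≤ B ∧ ∀ c : ℝ, 1 ≤ c →
      |(Nat.card ↥({x ∈ X | F x ≤ c} ∩ (L : Set E)) : ℝ) * ZLattice.covolume L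
          - c * volume.real {x ∈ X | F x ≤ 1}| ≤ B * c ^ (1 - (finrank ℝ E : ℝ)⁻¹) := by
  obtain ⟨B, hB0, hB⟩ := exists_bound_card_smul_inter L h₂ hC
  refine ⟨B, hB0, fun c hc => ?_⟩
  have hn : 0 < finrank ℝ E := finrank_pos
  have hn' : (finrank ℝ E : ℝ) ≠ 0 := Nat.cast_ne_zero.mpr hn.ne'
  have hc0 : 0 < c := lt_of_lt_of_le one_pos hc
  set t : ℝ := c ^ ((finrank ℝ E : ℝ)⁻¹) with ht
  have ht1 : 1 ≤ t := Real.one_le_rpow hc (inv_nonneg.mpr (Nat.cast_nonneg _))
  have ht0 : 0 < t := lt_of_lt_of_le one_pos ht1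
  have htn : t ^ finrank ℝ E = c := by
    rw [ht, ← Real.rpow_natCast, ← Real.rpow_mul hc0.le, inv_mul_cancel₀ hn', Real.rpow_one]
  have htn1 : t ^ (finrank ℝ E - 1) = c ^ (1 - (finrank ℝ E : ℝ)⁻¹) := by
    rw [ht, ← Real.rpow_natCast, ← Real.rpow_mul hc0.le]
    congr 1
    rw [Nat.cast_sub hn, Nat.cast_one]
    field_simp
  have hset : t • {x ∈ X | F x ≤ 1} = {x ∈ X | F x ≤ c} := by
    rw [smul_cone_le_one_eq hX h₁ ht0, htn]
  have := hB t ht1
  rwa [hset, htn, htn1] at this

end cone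

end Fermat.Agent.ExtVan.IdealCount
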