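/-
S14 long shot, final assembly (helper7): `NoExt p` for every prime `p ≥ 3`.

`noExt_of_reciprocity` (NoExt.lean: endgame + first inequality + Jacobi factorisation) is fed with
Artin reciprocity on principal ideals, which is `artin_eq_one_of_isPrincipal_of_pair` (helper9,
pair lemma + first inequality ⇒ reciprocity) applied to the crossing lemma `hpair` (helper8 and
the whole crossing team, using the second inequality of helper2/lead).
-/
import Fermat.Agent.ExtVan.Bridge
import Fermat.Agent.ExtVan.Crossing.RecipOfPair
import Fermat.Agent.ExtVan.Crossing.HPair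

set_option autoImplicit false
set_option linter.style.haveILetI false
set_option linter.unusedSectionVars false

noncomputable section

namespace Fermat.Agent.ExtVan

open NumberField Module IsDedekindDomain
open scoped Pointwise nonZeroDivisors

variable {p : ℕ} [hp : Fact p.Prime]

/-- **NoExt** for every prime `p ≥ 3`: there is no everywhere unramified Galois extension `M / K`
of degree `p` of `K = ℚ(ζ_p)`, Galois over `ℚ`, with `Gal(K/ℚ)` acting on `Gal(M/K)` through
`ω⁻¹`. -/
theorem noExt (hp3 : 3 ≤ p) : NoExt p := by
  have hp2 : p ≠ 2 := by omega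
  refine noExt_of_reciprocity hp2 ?_
  intro K M _ _ _ _ _ _ _ _ hdeg hunr I hI
  haveI : NeZero p := ⟨hp.out.ne_zero⟩
  have hp3' : 2 < p := by omega
  haveI : IsTotallyComplex K := IsCyclotomicExtension.Rat.isTotallyComplex K hp3'
  exact artin_eq_one_of_isPrincipal_of_pair hdeg hunr
    (fun q1 q2 k h1 h2 h3 => Crossing.hpair hp2 hdeg hunr q1 q2 k h1 h2 h3) I hI

/-- No obstruction cocycle exists for `p ≥ 3`. -/
theorem not_isObstruction (hp3 : 3 ≤ p) (b : GQ → ZMod p) : ¬ IsObstruction p b :=
  not_isObstruction_of_noExt (noExt hp3) b

end Fermat.Agent.ExtVan
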